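import Mathlib

set_option autoImplicit false

/-!
# Elementary Hilbert irreducibility for the 3-isogeny quartic: local and formal lemmas
-/

namespace Fermat.Agent.H07

open Polynomial

/-- The quartic `X⁴ - 6aX² - 8bX - 3a²` whose roots are the rational 3-isogenies. -/
def QQ {R : Type*} [CommRing R] (a b X : R) : R := X ^ 4 - 6 * a * X ^ 2 - 8 * b * X - 3 * a ^ 2

lemma QQ_map {R S : Type*} [CommRing R] [CommRing S] (f : R →+* S) (a b X : R) :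
    f (QQ a b X) = QQ (f a) (f b) (f X) := by
  simp only [QQ, map_sub, map_mul, map_pow, map_ofNat]

/-- If `X` is a root of the quartic then `(X²-a)³(9a-X²) = 64X²(a³-b²)`. -/
lemma QQ_identity {R : Type*} [CommRing R] {a b X : R} (h : QQ a b X = 0) :
    (X ^ 2 - a) ^ 3 * (9 * a - X ^ 2) = 64 * X ^ 2 * (a ^ 3 - b ^ 2) := by
  unfold QQ at h
  linear_combination (-(X ^ 4 - 6 * a * X ^ 2 + 8 * b * X - 3 * a ^ 2)) * h

/-- The key divisibility at a prime dividing `e` exactly once. -/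
lemma prime_five {R : Type*} [CommRing R] [IsDomain R] {π a G e c : R} (hπ : Prime π)
    (h2 : ¬ π ∣ 2) (ha : ¬ π ∣ a) (hc : ¬ π ∣ c) (he : π ∣ e) (he2 : ¬ π ^ 2 ∣ e)
    (h : (G ^ 2 - a) ^ 3 * (9 * a - G ^ 2) = c * G ^ 2 * e ^ 5) : π ^ 5 ∣ 9 * a - G ^ 2 := by
  obtain ⟨e1, rfl⟩ := he
  have he1 : ¬ π ∣ e1 := fun h => he2 (by rw [pow_two]; exact mul_dvd_mul_left π h)
  have hπ0 : π ≠ 0 := hπ.ne_zero
  have hv : ¬ π ∣ G ^ 2 - a := by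
    rintro ⟨v1, hv1⟩
    have hu : ¬ π ∣ 9 * a - G ^ 2 := by
      intro h3
      have h4 : π ∣ 2 ^ 3 * a := by
        have : 2 ^ 3 * a = (9 * a - G ^ 2) + π * v1 := by rw [← hv1]; ring
        rw [this]; exact dvd_add h3 (Dvd.intro _ rfl)
      rcases hπ.dvd_or_dvd h4 with h5 | h5
      · exact h2 (hπ.dvd_of_dvd_pow h5)
      · exact ha h5
    rw [hv1] at h
    have e1' : v1 ^ 3 * (9 * a - G ^ 2) = π * (c * G ^ 2 * e1 ^ 5 * π) := by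
      apply mul_left_cancel₀ (pow_ne_zero 3 hπ0)
      linear_combination h
    have h6 : π ∣ v1 := by
      have : π ∣ v1 ^ 3 * (9 * a - G ^ 2) := ⟨_, e1'⟩
      rcases hπ.dvd_or_dvd this with h | h
      · exact hπ.dvd_of_dvd_pow h
      · exact absurd h hu
    obtain ⟨v2, rfl⟩ := h6
    have e2 : π * (v2 ^ 3 * (9 * a - G ^ 2)) = c * G ^ 2 * e1 ^ 5 := by
      apply mul_left_cancel₀ (pow_ne_zero 2 hπ0)
      linear_combination e1'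
    have h7 : π ∣ c * G ^ 2 * e1 ^ 5 := ⟨_, e2.symm⟩
    rcases hπ.dvd_or_dvd h7 with h8 | h8
    · rcases hπ.dvd_or_dvd h8 with h9 | h9
      · exact hc h9
      · apply ha
        have : a = G ^ 2 - π * (π * v2) := by rw [← hv1]; ring
        rw [this]
        exact dvd_sub h9 (Dvd.intro _ rfl)
    · exact he1 (hπ.dvd_of_dvd_pow h8)
  have h5 : π ^ 5 ∣ (G ^ 2 - a) ^ 3 * (9 * a - G ^ 2) := by
    rw [h]; exact ⟨c * G ^ 2 * e1 ^ 5, by ring⟩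
  exact hπ.pow_dvd_of_dvd_mul_left 5 (fun h => hv (hπ.dvd_of_dvd_pow h)) h5

/-- Local analysis of an integer root at a prime dividing the discriminant root once. -/
lemma local_root {p : ℤ} (hp : Prime p) (h2 : ¬ p ∣ 2) (h3 : ¬ p ∣ 3) {a b e D X : ℤ}
    (ha : ¬ p ∣ a) (hD : ¬ p ∣ D) (he : p ∣ e) (he2 : ¬ p ^ 2 ∣ e)
    (hab : a ^ 3 - b ^ 2 = 1728 * (D * e ^ 5)) (hX : QQ a b X = 0) :
    p ∣ b * X - 3 * a ^ 2 ∧ ¬ p ∣ b ∧ ¬ p ∣ 4 * X ^ 3 - 12 * a * X - 8 * b := by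
  have hid := QQ_identity hX
  rw [hab] at hid
  have h1728 : ¬ p ∣ 64 * 1728 * D := by
    intro h
    have : (64 * 1728 * D : ℤ) = 2 ^ 12 * 3 ^ 3 * D := by ring
    rw [this] at h
    rcases hp.dvd_or_dvd h with h | h
    · rcases hp.dvd_or_dvd h with h | h
      · exact h2 (hp.dvd_of_dvd_pow h)
      · exact h3 (hp.dvd_of_dvd_pow h)
    · exact hD h
  have h5 := prime_five hp h2 ha h1728 he he2 (by rw [hid]; ring :
    (X ^ 2 - a) ^ 3 * (9 * a - X ^ 2) = 64 * 1728 * D * X ^ 2 * e ^ 5)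
  have h6 : p ∣ 9 * a - X ^ 2 := (dvd_pow_self p (by norm_num)).trans h5
  obtain ⟨u, hu⟩ := h6
  obtain ⟨e1, rfl⟩ := he
  have hb : ¬ p ∣ b := by
    intro h
    apply ha
    have : a ^ 3 = b * b + p * (1728 * D * e1 ^ 5 * p ^ 4) := by linear_combination hab
    apply hp.dvd_of_dvd_pow (n := 3)
    rw [this]
    exact dvd_add (Dvd.dvd.mul_right h b) (Dvd.intro _ rfl)
  have h7 : p ∣ b * X - 3 * a ^ 2 := by
    have h8 : p ∣ 2 ^ 3 * (b * X - 3 * a ^ 2) := by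
      unfold QQ at hX
      refine ⟨u * (-X ^ 2 - 3 * a), ?_⟩
      linear_combination (-1) * hX + (-X ^ 2 - 3 * a) * hu
    rcases hp.dvd_or_dvd h8 with h | h
    · exact absurd (hp.dvd_of_dvd_pow h) h2
    · exact h
  refine ⟨h7, hb, ?_⟩
  intro h8
  -- b * Q'(X) ≡ 64 a³
  obtain ⟨t, ht⟩ := h7
  have h9 : p ∣ 2 ^ 6 * a ^ 3 := by
    obtain ⟨w, hw⟩ := h8
    refine ⟨b * w + 4 * X * b * u - 24 * a * t - 8 * (1728 * D * e1 ^ 5 * p ^ 4), ?_⟩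
    linear_combination (-b) * (-1) * hw + (4 * X * b) * hu - 24 * a * ht + (-8) * hab
  rcases hp.dvd_or_dvd h9 with h | h
  · exact h2 (hp.dvd_of_dvd_pow h)
  · exact ha (hp.dvd_of_dvd_pow h)

/-- Size of an integer root. -/
lemma size_root {a b X : ℤ} {T : ℤ} (hT : 0 < T) (ha : |a| ≤ T ^ 2) (hb : |b| ≤ T ^ 3)
    (hX : QQ a b X = 0) : |X| ≤ 5 * T := by
  by_contra hcon
  push Not at hcon
  unfold QQ at hX
  have hX0 : 0 < |X| := lt_trans (by positivity) hcon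
  have e1 : |X| ^ 4 ≤ 6 * T ^ 2 * |X| ^ 2 + 8 * T ^ 3 * |X| + 3 * (T ^ 2) ^ 2 := by
    have h1 : |X| ^ 4 = |6 * a * X ^ 2 + 8 * b * X + 3 * a ^ 2| := by
      rw [← abs_pow]; congr 1; linear_combination hX
    rw [h1]
    have h2 : |6 * a * X ^ 2 + 8 * b * X + 3 * a ^ 2| ≤ |6 * a * X ^ 2| + |8 * b * X| + |3 * a ^ 2| :=
      abs_add_three _ _ _
    have h3 : |6 * a * X ^ 2| = 6 * |a| * |X| ^ 2 := by
      rw [abs_mul, abs_mul, abs_pow]; norm_num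
    have h4 : |8 * b * X| = 8 * |b| * |X| := by
      rw [abs_mul, abs_mul]; norm_num
    have h5 : |3 * a ^ 2| = 3 * |a| ^ 2 := by
      rw [abs_mul, abs_pow]; norm_num
    rw [h3, h4, h5] at h2
    have h6 : 6 * |a| * |X| ^ 2 ≤ 6 * T ^ 2 * |X| ^ 2 := by
      apply mul_le_mul_of_nonneg_right _ (by positivity); linarith
    have h7 : 8 * |b| * |X| ≤ 8 * T ^ 3 * |X| := by
      apply mul_le_mul_of_nonneg_right _ (by positivity); linarith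
    have h8 : 3 * |a| ^ 2 ≤ 3 * (T ^ 2) ^ 2 := by
      have := pow_le_pow_left₀ (abs_nonneg a) ha 2
      linarith
    linarith
  have e2 : T ^ 2 * |X| ^ 2 * 25 ≤ |X| ^ 4 := by
    have : (5 * T) ^ 2 ≤ |X| ^ 2 := pow_le_pow_left₀ (by positivity) hcon.le 2
    nlinarith [sq_nonneg (|X|)]
  have e3 : T ^ 3 * |X| * 125 ≤ |X| ^ 4 := by
    have : (5 * T) ^ 3 ≤ |X| ^ 3 := pow_le_pow_left₀ (by positivity) hcon.le 3
    nlinarith
  have e4 : T ^ 4 * 625 ≤ |X| ^ 4 := by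
    have : (5 * T) ^ 4 ≤ |X| ^ 4 := pow_le_pow_left₀ (by positivity) hcon.le 4
    nlinarith
  have e5 : 0 < |X| ^ 4 := by positivity
  nlinarith

/-- Newton iteration in `ℤ[w]`. -/
lemma newton (a1 b1 X0 δ : ℤ) (U V : ℤ[X]) (hQ : QQ a1 b1 X0 = 0)
    (hδ : δ = 4 * X0 ^ 3 - 12 * a1 * X0 - 8 * b1) (n : ℕ) :
    ∃ Y S : ℤ[X], Y.natDegree ≤ n ∧ X ∣ Y ∧
      QQ (C a1 + C (δ ^ 2) * X * U) (C b1 + C (δ ^ 2) * X * V) (C X0 + C δ * Y) =
        C (δ ^ 2) * X ^ (n + 1) * S := by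
  -- the reduced function
  let F : ℤ[X] → ℤ[X] := fun Y => Y + (6 * C X0 ^ 2 - 6 * C a1) * Y ^ 2 + 4 * C δ * C X0 * Y ^ 3 +
    C δ ^ 2 * Y ^ 4 + X * (-6 * U * (C X0 + C δ * Y) ^ 2 - 8 * V * (C X0 + C δ * Y)
      - 6 * C a1 * U - 3 * C δ ^ 2 * X * U ^ 2)
  have hF : ∀ Y : ℤ[X], QQ (C a1 + C (δ ^ 2) * X * U) (C b1 + C (δ ^ 2) * X * V) (C X0 + C δ * Y) =
      C (δ ^ 2) * F Y := by
    intro Y
    have hQ' : (C X0 : ℤ[X]) ^ 4 - 6 * C a1 * C X0 ^ 2 - 8 * C b1 * C X0 - 3 * C a1 ^ 2 = 0 := by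
      have := congrArg (C : ℤ → ℤ[X]) hQ
      simpa [QQ] using this
    have hδ' : (C δ : ℤ[X]) = 4 * C X0 ^ 3 - 12 * C a1 * C X0 - 8 * C b1 := by
      have := congrArg (C : ℤ → ℤ[X]) hδ
      simpa using this
    simp only [QQ, F, map_pow]
    linear_combination hQ' - (C δ * Y) * hδ'
  suffices h : ∃ Y S : ℤ[X], Y.natDegree ≤ n ∧ X ∣ Y ∧ F Y = X ^ (n + 1) * S by
    obtain ⟨Y, S, h1, h2, h3⟩ := h
    exact ⟨Y, S, h1, h2, by rw [hF, h3]; ring⟩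
  induction n with
  | zero =>
    refine ⟨0, -6 * U * (C X0) ^ 2 - 8 * V * (C X0) - 6 * C a1 * U - 3 * C δ ^ 2 * X * U ^ 2,
      by simp, dvd_zero _, ?_⟩
    simp only [F]; ring
  | succ n ih =>
    obtain ⟨Y, S, h1, ⟨Y1, rfl⟩, h3⟩ := ih
    obtain ⟨S1, hS1⟩ : ∃ S1, S = C (S.coeff 0) + X * S1 :=
      ⟨S.divX, by rw [add_comm, mul_comm]; exact (divX_mul_X_add S).symm⟩
    obtain ⟨s0, hs0⟩ : ∃ s, s = S.coeff 0 := ⟨_, rfl⟩
    rw [← hs0] at hS1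
    let t : ℤ[X] := C (-s0) * X ^ (n + 1)
    let Y : ℤ[X] := X * Y1
    refine ⟨X * Y1 + C (-s0) * X ^ (n + 1), S1 - C s0 * (
        (6 * C X0 ^ 2 - 6 * C a1) * (2 * Y1 + C (-s0) * X ^ n)
        + 4 * C δ * C X0 * (3 * X * Y1 ^ 2 + 3 * Y1 * t + C (-s0) * X ^ n * t)
        + C δ ^ 2 * (4 * X ^ 2 * Y1 ^ 3 + 6 * X * Y1 ^ 2 * t + 4 * Y1 * t ^ 2
            + C (-s0) * X ^ n * t ^ 2)
        + (-6 * U * (2 * C δ * (C X0 + C δ * Y) + C δ ^ 2 * t) - 8 * V * C δ)), ?_, ?_, ?_⟩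
    · refine (natDegree_add_le _ _).trans (max_le (h1.trans (Nat.le_succ n)) ?_)
      exact (natDegree_C_mul_X_pow_le _ _)
    · exact dvd_add (Dvd.intro _ rfl) (Dvd.dvd.mul_left (dvd_pow_self X (Nat.succ_ne_zero n)) _)
    · rw [hS1] at h3
      simp only [F, Y, t, map_neg] at h3 ⊢
      linear_combination h3

end Fermat.Agent.H07
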