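import Mathlib
import Fermat.Agent.H07.HilbertA

set_option autoImplicit false

/-!
# Elementary Hilbert irreducibility: the abstract statement
-/

namespace Fermat.Agent.H07

open Polynomial

/-- growth bound -/
lemma eval_growth (F : ℤ[X]) (n : ℕ) (hF : F.natDegree ≤ n) :
    ∃ K : ℤ, 1 ≤ K ∧ ∀ t : ℤ, t ≠ 0 → |F.eval t| ≤ K * |t| ^ n := by
  refine ⟨∑ i ∈ Finset.range (n + 1), |F.coeff i| + 1, ?_, ?_⟩
  · have : 0 ≤ ∑ i ∈ Finset.range (n + 1), |F.coeff i| := Finset.sum_nonneg fun i _ => abs_nonneg _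
    linarith
  · intro t ht
    have h1 : 1 ≤ |t| := Int.one_le_abs ht
    rw [eval_eq_sum_range' (Nat.lt_succ_of_le hF)]
    calc |∑ i ∈ Finset.range (n + 1), F.coeff i * t ^ i|
        ≤ ∑ i ∈ Finset.range (n + 1), |F.coeff i * t ^ i| := Finset.abs_sum_le_sum_abs _ _
      _ ≤ ∑ i ∈ Finset.range (n + 1), |F.coeff i| * |t| ^ n := by
          apply Finset.sum_le_sum
          intro i hi
          rw [abs_mul, abs_pow]
          apply mul_le_mul_of_nonneg_left _ (abs_nonneg _)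
          exact pow_le_pow_right₀ h1 (Nat.lt_succ_iff.mp (Finset.mem_range.mp hi))
      _ = (∑ i ∈ Finset.range (n + 1), |F.coeff i|) * |t| ^ n := by rw [Finset.sum_mul]
      _ ≤ _ := by
          apply mul_le_mul_of_nonneg_right _ (by positivity)
          linarith

/-- shifting a polynomial -/
lemma comp_shift (A : ℤ[X]) (m1 s : ℤ) :
    ∃ U : ℤ[X], A.comp (C m1 + C s * X) = C (A.eval m1) + C s * X * U := by
  have h : (C m1 + C s * X) - C m1 ∣ (A.map C).eval (C m1 + C s * X) - (A.map C).eval (C m1) :=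
    sub_dvd_eval_sub _ _ _
  obtain ⟨U, hU⟩ := h
  refine ⟨U, ?_⟩
  have e1 : (A.map C).eval (C m1 + C s * X) = A.comp (C m1 + C s * X) := by
    rw [eval_map]; rfl
  have e2 : (A.map C).eval (C m1) = C (A.eval m1) := by
    rw [eval_map, eval₂_at_apply]
  rw [e1, e2] at hU
  linear_combination hU

lemma final_step (A B E G : ℂ[X]) (D : ℂ) (hD : D ≠ 0) (hA : A.natDegree ≤ 20)
    (hG : G.natDegree ≤ 10) (hE : 5 ≤ E.natDegree)
    (hdisc : A ^ 3 - B ^ 2 = C (1728 * D) * E ^ 5)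
    (hC1 : ∀ z, E.eval z = 0 → A.eval z ≠ 0)
    (hC2 : ∀ z, E.eval z = 0 → (derivative E).eval z ≠ 0)
    (hQ : QQ A B G = 0) : False := by
  have hid := QQ_identity hQ
  rw [hdisc] at hid
  have hE0 : E ≠ 0 := by rintro rfl; simp at hE
  have hc : (C (1728 * D) : ℂ[X]) ≠ 0 := by
    rw [Ne, C_eq_zero]; exact mul_ne_zero (by norm_num) hD
  have key : ∀ z, E.eval z = 0 → (X - C z) ^ 5 ∣ 9 * A - G ^ 2 := by
    intro z hz
    have hπ : Prime (X - C z) := prime_X_sub_C z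
    apply prime_five (c := C (64 * 1728 * D)) (e := E) hπ
    · rw [dvd_iff_isRoot, IsRoot.def]; simp
    · rw [dvd_iff_isRoot, IsRoot.def]; exact hC1 z hz
    · rw [dvd_iff_isRoot, IsRoot.def, eval_C]
      exact mul_ne_zero (by norm_num) hD
    · rw [dvd_iff_isRoot, IsRoot.def]; exact hz
    · rintro ⟨r, hr⟩
      apply hC2 z hz
      rw [hr]
      simp [derivative_mul, derivative_pow]
    · rw [hid]; simp only [map_mul, map_ofNat]; ring
  have hF : 9 * A - G ^ 2 = 0 := by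
    by_contra hF
    have h1 : 5 • E.roots ≤ (9 * A - G ^ 2).roots := by
      rw [Multiset.le_iff_count]
      intro z
      rw [Multiset.count_nsmul, count_roots, count_roots]
      by_cases hz : E.eval z = 0
      · have h2 : rootMultiplicity z E ≤ 1 := by
          by_contra hcon
          push Not at hcon
          obtain ⟨r, hr⟩ := (le_rootMultiplicity_iff hE0).mp (Nat.succ_le_of_lt hcon)
          apply hC2 z hz
          rw [hr]
          simp [derivative_mul, derivative_pow]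
        have h3 : 5 ≤ rootMultiplicity z (9 * A - G ^ 2) :=
          (le_rootMultiplicity_iff hF).mpr (key z hz)
        omega
      · have : rootMultiplicity z E = 0 := rootMultiplicity_eq_zero hz
        rw [this]; simp
    have h2 := Multiset.card_le_card h1
    rw [Multiset.card_nsmul] at h2
    have h3 : E.roots.card = E.natDegree := by
      exact (splits_iff_card_roots.mp (IsAlgClosed.splits E))
    have h4 := card_roots' (9 * A - G ^ 2)
    have h5 : (9 * A - G ^ 2).natDegree ≤ 20 := by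
      refine (natDegree_sub_le _ _).trans (max_le ?_ ?_)
      · have : (9 * A : ℂ[X]) = C 9 * A := by rw [show (C (9:ℂ) : ℂ[X]) = 9 from map_ofNat C 9]
        rw [this]
        exact (natDegree_C_mul_le _ _).trans hA
      · refine natDegree_pow_le.trans ?_
        omega
    rw [h3] at h2
    omega
  rw [hF, mul_zero] at hid
  have hG0 : G = 0 := by
    have h1 : G ^ 2 = 0 := by
      have h2 : (64 : ℂ[X]) ≠ 0 := by norm_num
      have h3 := mul_ne_zero hc (pow_ne_zero 5 hE0)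
      rcases mul_eq_zero.mp hid.symm with h | h
      · exact (mul_eq_zero.mp h).resolve_left h2
      · exact absurd h h3
    exact pow_eq_zero_iff (two_ne_zero) |>.mp h1
  obtain ⟨z, hz⟩ : ∃ z, E.eval z = 0 := by
    have : E.degree ≠ 0 := by
      intro h
      have h0 : E.natDegree = 0 := natDegree_eq_of_degree_eq_some (n := 0) (by simpa using h)
      omega
    exact IsAlgClosed.exists_root E this
  apply hC1 z hz
  rw [hG0] at hF
  have h1 : A = 0 := by
    have h9 : (9 : ℂ[X]) ≠ 0 := by norm_num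
    have : 9 * A = 0 := by linear_combination hF
    exact (mul_eq_zero.mp this).resolve_left h9
  rw [h1]; simp

/-- step 1: find a parameter where the polynomial `E` is exactly divisible by a prime once. -/
lemma exists_exact_prime (E : ℤ[X]) (hE : 5 ≤ E.natDegree) (hE0 : E.coeff 0 = 1) (N : ℤ)
    (hN : 1 < N)
    (hE' : ∀ p : ℕ, p.Prime → ¬ (p : ℤ) ∣ N → ∀ m, (p : ℤ) ∣ E.eval m →
      ¬ (p : ℤ) ∣ (derivative E).eval m) :
    ∃ m1 : ℤ, N ∣ m1 ∧ ∃ p : ℕ, p.Prime ∧ ¬ (p : ℤ) ∣ N ∧ (p : ℤ) ∣ E.eval m1 ∧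
      ¬ (p : ℤ) ^ 2 ∣ E.eval m1 := by
  have hN0 : N ≠ 0 := by omega
  have hmod : ∀ m : ℤ, N ∣ m → N ∣ E.eval m - 1 := by
    intro m hm
    have h1 : m - 0 ∣ E.eval m - E.eval 0 := sub_dvd_eval_sub _ _ _
    rw [← coeff_zero_eq_eval_zero, hE0, sub_zero] at h1
    exact hm.trans h1
  obtain ⟨k, hk⟩ : ∃ k : ℤ, (E.eval (N * k)).natAbs ≠ 1 := by
    by_contra hcon
    push Not at hcon
    have h1 : E ^ 2 - 1 = 0 := by
      apply eq_zero_of_infinite_isRoot
      apply Set.infinite_of_injective_forall_mem (f := fun k : ℤ => N * k)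
      · intro a b hab
        exact mul_left_cancel₀ hN0 hab
      · intro k
        have h2 := hcon k
        rw [Set.mem_ofPred_eq, IsRoot.def, eval_sub, eval_pow, eval_one]
        have h3 : (E.eval (N * k)) ^ 2 = 1 := by
          rw [← Int.natAbs_sq, h2]; norm_num
        rw [h3]; ring
    have h2 : E ^ 2 = 1 := by linear_combination h1
    have h3 : (E ^ 2).natDegree = 0 := by rw [h2]; simp
    rw [natDegree_pow] at h3
    omega
  obtain ⟨p, hp, hpd⟩ := Nat.exists_prime_and_dvd hk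
  have hpd' : (p : ℤ) ∣ E.eval (N * k) := Int.natCast_dvd.mpr hpd
  have hp' := Nat.prime_iff_prime_int.mp hp
  have hpN : ¬ (p : ℤ) ∣ N := by
    intro h
    have h1 := h.trans (hmod (N * k) (Dvd.intro _ rfl))
    have h2 : (p : ℤ) ∣ 1 := by
      have : (1 : ℤ) = E.eval (N * k) - (E.eval (N * k) - 1) := by ring
      rw [this]; exact dvd_sub hpd' h1
    exact hp'.not_isUnit (isUnit_of_dvd_one h2)
  by_cases hsq : (p : ℤ) ^ 2 ∣ E.eval (N * k)
  · refine ⟨N * k + N * p, dvd_add (Dvd.intro _ rfl) (Dvd.intro _ rfl), p, hp, hpN, ?_, ?_⟩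
    · obtain ⟨r, hr⟩ := E.binomExpansion (N * k) (N * p)
      rw [hr]
      refine dvd_add (dvd_add hpd' ?_) ?_
      · exact ⟨(derivative E).eval (N * k) * N, by ring⟩
      · exact ⟨r * N ^ 2 * p, by ring⟩
    · intro h
      obtain ⟨r, hr⟩ := E.binomExpansion (N * k) (N * p)
      rw [hr] at h
      have h1 : (p : ℤ) ^ 2 ∣ (derivative E).eval (N * k) * (N * p) := by
        have : (derivative E).eval (N * k) * (N * p) =
            (E.eval (N * k) + (derivative E).eval (N * k) * (N * p) + r * (N * p) ^ 2)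
            - E.eval (N * k) - r * (N * p) ^ 2 := by ring
        rw [this]
        refine dvd_sub (dvd_sub h hsq) ⟨r * N ^ 2, by ring⟩
      obtain ⟨t, ht⟩ := h1
      have h2 : (derivative E).eval (N * k) * N = p * t := by
        apply mul_left_cancel₀ hp'.ne_zero
        linear_combination ht
      rcases hp'.dvd_or_dvd (⟨t, h2⟩ : (p : ℤ) ∣ _) with h3 | h3
      · exact hE' p hp hpN _ hpd' h3
      · exact hpN h3
  · exact ⟨N * k, Dvd.intro _ rfl, p, hp, hpN, hpd', hsq⟩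

/-- the contradiction over `ℂ` from a polynomial solution -/
lemma no_poly_solution (A B E : ℤ[X]) (D : ℤ) (hD : D ≠ 0)
    (hA : A.natDegree ≤ 20) (hE : 5 ≤ E.natDegree)
    (hdisc : A ^ 3 - B ^ 2 = C (1728 * D) * E ^ 5)
    (hC1 : ∀ z : ℂ, (E.map (Int.castRingHom ℂ)).eval z = 0 →
      (A.map (Int.castRingHom ℂ)).eval z ≠ 0)
    (hC2 : ∀ z : ℂ, (E.map (Int.castRingHom ℂ)).eval z = 0 →
      ((derivative E).map (Int.castRingHom ℂ)).eval z ≠ 0)
    (m1 s : ℤ) (hs : s ≠ 0) (G : ℤ[X]) (hG : G.natDegree ≤ 10)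
    (hQ : QQ (A.comp (C m1 + C s * X)) (B.comp (C m1 + C s * X)) G = 0) : False := by
  let f := Int.castRingHom ℂ
  have hf : Function.Injective f := Int.cast_injective
  have hs' : (s : ℂ) ≠ 0 := by exact_mod_cast hs
  let L : ℂ[X] := C ((s : ℂ)⁻¹) * (X - C (m1 : ℂ))
  have hL : (C (m1 : ℂ) + C (s : ℂ) * X : ℂ[X]).comp L = X := by
    simp only [L, add_comp, mul_comp, C_comp, X_comp]
    rw [← mul_assoc, ← C_mul, mul_inv_cancel₀ hs', C_1]
    ring
  have hcomp : ∀ F : ℤ[X], ((F.comp (C m1 + C s * X)).map f).comp L = F.map f := by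
    intro F
    rw [Polynomial.map_comp, comp_assoc]
    have : (C m1 + C s * X : ℤ[X]).map f = C (m1 : ℂ) + C (s : ℂ) * X := by
      simp [f]
    rw [this, hL, comp_X]
  refine final_step (A.map f) (B.map f) (E.map f) ((G.map f).comp L) (D : ℂ)
    (by exact_mod_cast hD) (natDegree_map_le.trans hA) ?_
    (by rw [natDegree_map_eq_of_injective hf]; exact hE) ?_ hC1 ?_ ?_
  · refine natDegree_comp_le.trans ?_
    have h1 : L.natDegree ≤ 1 := by
      refine (natDegree_C_mul_le _ _).trans ?_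
      rw [natDegree_X_sub_C]
    have h2 : (G.map f).natDegree ≤ 10 := natDegree_map_le.trans hG
    calc (G.map f).natDegree * L.natDegree ≤ 10 * 1 := Nat.mul_le_mul h2 h1
      _ = 10 := by norm_num
  · have := congrArg (Polynomial.map f) hdisc
    rw [Polynomial.map_sub, Polynomial.map_pow, Polynomial.map_pow, Polynomial.map_mul,
      Polynomial.map_pow, map_C] at this
    rw [this]; simp [f]
  · intro z hz
    rw [derivative_map]
    exact hC2 z hz
  · have h1 := congrArg (fun P : ℤ[X] => (P.map f).comp L) hQ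
    simp only [Polynomial.map_zero, zero_comp] at h1
    rw [← h1]
    have h2 : ∀ P : ℤ[X], (P.map f).comp L = (compRingHom L).comp (mapRingHom f) P := by
      intro P; rfl
    rw [h2 (QQ _ _ _), QQ_map, ← h2, ← h2, ← h2, hcomp, hcomp]

theorem hilbert_abstract (A B E : ℤ[X]) (D : ℤ) (hD : D ≠ 0)
    (hA : A.natDegree ≤ 20) (hB : B.natDegree ≤ 30) (hE : 5 ≤ E.natDegree)
    (hE0 : E.coeff 0 = 1)
    (hdisc : A ^ 3 - B ^ 2 = C (1728 * D) * E ^ 5)
    (hcop : ∀ p : ℕ, p.Prime → ¬ (p : ℤ) ∣ 30 * D → ∀ m : ℤ, (p : ℤ) ∣ E.eval m →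
      ¬ (p : ℤ) ∣ A.eval m)
    (hE' : ∀ p : ℕ, p.Prime → ¬ (p : ℤ) ∣ 30 * D → ∀ m, (p : ℤ) ∣ E.eval m →
      ¬ (p : ℤ) ∣ (derivative E).eval m)
    (hC1 : ∀ z : ℂ, (E.map (Int.castRingHom ℂ)).eval z = 0 →
      (A.map (Int.castRingHom ℂ)).eval z ≠ 0)
    (hC2 : ∀ z : ℂ, (E.map (Int.castRingHom ℂ)).eval z = 0 →
      ((derivative E).map (Int.castRingHom ℂ)).eval z ≠ 0)
    (M : ℤ) (hM : M ≠ 0) :
    ∃ n : ℤ, M ∣ n ∧ ∀ X : ℤ, QQ (A.eval (1728 * n)) (B.eval (1728 * n)) X ≠ 0 := by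
  by_contra hcon
  push Not at hcon
  obtain ⟨N, hN1, hNM, hND⟩ : ∃ N : ℤ, 1 < N ∧ 1728 * M ∣ N ∧ 30 * D ∣ N := by
    refine ⟨|1728 * M * (30 * D)|, ?_, ?_, ?_⟩
    · rw [abs_mul, abs_mul, abs_mul]
      have h1 := Int.one_le_abs hM
      have h2 := Int.one_le_abs hD
      have h3 : |(1728 : ℤ)| = 1728 := by norm_num
      have h4 : |(30 : ℤ)| = 30 := by norm_num
      rw [h3, h4]
      nlinarith
    · rw [dvd_abs]; exact Dvd.intro _ rfl
    · rw [dvd_abs]; exact Dvd.intro_left _ rfl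
  have hN0 : N ≠ 0 := by omega
  have hroot : ∀ m, N ∣ m → ∃ X, QQ (A.eval m) (B.eval m) X = 0 := by
    intro m hm
    obtain ⟨t, ht⟩ := hNM.trans hm
    obtain ⟨x, hx⟩ := hcon (M * t) (Dvd.intro _ rfl)
    refine ⟨x, ?_⟩
    rw [ht, mul_assoc]; exact hx
  have hpND : ∀ p : ℕ, ¬ (p : ℤ) ∣ N → ¬ (p : ℤ) ∣ 30 * D := fun p h h' => h (h'.trans hND)
  obtain ⟨m1, hm1, p, hp, hpN, hpE, hpE2⟩ := exists_exact_prime E hE hE0 N hN1
    (fun p hp hpN => hE' p hp (hpND p hpN))
  have hp' := Nat.prime_iff_prime_int.mp hp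
  have hp30 := hpND p hpN
  have hp2 : ¬ (p : ℤ) ∣ 2 := fun h => hp30 (h.trans ⟨15 * D, by ring⟩)
  have hp3 : ¬ (p : ℤ) ∣ 3 := fun h => hp30 (h.trans ⟨10 * D, by ring⟩)
  have hpD : ¬ (p : ℤ) ∣ D := fun h => hp30 (h.trans ⟨30, by ring⟩)
  have hdisc' : ∀ m, (A.eval m) ^ 3 - (B.eval m) ^ 2 = 1728 * (D * (E.eval m) ^ 5) := by
    intro m
    have := congrArg (eval m) hdisc
    simp only [eval_sub, eval_pow, eval_mul, eval_C] at this
    rw [this]; ring
  obtain ⟨X0, hX0⟩ := hroot m1 hm1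
  obtain ⟨hl1, hl2, hl3⟩ := local_root hp' hp2 hp3 (hcop p hp hp30 m1 hpE) hpD hpE hpE2
    (hdisc' m1) hX0
  obtain ⟨δ, hδ⟩ : ∃ δ, δ = 4 * X0 ^ 3 - 12 * A.eval m1 * X0 - 8 * B.eval m1 := ⟨_, rfl⟩
  rw [← hδ] at hl3
  have hδ0 : δ ≠ 0 := by rintro rfl; exact hl3 (dvd_zero _)
  obtain ⟨U, hU⟩ := comp_shift A m1 (δ ^ 2)
  obtain ⟨V, hV⟩ := comp_shift B m1 (δ ^ 2)
  obtain ⟨Y, S, hY1, ⟨Y1, hY2⟩, hY3⟩ := newton (A.eval m1) (B.eval m1) X0 δ U V hX0 hδ 10
  rw [← hU, ← hV] at hY3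
  set Aw := A.comp (C m1 + C (δ ^ 2) * X) with hAw
  set Bw := B.comp (C m1 + C (δ ^ 2) * X) with hBw
  set G := C X0 + C δ * Y with hG
  have hlin : (C m1 + C (δ ^ 2) * X : ℤ[X]).natDegree ≤ 1 := by
    refine (natDegree_add_le _ _).trans (max_le (by simp) ?_)
    exact (natDegree_C_mul_le _ _).trans natDegree_X_le
  have hAwd : Aw.natDegree ≤ 20 := by
    refine natDegree_comp_le.trans ?_
    calc A.natDegree * _ ≤ 20 * 1 := Nat.mul_le_mul hA hlin
      _ = 20 := by norm_num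
  have hBwd : Bw.natDegree ≤ 30 := by
    refine natDegree_comp_le.trans ?_
    calc B.natDegree * _ ≤ 30 * 1 := Nat.mul_le_mul hB hlin
      _ = 30 := by norm_num
  have hGd : G.natDegree ≤ 10 := by
    refine (natDegree_add_le _ _).trans (max_le (by simp) ?_)
    exact (natDegree_C_mul_le _ _).trans hY1
  obtain ⟨Ka, hKa1, hKa⟩ := eval_growth Aw 20 hAwd
  obtain ⟨Kb, hKb1, hKb⟩ := eval_growth Bw 30 hBwd
  obtain ⟨Kg, hKg1, hKg⟩ := eval_growth G 10 hGd
  obtain ⟨K, hK⟩ : ∃ K, K = Ka + Kb + Kg := ⟨_, rfl⟩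
  have hAw_eval : ∀ w, Aw.eval w = A.eval (m1 + δ ^ 2 * w) := by
    intro w; rw [hAw, eval_comp]; simp
  have hBw_eval : ∀ w, Bw.eval w = B.eval (m1 + δ ^ 2 * w) := by
    intro w; rw [hBw, eval_comp]; simp
  -- main claim
  have claim : ∀ k : ℕ, 2 ≤ k → 6 * K * N ^ 10 < (p : ℤ) ^ k →
      QQ (Aw.eval (N * p ^ k)) (Bw.eval (N * p ^ k)) (G.eval (N * p ^ k)) = 0 := by
    intro k hk2 hkp
    set w := N * (p : ℤ) ^ k with hw
    have hp0 : (0 : ℤ) < p := by exact_mod_cast hp.pos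
    have hw0 : w ≠ 0 := mul_ne_zero hN0 (pow_ne_zero k hp0.ne')
    have hpw2 : (p : ℤ) ^ 2 ∣ w := (pow_dvd_pow (p : ℤ) hk2).trans (Dvd.intro_left _ rfl)
    have hpw : (p : ℤ) ∣ w := (dvd_pow_self (p : ℤ) two_ne_zero).trans hpw2
    have hmN : N ∣ m1 + δ ^ 2 * w := dvd_add hm1 ⟨δ ^ 2 * (p : ℤ) ^ k, by rw [hw]; ring⟩
    obtain ⟨x, hx⟩ := hroot _ hmN
    have hdiff : ∀ F : ℤ[X], w ∣ F.eval (m1 + δ ^ 2 * w) - F.eval m1 := by
      intro F
      have h1 : (m1 + δ ^ 2 * w) - m1 ∣ F.eval (m1 + δ ^ 2 * w) - F.eval m1 :=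
        sub_dvd_eval_sub _ _ _
      have h2 : w ∣ (m1 + δ ^ 2 * w) - m1 := ⟨δ ^ 2, by ring⟩
      exact h2.trans h1
    have hpEm : (p : ℤ) ∣ E.eval (m1 + δ ^ 2 * w) := by
      have := dvd_add (hpw.trans (hdiff E)) hpE
      simpa using this
    have hpEm2 : ¬ (p : ℤ) ^ 2 ∣ E.eval (m1 + δ ^ 2 * w) := by
      intro h
      apply hpE2
      have := dvd_sub h (hpw2.trans (hdiff E))
      simpa using this
    obtain ⟨hx1, hx2, hx3⟩ := local_root hp' hp2 hp3 (hcop p hp hp30 _ hpEm) hpD hpEm hpEm2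
      (hdisc' _) hx
    set a := A.eval (m1 + δ ^ 2 * w) with ha
    set b := B.eval (m1 + δ ^ 2 * w) with hb
    obtain ⟨ra, hra⟩ := hpw.trans (hdiff A)
    obtain ⟨rb, hrb⟩ := hpw.trans (hdiff B)
    rw [← ha] at hra
    rw [← hb] at hrb
    have hxX0 : (p : ℤ) ∣ x - X0 := by
      have h1 : (p : ℤ) ∣ B.eval m1 * (x - X0) := by
        have : B.eval m1 * (x - X0) = (b * x - 3 * a ^ 2) - (B.eval m1 * X0 - 3 * A.eval m1 ^ 2)
            - p * (rb * x - 3 * ra * (a + A.eval m1)) := by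
          linear_combination (-x) * hrb + 3 * (a + A.eval m1) * hra
        rw [this]
        exact dvd_sub (dvd_sub hx1 hl1) (Dvd.intro _ rfl)
      exact (hp'.dvd_or_dvd h1).resolve_left hl2
    obtain ⟨rx, hrx⟩ := hxX0
    set g := G.eval w with hg
    have hgX0 : g = X0 + δ * (w * Y1.eval w) := by
      rw [hg, hG, hY2]; simp
    obtain ⟨rw', hrw⟩ := hpw
    have hmain := congrArg (eval w) hY3
    have hQe : eval w (QQ Aw Bw G) = QQ a b g := by
      have := QQ_map (evalRingHom w) Aw Bw G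
      simp only [coe_evalRingHom] at this
      rw [this, hAw_eval, hBw_eval]
    rw [hQe] at hmain
    simp only [eval_mul, eval_C, eval_pow, eval_X] at hmain
    rw [hAw_eval, hBw_eval]
    by_contra hne
    have hxg : x ≠ g := by rintro rfl; exact hne hx
    -- factorisation
    have hfac : (x - g) * (x ^ 3 + x ^ 2 * g + x * g ^ 2 + g ^ 3 - 6 * a * (x + g) - 8 * b) =
        -(δ ^ 2 * w ^ 11 * eval w S) := by
      rw [← hmain]
      unfold QQ at hx ⊢
      linear_combination hx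
    have hH : ¬ (p : ℤ) ∣ x ^ 3 + x ^ 2 * g + x * g ^ 2 + g ^ 3 - 6 * a * (x + g) - 8 * b := by
      intro h
      apply hl3
      have e1 : x = X0 + p * rx := by linear_combination hrx
      have e2 : g = X0 + p * (δ * rw' * Y1.eval w) := by
        rw [hgX0]; linear_combination (δ * Y1.eval w) * hrw
      have e3 : a = A.eval m1 + p * ra := by linear_combination hra
      have e4 : b = B.eval m1 + p * rb := by linear_combination hrb
      have e5 : ∀ (P x0 a0 b0 r1 r2 r3 r4 : ℤ), P ∣ ((x0 + P * r1) ^ 3 +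
          (x0 + P * r1) ^ 2 * (x0 + P * r2) + (x0 + P * r1) * (x0 + P * r2) ^ 2
          + (x0 + P * r2) ^ 3 - 6 * (a0 + P * r3) * ((x0 + P * r1) + (x0 + P * r2))
          - 8 * (b0 + P * r4)) - (4 * x0 ^ 3 - 12 * a0 * x0 - 8 * b0) := by
        intro P x0 a0 b0 r1 r2 r3 r4
        apply Int.ModEq.dvd
        apply Int.ModEq.symm
        have h1 : ∀ r z : ℤ, z + P * r ≡ z [ZMOD P] := by
          intro r z
          rw [Int.modEq_iff_dvd]
          exact ⟨-r, by ring⟩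
        have h2 : 4 * x0 ^ 3 - 12 * a0 * x0 - 8 * b0 =
            x0 ^ 3 + x0 ^ 2 * x0 + x0 * x0 ^ 2 + x0 ^ 3 - 6 * a0 * (x0 + x0) - 8 * b0 := by ring
        rw [h2]
        gcongr <;> exact h1 _ _
      rw [e1, e2, e3, e4] at h
      have h6 := dvd_sub h (e5 p X0 (A.eval m1) (B.eval m1) rx (δ * rw' * Y1.eval w) ra rb)
      rw [sub_sub_cancel, ← hδ] at h6
      exact h6
    have hpow : (p : ℤ) ^ (11 * k) ∣ x - g := by
      have h1 : (p : ℤ) ^ (11 * k) ∣
          (x - g) * (x ^ 3 + x ^ 2 * g + x * g ^ 2 + g ^ 3 - 6 * a * (x + g) - 8 * b) := by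
        rw [hfac, hw]
        refine ⟨-(δ ^ 2 * N ^ 11 * eval (N * (p : ℤ) ^ k) S), ?_⟩
        rw [mul_pow, ← pow_mul, mul_comm k 11]; ring
      exact hp'.pow_dvd_of_dvd_mul_right _ hH h1
    -- size
    have hw1 : 1 ≤ |w| := Int.one_le_abs hw0
    have hT0 : 0 < K * |w| ^ 10 := by
      have : 0 < K := by omega
      positivity
    have hTa : |a| ≤ (K * |w| ^ 10) ^ 2 := by
      have h1 := hKa w hw0
      rw [hAw_eval] at h1
      refine h1.trans ?_
      rw [mul_pow, ← pow_mul]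
      apply mul_le_mul_of_nonneg_right _ (by positivity)
      nlinarith
    have hTb : |b| ≤ (K * |w| ^ 10) ^ 3 := by
      have h1 := hKb w hw0
      rw [hBw_eval] at h1
      refine h1.trans ?_
      rw [mul_pow, ← pow_mul]
      apply mul_le_mul_of_nonneg_right _ (by positivity)
      have h2 : 1 ≤ K := by omega
      have h3 : K ≤ K ^ 3 := by
        calc K = K * 1 * 1 := by ring
          _ ≤ K * K * K := by gcongr
          _ = K ^ 3 := by ring
      omega
    have hTx := size_root hT0 hTa hTb hx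
    have hTg : |g| ≤ K * |w| ^ 10 := by
      refine (hKg w hw0).trans ?_
      apply mul_le_mul_of_nonneg_right _ (by positivity)
      omega
    have hsz : |x - g| ≤ 6 * (K * |w| ^ 10) := by
      have := abs_sub x g
      linarith
    have hge : (p : ℤ) ^ (11 * k) ≤ |x - g| := by
      have h1 : (p : ℤ) ^ (11 * k) ∣ |x - g| := (dvd_abs _ _).mpr hpow
      exact Int.le_of_dvd (abs_pos.mpr (sub_ne_zero.mpr hxg)) h1
    have hwabs : |w| = N * (p : ℤ) ^ k := by
      rw [hw, abs_of_pos (by positivity)]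
    rw [hwabs] at hsz
    have h1 : (p : ℤ) ^ (11 * k) = (p : ℤ) ^ k * (p : ℤ) ^ (10 * k) := by
      rw [← pow_add]; congr 1; ring
    have h2 : 6 * (K * (N * (p : ℤ) ^ k) ^ 10) = (6 * K * N ^ 10) * (p : ℤ) ^ (10 * k) := by
      rw [mul_pow, ← pow_mul, mul_comm k 10]; ring
    rw [h2] at hsz
    rw [h1] at hge
    have h3 := hge.trans hsz
    have h4 : (0 : ℤ) < (p : ℤ) ^ (10 * k) := by positivity
    have h5 := le_of_mul_le_mul_right h3 h4
    omega
  have hpoly : QQ Aw Bw G = 0 := by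
    apply eq_zero_of_infinite_isRoot
    have hp1 : (1 : ℤ) < p := by exact_mod_cast hp.one_lt
    obtain ⟨k0, hk0⟩ : ∃ k0 : ℕ, 6 * K * N ^ 10 < (p : ℤ) ^ k0 := by
      exact pow_unbounded_of_one_lt _ hp1
    apply Set.infinite_of_injective_forall_mem (f := fun j : ℕ => N * (p : ℤ) ^ (j + k0 + 2))
    · intro i j hij
      have h1 := mul_left_cancel₀ hN0 hij
      have h2 := pow_right_injective₀ (by linarith : (0 : ℤ) < p) hp1.ne' h1
      omega
    · intro j
      rw [Set.mem_ofPred_eq, IsRoot.def]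
      have hlt : 6 * K * N ^ 10 < (p : ℤ) ^ (j + k0 + 2) :=
        hk0.trans_le (pow_le_pow_right₀ hp1.le (by omega))
      have h1 := claim (j + k0 + 2) (by omega) hlt
      have := QQ_map (evalRingHom (N * (p : ℤ) ^ (j + k0 + 2))) Aw Bw G
      simp only [coe_evalRingHom] at this
      rw [this]; exact h1
  exact no_poly_solution A B E D hD hA hE hdisc hC1 hC2 m1 (δ ^ 2) (pow_ne_zero 2 hδ0) G hGd hpoly

end Fermat.Agent.H07
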