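import Mathlib
import Fermat.Agent.H07.HilbertB
import Fermat.Agent.H24.Disc

set_option autoImplicit false

/-!
# Elementary Hilbert irreducibility for the 5-congruence family
-/

namespace Fermat.Agent.H07

open Polynomial Fermat.Agent.H24

lemma ndX {R : Type*} [CommRing R] {α β : R[X]} {n : ℕ} (h1 : α.natDegree ≤ 0)
    (h2 : β.natDegree ≤ n) : (α + X * β).natDegree ≤ n + 1 := by
  refine (natDegree_add_le _ _).trans (max_le (h1.trans (Nat.zero_le _)) ?_)
  refine natDegree_mul_le.trans ?_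
  have := natDegree_X_le (R := R)
  omega

lemma nd0_add {R : Type*} [CommRing R] {α β : R[X]} (h1 : α.natDegree ≤ 0)
    (h2 : β.natDegree ≤ 0) : (α + β).natDegree ≤ 0 :=
  (natDegree_add_le _ _).trans (max_le h1 h2)

lemma nd0_sub {R : Type*} [CommRing R] {α β : R[X]} (h1 : α.natDegree ≤ 0)
    (h2 : β.natDegree ≤ 0) : (α - β).natDegree ≤ 0 :=
  (natDegree_sub_le _ _).trans (max_le h1 h2)

lemma nd0_mul {R : Type*} [CommRing R] {α β : R[X]} (h1 : α.natDegree ≤ 0)
    (h2 : β.natDegree ≤ 0) : (α * β).natDegree ≤ 0 :=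
  natDegree_mul_le.trans (by omega)

lemma nd0_pow {R : Type*} [CommRing R] {α : R[X]} (n : ℕ) (h1 : α.natDegree ≤ 0) :
    (α ^ n).natDegree ≤ 0 :=
  natDegree_pow_le.trans (by rw [Nat.le_zero.mp h1, mul_zero])

lemma nd0_neg {R : Type*} [CommRing R] {α : R[X]} (h1 : α.natDegree ≤ 0) :
    (-α).natDegree ≤ 0 := by rw [natDegree_neg]; exact h1

lemma nd0_C {R : Type*} [CommRing R] (r : R) : (C r : R[X]).natDegree ≤ 0 := by simp

lemma nd0_ofNat {R : Type*} [CommRing R] (n : ℕ) [n.AtLeastTwo] :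
    (OfNat.ofNat n : R[X]).natDegree ≤ 0 := by
  rw [natDegree_ofNat]

set_option maxHeartbeats 1000000 in
lemma natDegree_P4_17 (c d : ℤ) : (P4_17 (C c) (C d) X : ℤ[X]).natDegree ≤ 3 := by
  unfold P4_17
  repeat' with_reducible first
    | apply ndX
    | apply nd0_C
    | apply nd0_ofNat
    | apply nd0_add
    | apply nd0_sub
    | apply nd0_neg
    | apply nd0_pow
    | apply nd0_mul

set_option maxHeartbeats 1000000 in
lemma natDegree_P4_9 (c d : ℤ) : (P4_9 (C c) (C d) X : ℤ[X]).natDegree ≤ 11 := by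
  have h_P4_17 := natDegree_P4_17 c d
  unfold P4_9
  repeat' with_reducible first
    | exact h_P4_17
    | apply ndX
    | apply nd0_C
    | apply nd0_ofNat
    | apply nd0_add
    | apply nd0_sub
    | apply nd0_neg
    | apply nd0_pow
    | apply nd0_mul

set_option maxHeartbeats 1000000 in
lemma natDegree_P4 (c d : ℤ) : (P4 (C c) (C d) X : ℤ[X]).natDegree ≤ 19 := by
  have h_P4_9 := natDegree_P4_9 c d
  unfold P4
  repeat' with_reducible first
    | exact h_P4_9
    | apply ndX
    | apply nd0_C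
    | apply nd0_ofNat
    | apply nd0_add
    | apply nd0_sub
    | apply nd0_neg
    | apply nd0_pow
    | apply nd0_mul

set_option maxHeartbeats 1000000 in
lemma natDegree_C4 (c d : ℤ) : (C4 (C c) (C d) X : ℤ[X]).natDegree ≤ 20 := by
  have h_P4 := natDegree_P4 c d
  unfold C4
  repeat' with_reducible first
    | exact h_P4
    | apply ndX
    | apply nd0_C
    | apply nd0_ofNat
    | apply nd0_add
    | apply nd0_sub
    | apply nd0_neg
    | apply nd0_pow
    | apply nd0_mul

set_option maxHeartbeats 1000000 in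
lemma natDegree_P6_25 (c d : ℤ) : (P6_25 (C c) (C d) X : ℤ[X]).natDegree ≤ 5 := by
  unfold P6_25
  repeat' with_reducible first
    | apply ndX
    | apply nd0_C
    | apply nd0_ofNat
    | apply nd0_add
    | apply nd0_sub
    | apply nd0_neg
    | apply nd0_pow
    | apply nd0_mul

set_option maxHeartbeats 1000000 in
lemma natDegree_P6_17 (c d : ℤ) : (P6_17 (C c) (C d) X : ℤ[X]).natDegree ≤ 13 := by
  have h_P6_25 := natDegree_P6_25 c d
  unfold P6_17
  repeat' with_reducible first
    | exact h_P6_25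
    | apply ndX
    | apply nd0_C
    | apply nd0_ofNat
    | apply nd0_add
    | apply nd0_sub
    | apply nd0_neg
    | apply nd0_pow
    | apply nd0_mul

set_option maxHeartbeats 1000000 in
lemma natDegree_P6_9 (c d : ℤ) : (P6_9 (C c) (C d) X : ℤ[X]).natDegree ≤ 21 := by
  have h_P6_17 := natDegree_P6_17 c d
  unfold P6_9
  repeat' with_reducible first
    | exact h_P6_17
    | apply ndX
    | apply nd0_C
    | apply nd0_ofNat
    | apply nd0_add
    | apply nd0_sub
    | apply nd0_neg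
    | apply nd0_pow
    | apply nd0_mul

set_option maxHeartbeats 1000000 in
lemma natDegree_P6 (c d : ℤ) : (P6 (C c) (C d) X : ℤ[X]).natDegree ≤ 29 := by
  have h_P6_9 := natDegree_P6_9 c d
  unfold P6
  repeat' with_reducible first
    | exact h_P6_9
    | apply ndX
    | apply nd0_C
    | apply nd0_ofNat
    | apply nd0_add
    | apply nd0_sub
    | apply nd0_neg
    | apply nd0_pow
    | apply nd0_mul

set_option maxHeartbeats 1000000 in
lemma natDegree_C6 (c d : ℤ) : (C6 (C c) (C d) X : ℤ[X]).natDegree ≤ 30 := by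
  have h_P6 := natDegree_P6 c d
  unfold C6
  repeat' with_reducible first
    | exact h_P6
    | apply ndX
    | apply nd0_C
    | apply nd0_ofNat
    | apply nd0_add
    | apply nd0_sub
    | apply nd0_neg
    | apply nd0_pow
    | apply nd0_mul


lemma cfS (a : ℤ) (β : ℤ[X]) (n : ℕ) : (C a + X * β).coeff (n + 1) = β.coeff n := by
  rw [coeff_add, coeff_X_mul, coeff_C_succ, zero_add]

lemma cf0 (a : ℤ) (β : ℤ[X]) : (C a + X * β).coeff 0 = a := by
  rw [coeff_add, mul_coeff_zero, coeff_X_zero, zero_mul, coeff_C_zero, add_zero]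

lemma polyDD_horner (c d : ℤ) : polyDD c d = C 1 + X * (C 0 + X * (C (-66*c) + X * (C (-440*d)
    + X * (C (-1485*c^2) + X * (C (-3168*c*d) + X * (C (-10560*d^2+5940*c^3)
    + X * (C (-4752*c^2*d) + X * (C (63360*c*d^2-66825*c^4)
    + X * (C (140800*d^3-142560*c^3*d) + X * (C (133056*c^2*d^2-133650*c^5)
    + X * (C (61440*c*d^3-61560*c^4*d)
    + X * C (102400*d^4-193536*c^3*d^2+91125*c^6)))))))))))) := by
  simp only [polyDD, DD, PD, map_add, map_sub, map_mul, map_pow, map_neg, map_ofNat, map_zero,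
    map_one]

lemma natDegree_DD (c d : ℤ) (h : c ^ 3 - d ^ 2 ≠ 0) : 5 ≤ (polyDD c d).natDegree := by
  have h6 : (polyDD c d).coeff 6 = -10560*d^2+5940*c^3 := by
    rw [polyDD_horner]; simp only [cfS, cf0]
  have h7 : (polyDD c d).coeff 7 = -4752*c^2*d := by
    rw [polyDD_horner]; simp only [cfS, cf0]
  have h8 : (polyDD c d).coeff 8 = 63360*c*d^2-66825*c^4 := by
    rw [polyDD_horner]; simp only [cfS, cf0]
  by_cases hc : c = 0
  · have hd : d ≠ 0 := by rintro rfl; apply h; rw [hc]; ring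
    have : (polyDD c d).coeff 6 ≠ 0 := by
      rw [h6, hc]
      intro h0
      apply hd
      have : d ^ 2 = 0 := by omega
      exact pow_eq_zero_iff two_ne_zero |>.mp this
    exact (by norm_num : 5 ≤ 6).trans (le_natDegree_of_ne_zero this)
  · by_cases hd : d = 0
    · have : (polyDD c d).coeff 8 ≠ 0 := by
        rw [h8, hd]
        intro h0
        apply hc
        have : c ^ 4 = 0 := by
          have : 66825 * c ^ 4 = 0 := by linear_combination -h0
          omega
        exact pow_eq_zero_iff four_ne_zero |>.mp this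
      exact (by norm_num : 5 ≤ 8).trans (le_natDegree_of_ne_zero this)
    · have : (polyDD c d).coeff 7 ≠ 0 := by
        rw [h7]
        exact mul_ne_zero (mul_ne_zero (by norm_num) (pow_ne_zero 2 hc)) hd
      exact (by norm_num : 5 ≤ 7).trans (le_natDegree_of_ne_zero this)

lemma eval_polyC4 {R : Type*} [CommRing R] (c d m : R) :
    (C4 (C c) (C d) X : R[X]).eval m = C4 c d m := by
  have := map_C4 (evalRingHom m) (C c) (C d) X
  simpa using this

lemma eval_polyC6 {R : Type*} [CommRing R] (c d m : R) :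
    (C6 (C c) (C d) X : R[X]).eval m = C6 c d m := by
  have := map_C6 (evalRingHom m) (C c) (C d) X
  simpa using this

theorem hilbert (c d D : ℤ) (h : c ^ 3 - d ^ 2 = 1728 * D) (hD : D ≠ 0) (M : ℤ) (hM : M ≠ 0) :
    ∃ n : ℤ, M ∣ n ∧ ∀ X : ℤ, X ^ 4 - 6 * C4 c d (1728 * n) * X ^ 2
      - 8 * C6 c d (1728 * n) * X - 3 * (C4 c d (1728 * n)) ^ 2 ≠ 0 := by
  have hne : c ^ 3 - d ^ 2 ≠ 0 := by
    rw [h]; exact mul_ne_zero (by norm_num) hD
  have hneC : ((c : ℂ)) ^ 3 - (d : ℂ) ^ 2 ≠ 0 := by exact_mod_cast hne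
  have mapA : (C4 (C c) (C d) X : ℤ[X]).map (Int.castRingHom ℂ) =
      C4 (C (c : ℂ)) (C (d : ℂ)) X := by
    have := map_C4 (mapRingHom (Int.castRingHom ℂ)) (C c) (C d) X
    simpa using this
  have mapE : (polyDD c d).map (Int.castRingHom ℂ) = polyDD (c : ℂ) (d : ℂ) := by
    have := map_DD (mapRingHom (Int.castRingHom ℂ)) (C c) (C d) X
    simpa [polyDD] using this
  have key : ∀ z : ℂ, ((polyDD c d).map (Int.castRingHom ℂ)).eval z = 0 →
      C4 (c : ℂ) (d : ℂ) z ≠ 0 := by
    intro z hz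
    rw [mapE, polyDD_eval] at hz
    exact C4_ne_zero_of_DD (by norm_num) (by norm_num) _ _ _ hneC hz
  suffices H : ∃ n : ℤ, M ∣ n ∧ ∀ x : ℤ, QQ ((C4 (C c) (C d) X : ℤ[X]).eval (1728 * n))
      ((C6 (C c) (C d) X : ℤ[X]).eval (1728 * n)) x ≠ 0 by
    obtain ⟨n, hn, hX⟩ := H
    refine ⟨n, hn, fun x => ?_⟩
    have := hX x
    rw [eval_polyC4, eval_polyC6] at this
    exact this
  refine hilbert_abstract (C4 (C c) (C d) X) (C6 (C c) (C d) X) (polyDD c d) D hD
    (natDegree_C4 c d) (natDegree_C6 c d) (natDegree_DD c d hne) ?_ ?_ ?_ ?_ ?_ ?_ M hM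
  · rw [polyDD_horner, cf0]
  · apply Polynomial.funext
    intro m
    rw [eval_sub, eval_pow, eval_pow, eval_mul, eval_pow, eval_C, eval_polyC4, eval_polyC6,
      polyDD_eval, disc_int c d D m h hD, mul_assoc]
  · intro p hp hpD m hm
    rw [polyDD_eval] at hm
    rw [eval_polyC4]
    exact not_dvd_C4 c d D m h hp hpD hm
  · intro p hp hpD m hm
    rw [polyDD_eval] at hm
    rw [polyDD_derivative_eval]
    exact not_dvd_DDp c d D m h hp hpD hm
  · intro z hz
    rw [mapA, eval_polyC4]
    exact key z hz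
  · intro z hz
    have h1 := key z hz
    rw [← derivative_map, mapE, polyDD_derivative_eval]
    rw [mapE, polyDD_eval] at hz
    intro h2
    apply h1
    have h3 := DDp_sq (c : ℂ) (d : ℂ) z
    rw [h2, hz] at h3
    have h4 : (144 : ℂ) * C4 (c : ℂ) (d : ℂ) z = 0 := by linear_combination -h3
    exact (mul_eq_zero.mp h4).resolve_left (by norm_num)

end Fermat.Agent.H07
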