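import Mathlib
import Fermat.Prelude.Def_FLTPrelim_Modularity

/-!
# Program Z, package Z1 : the family of curves 3-congruent to a given curve. Algebra.
-/

set_option autoImplicit false

namespace Fermat.Agent.H07.Sel

section forms

variable {R : Type*} [CommRing R]

/-- The quartic form whose roots are the cusps. -/
def DF (c d X Y : R) : R := X ^ 4 - 6 * c * X ^ 2 * Y ^ 2 - 8 * d * X * Y ^ 3 - 3 * c ^ 2 * Y ^ 4

/-- `c₄` of the family. -/
def CF4 (c d X Y : R) : R :=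
  c * X ^ 4 + 4 * d * X ^ 3 * Y + 6 * c ^ 2 * X ^ 2 * Y ^ 2 + 4 * c * d * X * Y ^ 3 -
    (3 * c ^ 3 - 4 * d ^ 2) * Y ^ 4

/-- `c₆` of the family. -/
def CF6 (c d X Y : R) : R :=
  d * X ^ 6 + 6 * c ^ 2 * X ^ 5 * Y + 15 * c * d * X ^ 4 * Y ^ 2 + 20 * d ^ 2 * X ^ 3 * Y ^ 3 +
    15 * c ^ 2 * d * X ^ 2 * Y ^ 4 + 6 * (3 * c ^ 4 - 2 * c * d ^ 2) * X * Y ^ 5 +
    (9 * c ^ 3 * d - 8 * d ^ 3) * Y ^ 6

/-- A quarter of the derivative of the quartic form. -/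
def GF (c d X Y : R) : R := X ^ 3 - 3 * c * X * Y ^ 2 - 2 * d * Y ^ 3

lemma CF_rel (c d X Y : R) :
    CF4 c d X Y ^ 3 - CF6 c d X Y ^ 2 = (c ^ 3 - d ^ 2) * DF c d X Y ^ 3 := by
  unfold CF4 CF6 DF; ring

lemma GF_sq (c d X Y : R) :
    GF c d X Y ^ 2 = DF c d X Y * (X ^ 2 - c * Y ^ 2) + Y ^ 2 * CF4 c d X Y := by
  unfold CF4 GF DF; ring

lemma DF_cusp (c d W : R) :
    DF c d (W - d) c = W ^ 3 * (W - 4 * d) -
      2 * (c ^ 3 - d ^ 2) * (3 * W ^ 2 - 2 * d * W + 2 * d ^ 2) - 3 * (c ^ 3 - d ^ 2) ^ 2 := by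
  unfold DF; ring

lemma CF4_cusp (c d W : R) :
    CF4 c d (W - d) c = c * (W ^ 4 + 2 * (c ^ 3 - d ^ 2) * (3 * W - 4 * d) * W -
      3 * (c ^ 3 - d ^ 2) ^ 2) := by
  unfold CF4; ring

lemma CF6_cusp (c d W : R) :
    CF6 c d (W - d) c = d * W ^ 6 + (c ^ 3 - d ^ 2) * (6 * W ^ 5 - 15 * d * W ^ 4 +
      20 * d ^ 2 * W ^ 3) + (c ^ 3 - d ^ 2) ^ 2 * (15 * d * W ^ 2 + 12 * d ^ 2 * W - 8 * d ^ 3) +
      (c ^ 3 - d ^ 2) ^ 3 * (18 * W - 9 * d) := by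
  unfold CF6; ring

lemma DF_add (c d X Y h : R) :
    DF c d (X + h) Y = DF c d X Y + 4 * GF c d X Y * h + h ^ 2 * (6 * X ^ 2 + 4 * X * h + h ^ 2 -
      6 * c * Y ^ 2) := by
  unfold DF GF; ring

end forms

/-- If a prime `ℓ ∤ 6 (c³ - d²)` divides the quartic form and its derivative then it divides `X`
and `Y`. -/
lemma sep {c d X Y : ℤ} {ℓ : ℕ} (hℓ : ℓ.Prime) (h6 : ¬ (ℓ : ℤ) ∣ 6 * (c ^ 3 - d ^ 2))
    (hD : (ℓ : ℤ) ∣ DF c d X Y) (hY : ¬ (ℓ : ℤ) ∣ Y) : ¬ (ℓ : ℤ) ∣ GF c d X Y := by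
  intro hG
  have hp := Nat.prime_iff_prime_int.mp hℓ
  have h2 : ¬ (ℓ : ℤ) ∣ 2 := fun h => h6 (Dvd.dvd.mul_right (h.trans (by norm_num)) _)
  have h3 : ¬ (ℓ : ℤ) ∣ 3 := fun h => h6 (Dvd.dvd.mul_right (h.trans (by norm_num)) _)
  have hE : ¬ (ℓ : ℤ) ∣ (c ^ 3 - d ^ 2) := fun h => h6 (Dvd.dvd.mul_left h _)
  have a1 : (ℓ : ℤ) ∣ Y ^ 2 * (3 * (c * X ^ 2 + 2 * d * X * Y + c ^ 2 * Y ^ 2)) := by
    have : Y ^ 2 * (3 * (c * X ^ 2 + 2 * d * X * Y + c ^ 2 * Y ^ 2)) =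
      X * GF c d X Y - DF c d X Y := by unfold GF DF; ring
    rw [this]
    exact dvd_sub (Dvd.dvd.mul_left hG _) hD
  have hY2 : ¬ (ℓ : ℤ) ∣ Y ^ 2 := fun h => hY (hp.dvd_of_dvd_pow h)
  have a2 : (ℓ : ℤ) ∣ c * X ^ 2 + 2 * d * X * Y + c ^ 2 * Y ^ 2 := by
    rcases hp.dvd_or_dvd a1 with h | h
    · exact absurd h hY2
    · rcases hp.dvd_or_dvd h with h | h
      · exact absurd h h3
      · exact h
  have a3 : (ℓ : ℤ) ∣ Y * (2 * (d * X ^ 2 + 2 * c ^ 2 * X * Y + c * d * Y ^ 2)) := by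
    have : Y * (2 * (d * X ^ 2 + 2 * c ^ 2 * X * Y + c * d * Y ^ 2)) =
      X * (c * X ^ 2 + 2 * d * X * Y + c ^ 2 * Y ^ 2) - c * GF c d X Y := by unfold GF; ring
    rw [this]
    exact dvd_sub (Dvd.dvd.mul_left a2 _) (Dvd.dvd.mul_left hG _)
  have a4 : (ℓ : ℤ) ∣ d * X ^ 2 + 2 * c ^ 2 * X * Y + c * d * Y ^ 2 := by
    rcases hp.dvd_or_dvd a3 with h | h
    · exact absurd h hY
    · rcases hp.dvd_or_dvd h with h | h
      · exact absurd h h2
      · exact h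
  have a5 : (ℓ : ℤ) ∣ (2 * (c ^ 3 - d ^ 2)) * (X * Y) := by
    have : (2 * (c ^ 3 - d ^ 2)) * (X * Y) =
      c * (d * X ^ 2 + 2 * c ^ 2 * X * Y + c * d * Y ^ 2) -
        d * (c * X ^ 2 + 2 * d * X * Y + c ^ 2 * Y ^ 2) := by ring
    rw [this]
    exact dvd_sub (Dvd.dvd.mul_left a4 _) (Dvd.dvd.mul_left a2 _)
  have hX : (ℓ : ℤ) ∣ X := by
    rcases hp.dvd_or_dvd a5 with h | h
    · rcases hp.dvd_or_dvd h with h | h
      · exact absurd h h2
      · exact absurd h hE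
    · rcases hp.dvd_or_dvd h with h | h
      · exact h
      · exact absurd h hY
  have hc : (ℓ : ℤ) ∣ c := by
    have : (ℓ : ℤ) ∣ c ^ 2 * Y ^ 2 := by
      have e : c ^ 2 * Y ^ 2 = (c * X ^ 2 + 2 * d * X * Y + c ^ 2 * Y ^ 2) -
        X * (c * X + 2 * d * Y) := by ring
      rw [e]
      exact dvd_sub a2 (Dvd.dvd.mul_right hX _)
    rcases hp.dvd_or_dvd this with h | h
    · exact hp.dvd_of_dvd_pow h
    · exact absurd h hY2
  have hd : (ℓ : ℤ) ∣ d := by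
    have : (ℓ : ℤ) ∣ 2 * d * Y ^ 3 := by
      have e : 2 * d * Y ^ 3 = X * (X ^ 2 - 3 * c * Y ^ 2) - GF c d X Y := by unfold GF; ring
      rw [e]
      exact dvd_sub (Dvd.dvd.mul_right hX _) hG
    rcases hp.dvd_or_dvd this with h | h
    · rcases hp.dvd_or_dvd h with h | h
      · exact absurd h h2
      · exact h
    · exact absurd (hp.dvd_of_dvd_pow h) hY
  exact hE (dvd_sub (hc.trans (dvd_pow_self _ (by norm_num)))
    (hd.trans (dvd_pow_self _ (by norm_num))))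

/-- At a root of the quartic form, `c₄` is a unit. -/
lemma not_dvd_CF4 {c d X Y : ℤ} {ℓ : ℕ} (hℓ : ℓ.Prime) (h6 : ¬ (ℓ : ℤ) ∣ 6 * (c ^ 3 - d ^ 2))
    (hD : (ℓ : ℤ) ∣ DF c d X Y) (hY : ¬ (ℓ : ℤ) ∣ Y) : ¬ (ℓ : ℤ) ∣ CF4 c d X Y := by
  intro hC
  have hp := Nat.prime_iff_prime_int.mp hℓ
  apply sep hℓ h6 hD hY
  apply hp.dvd_of_dvd_pow (n := 2)
  rw [GF_sq]
  exact dvd_add (Dvd.dvd.mul_right hD _) (Dvd.dvd.mul_left hC _)

/-- if `ℓ` divides `D(X,Y)` and `Y` then it divides `X` -/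
lemma dvd_X {c d X Y : ℤ} {ℓ : ℕ} (hℓ : ℓ.Prime) (hD : (ℓ : ℤ) ∣ DF c d X Y)
    (hY : (ℓ : ℤ) ∣ Y) : (ℓ : ℤ) ∣ X := by
  have hp := Nat.prime_iff_prime_int.mp hℓ
  apply hp.dvd_of_dvd_pow (n := 4)
  have : X ^ 4 = DF c d X Y + Y * (6 * c * X ^ 2 * Y + 8 * d * X * Y ^ 2 + 3 * c ^ 2 * Y ^ 3) := by
    unfold DF; ring
  rw [this]
  exact dvd_add hD (Dvd.dvd.mul_right hY _)

lemma dvd_of_zmod {n : ℕ} {x : ℤ} (h : (x : ZMod n) = 0) : ((n : ℕ) : ℤ) ∣ x :=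
  (ZMod.intCast_zmod_eq_zero_iff_dvd x n).1 h

lemma aux27 {R : Type*} [CommRing R] {c d : R} (hE : c ^ 3 = d ^ 2) (h18 : c ^ 18 = 1) :
    (-(d * c ^ 17)) ^ 2 - c = 0 ∧
      (-(d * c ^ 17)) ^ 3 - 3 * (-(d * c ^ 17)) * c - 2 * d = 0 := by
  constructor
  · linear_combination (-c ^ 34) * hE + c * (c ^ 18 + 1) * h18
  · linear_combination (d * c ^ 51) * hE + (-d * (c ^ 36 + c ^ 18 + 1) + 3 * d) * h18

/-- **Integral models** from `c₄, c₆` in the multiplicative case at `2`. -/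
theorem exists_model {c d D : ℤ} (h : c ^ 3 - d ^ 2 = 1728 * D) (hc : ¬ (2 : ℤ) ∣ c)
    (hd : d % 4 = 3) (hD : (2 : ℤ) ∣ D) (h3 : ¬ (3 : ℤ) ∣ c ∨ (27 : ℤ) ∣ d) :
    ∃ W : WeierstrassCurve ℤ, W.c₄ = c ∧ W.c₆ = d ∧ W.Δ = D := by
  -- find `b₂`
  have key : ∃ b : ℤ, b % 4 = 1 ∧ 24 ∣ b ^ 2 - c ∧ 432 ∣ b ^ 3 - 3 * b * c - 2 * d := by
    -- 2-adic part
    have h2 : ∃ b : ℤ, b % 4 = 1 ∧ 8 ∣ b ^ 2 - c ∧ 16 ∣ b ^ 3 - 3 * b * c - 2 * d := by
      obtain ⟨D', rfl⟩ := hD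
      have hE : ((c : ZMod 16)) ^ 3 = (d : ZMod 16) ^ 2 := by
        have := congrArg (Int.cast : ℤ → ZMod 16) h
        push_cast at this
        have e : (1728 : ZMod 16) = 0 := by decide
        rw [e, zero_mul, sub_eq_zero] at this
        exact this
      have hd' : ∃ k : ℤ, d = 4 * k + 3 := ⟨d / 4, by omega⟩
      have hc' : ∃ k : ℤ, c = 2 * k + 1 := ⟨c / 2, by omega⟩
      have key16 : ∀ x y : ZMod 16, (2 * x + 1) ^ 3 = (4 * y + 3) ^ 2 →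
          (-(2 * x + 1) * (4 * y + 3)) ^ 2 - (2 * x + 1) = 0 ∧
          (-(2 * x + 1) * (4 * y + 3)) ^ 3 - 3 * (-(2 * x + 1) * (4 * y + 3)) * (2 * x + 1) -
            2 * (4 * y + 3) = 0 ∧ 4 * (2 * x) = 0 := by decide
      obtain ⟨y, rfl⟩ := hd'
      obtain ⟨x, rfl⟩ := hc'
      push_cast at hE
      obtain ⟨k1, k2, k3⟩ := key16 x y hE
      have m1 : (16 : ℤ) ∣ (-(2 * x + 1) * (4 * y + 3)) ^ 2 - (2 * x + 1) :=
        dvd_of_zmod (n := 16) (by push_cast; exact k1)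
      have m2 : (16 : ℤ) ∣ (-(2 * x + 1) * (4 * y + 3)) ^ 3 -
          3 * (-(2 * x + 1) * (4 * y + 3)) * (2 * x + 1) - 2 * (4 * y + 3) :=
        dvd_of_zmod (n := 16) (by push_cast; exact k2)
      have m3 : (16 : ℤ) ∣ 4 * (2 * x) :=
        dvd_of_zmod (n := 16) (by push_cast; exact k3)
      refine ⟨-(2 * x + 1) * (4 * y + 3), ?_, (by norm_num : (8 : ℤ) ∣ 16).trans m1, m2⟩
      obtain ⟨z, hz⟩ : ∃ z, x = 2 * z := ⟨x / 2, by omega⟩
      subst hz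
      have : -(2 * (2 * z) + 1) * (4 * y + 3) = 4 * (-(4 * z * y) - 3 * z - y - 1) + 1 := by ring
      rw [this]
      omega
    have h3' : ∃ b : ℤ, 3 ∣ b ^ 2 - c ∧ 27 ∣ b ^ 3 - 3 * b * c - 2 * d := by
      have hE : ((c : ZMod 27)) ^ 3 = (d : ZMod 27) ^ 2 := by
        have := congrArg (Int.cast : ℤ → ZMod 27) h
        push_cast at this
        have e : (1728 : ZMod 27) = 0 := by decide
        rw [e, zero_mul, sub_eq_zero] at this
        exact this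
      by_cases hc3 : (3 : ℤ) ∣ c
      · rcases h3 with h3 | h3
        · exact absurd hc3 h3
        · refine ⟨0, ?_, ?_⟩
          · rw [zero_pow (by norm_num), zero_sub, dvd_neg]; exact hc3
          · have e : (0 : ℤ) ^ 3 - 3 * 0 * c - 2 * d = -2 * d := by ring
            rw [e]
            exact Dvd.dvd.mul_left h3 _
      · have h18 : (c : ZMod 27) ^ 18 = 1 := by
          have hcop : IsCoprime (c : ℤ) ((27 : ℕ) : ℤ) := by
            have h1 : IsCoprime (c : ℤ) 3 :=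
              ((Prime.coprime_iff_not_dvd Int.prime_three).mpr hc3).symm
            have := h1.pow_right (n := 3)
            norm_num at this
            exact this
          have hu := (ZMod.coe_int_isUnit_iff_isCoprime c 27).mpr hcop.symm
          obtain ⟨u, hu⟩ := hu
          rw [← hu, ← Units.val_pow_eq_pow_val]
          have := ZMod.pow_totient u
          have ht : Nat.totient 27 = 18 := by decide
          rw [ht] at this
          rw [this]; rfl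
        refine ⟨-(d * c ^ 17), ?_, ?_⟩
        · apply (by norm_num : (3 : ℤ) ∣ 27).trans
          refine dvd_of_zmod (n := 27) ?_
          push_cast
          exact (aux27 hE h18).1
        · refine dvd_of_zmod (n := 27) ?_
          push_cast
          exact (aux27 hE h18).2
    obtain ⟨b2, p1, p2, p3⟩ := h2
    obtain ⟨b3, q1, q2⟩ := h3'
    have hb16 : (16 : ℤ) ∣ (81 * b2 + 352 * b3) - b2 := ⟨5 * b2 + 22 * b3, by ring⟩
    have hb27 : (27 : ℤ) ∣ (81 * b2 + 352 * b3) - b3 := ⟨3 * b2 + 13 * b3, by ring⟩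
    generalize 81 * b2 + 352 * b3 = b at hb16 hb27
    refine ⟨b, ?_, ?_, ?_⟩
    · omega
    · have e8 : (8 : ℤ) ∣ b ^ 2 - c := by
        have : b ^ 2 - c = (b - b2) * (b + b2) + (b2 ^ 2 - c) := by ring
        rw [this]
        exact dvd_add (Dvd.dvd.mul_right ((by norm_num : (8 : ℤ) ∣ 16).trans hb16) _) p2
      have e3 : (3 : ℤ) ∣ b ^ 2 - c := by
        have : b ^ 2 - c = (b - b3) * (b + b3) + (b3 ^ 2 - c) := by ring
        rw [this]
        exact dvd_add (Dvd.dvd.mul_right ((by norm_num : (3 : ℤ) ∣ 27).trans hb27) _) q1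
      omega
    · have e16 : (16 : ℤ) ∣ b ^ 3 - 3 * b * c - 2 * d := by
        have : b ^ 3 - 3 * b * c - 2 * d = (b - b2) * (b ^ 2 + b * b2 + b2 ^ 2 - 3 * c) +
          (b2 ^ 3 - 3 * b2 * c - 2 * d) := by ring
        rw [this]
        exact dvd_add (Dvd.dvd.mul_right hb16 _) p3
      have e27 : (27 : ℤ) ∣ b ^ 3 - 3 * b * c - 2 * d := by
        have : b ^ 3 - 3 * b * c - 2 * d = (b - b3) * (b ^ 2 + b * b3 + b3 ^ 2 - 3 * c) +
          (b3 ^ 3 - 3 * b3 * c - 2 * d) := by ring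
        rw [this]
        exact dvd_add (Dvd.dvd.mul_right hb27 _) q2
      omega
  obtain ⟨b, hb1, ⟨b4, hb4⟩, ⟨b6, hb6⟩⟩ := key
  obtain ⟨a2, ha2⟩ : ∃ a2, b = 4 * a2 + 1 := ⟨b / 4, by omega⟩
  have hc' : c = b ^ 2 - 24 * b4 := by linear_combination -hb4
  have hd' : d = -b ^ 3 + 36 * b * b4 - 216 * b6 := by
    have : 2 * d = 2 * (-b ^ 3 + 36 * b * b4 - 216 * b6) := by
      rw [hc'] at hb6
      linear_combination -hb6
    linarith
  have h4 : 4 * D = -b ^ 3 * b6 + b ^ 2 * b4 ^ 2 - 32 * b4 ^ 3 - 108 * b6 ^ 2 +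
      36 * b * b4 * b6 := by
    have : (1728 : ℤ) * (4 * D) = 1728 * (-b ^ 3 * b6 + b ^ 2 * b4 ^ 2 - 32 * b4 ^ 3 -
        108 * b6 ^ 2 + 36 * b * b4 * b6) := by
      have h' := h
      rw [hc', hd'] at h'
      linear_combination -4 * h'
    exact mul_left_cancel₀ (by norm_num) this
  obtain ⟨a6, ha6⟩ : ∃ a6, b6 - b4 ^ 2 = 4 * a6 := by
    refine ⟨-(D + 8 * b4 ^ 3 + 27 * b6 ^ 2 - 9 * b * b4 * b6 +
      (16 * a2 ^ 3 + 12 * a2 ^ 2 + 3 * a2) * b6 - (4 * a2 ^ 2 + 2 * a2) * b4 ^ 2), ?_⟩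
    rw [ha2] at h4 ⊢
    linear_combination h4
  refine ⟨⟨1, a2, b4, 0, a6⟩, ?_, ?_, ?_⟩
  · simp only [WeierstrassCurve.c₄, WeierstrassCurve.b₂, WeierstrassCurve.b₄]
    rw [hc', ha2]; ring
  · simp only [WeierstrassCurve.c₆, WeierstrassCurve.b₂, WeierstrassCurve.b₄,
      WeierstrassCurve.b₆]
    rw [hd', ha2]
    linear_combination 216 * ha6
  · have h1 : (1728 : ℤ) * (⟨1, a2, b4, 0, a6⟩ : WeierstrassCurve ℤ).Δ = 1728 * D := by
      rw [(⟨1, a2, b4, 0, a6⟩ : WeierstrassCurve ℤ).c_relation, ← h]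
      congr 2
      · simp only [WeierstrassCurve.c₄, WeierstrassCurve.b₂, WeierstrassCurve.b₄]
        rw [hc', ha2]; ring
      · simp only [WeierstrassCurve.c₆, WeierstrassCurve.b₂, WeierstrassCurve.b₄,
          WeierstrassCurve.b₆]
        rw [hd', ha2]
        linear_combination 216 * ha6
    exact mul_left_cancel₀ (by norm_num) h1

/-- `c₆ = 3 mod 4` for an integral curve with `c₄` odd. -/
lemma c6_mod_four (W : WeierstrassCurve ℤ) (h : ¬ (2 : ℤ) ∣ W.c₄) : W.c₆ % 4 = 3 := by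
  have h1 : W.a₁ % 2 = 1 := by
    by_contra hne
    apply h
    obtain ⟨k, hk⟩ : ∃ k, W.a₁ = 2 * k := ⟨W.a₁ / 2, by omega⟩
    refine ⟨8 * (k ^ 2 + W.a₂) ^ 2 - 12 * W.b₄ , ?_⟩
    simp only [WeierstrassCurve.c₄, WeierstrassCurve.b₂, hk]
    ring
  obtain ⟨k, hk⟩ : ∃ k, W.a₁ = 2 * k + 1 := ⟨W.a₁ / 2, by omega⟩
  obtain ⟨b, hb⟩ : ∃ b, W.b₂ = 4 * b + 1 := ⟨k ^ 2 + k + W.a₂, by
    simp only [WeierstrassCurve.b₂, hk]; ring⟩
  have : W.c₆ = 4 * (-(16 * b ^ 3 + 12 * b ^ 2 + 3 * b) + 9 * W.b₂ * W.b₄ - 54 * W.b₆ - 1) + 3 := by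
    simp only [WeierstrassCurve.c₆, hb]; ring
  rw [this]; omega

lemma c6_three (W : WeierstrassCurve ℤ) (h : (3 : ℤ) ∣ W.c₄) : (27 : ℤ) ∣ W.c₆ := by
  have h1 : (3 : ℤ) ∣ W.b₂ := by
    apply Int.prime_three.dvd_of_dvd_pow (n := 2)
    have : W.b₂ ^ 2 = W.c₄ + 3 * (8 * W.b₄) := by simp only [WeierstrassCurve.c₄]; ring
    rw [this]
    exact dvd_add h (dvd_mul_right _ _)
  obtain ⟨k, hk⟩ := h1
  refine ⟨-k ^ 3 + 4 * k * W.b₄ - 8 * W.b₆, ?_⟩
  simp only [WeierstrassCurve.c₆]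
  rw [hk]; ring

/-- **No rational 2-torsion**: automatic for the curves we select. -/
theorem no_two_torsion {c d D : ℤ} (h : c ^ 3 - d ^ 2 = 1728 * D) (hneg : D < 0)
    (hss : ∀ p : ℕ, p.Prime → (p : ℤ) ∣ D → ¬ (p : ℤ) ∣ c) (h2 : (2 : ℤ) ∣ D)
    (hodd : ∀ ℓ : ℕ, ℓ.Prime → (ℓ : ℤ) ∣ D → Odd (padicValInt ℓ D))
    (a b : ℤ) (h1 : c = a ^ 2 - 3 * b) (hD : 2 ^ 8 * D = b ^ 2 * (a ^ 2 - 4 * b)) : False := by
  have hb0 : b ≠ 0 := by
    rintro rfl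
    rw [zero_pow (by norm_num), zero_mul] at hD
    have : D = 0 := by linarith
    omega
  have hD0 : D ≠ 0 := by omega
  have hab : a ^ 2 - 4 * b < 0 := by
    by_contra hle
    push Not at hle
    have : 0 ≤ b ^ 2 * (a ^ 2 - 4 * b) := mul_nonneg (sq_nonneg b) hle
    omega
  have hbpos : 0 < b := by nlinarith [sq_nonneg a]
  -- no odd prime divides `b`
  have hprime : ∀ p : ℕ, p.Prime → (p : ℤ) ∣ b → p = 2 := by
    intro p hp hpb
    by_contra hp2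
    have hp' := Nat.prime_iff_prime_int.mp hp
    have hpn2 : ¬ (p : ℤ) ∣ 2 := by
      intro h
      have : p ∣ 2 := by exact_mod_cast h
      exact hp2 ((Nat.prime_dvd_prime_iff_eq hp Nat.prime_two).1 this)
    have hpD : (p : ℤ) ∣ D := by
      have : (p : ℤ) ∣ 2 ^ 8 * D := by
        rw [hD]; exact Dvd.dvd.mul_right (hpb.trans (dvd_pow_self _ (by norm_num))) _
      rcases hp'.dvd_or_dvd this with h | h
      · exact absurd (hp'.dvd_of_dvd_pow h) hpn2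
      · exact h
    have hpa : ¬ (p : ℤ) ∣ a := by
      intro hpa
      apply hss p hp hpD
      rw [h1]
      exact dvd_sub (hpa.trans (dvd_pow_self _ (by norm_num))) (Dvd.dvd.mul_left hpb _)
    have hpc : ¬ (p : ℤ) ∣ a ^ 2 - 4 * b := by
      intro h
      apply hpa
      apply hp'.dvd_of_dvd_pow (n := 2)
      have : a ^ 2 = (a ^ 2 - 4 * b) + 4 * b := by ring
      rw [this]
      exact dvd_add h (Dvd.dvd.mul_left hpb _)
    have hfact := Fact.mk hp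
    have v1 : padicValInt p (2 ^ 8 * D) = padicValInt p D := by
      rw [padicValInt.mul (by norm_num) hD0, padicValInt.eq_zero_of_not_dvd, zero_add]
      intro h
      exact hpn2 (hp'.dvd_of_dvd_pow h)
    have v2 : padicValInt p (b ^ 2 * (a ^ 2 - 4 * b)) = 2 * padicValInt p b := by
      rw [padicValInt.mul (pow_ne_zero _ hb0) (by omega), padicValInt.eq_zero_of_not_dvd hpc,
        add_zero, pow_two, padicValInt.mul hb0 hb0]
      ring
    have h3 := hodd p hp hpD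
    rw [← v1, hD, v2] at h3
    exact (Nat.not_odd_iff_even.2 (even_two_mul _)) h3
  have hfact := Fact.mk Nat.prime_two
  by_cases hb2 : (2 : ℤ) ∣ b
  · -- `b` even, `a` odd
    have ha : ¬ (2 : ℤ) ∣ a := by
      intro ha
      apply hss 2 Nat.prime_two (by exact_mod_cast h2)
      rw [h1]
      push_cast
      exact dvd_sub (ha.trans (dvd_pow_self _ (by norm_num))) (Dvd.dvd.mul_left hb2 _)
    have hnd : ¬ ((2 : ℕ) : ℤ) ∣ a ^ 2 - 4 * b := by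
      intro h
      apply ha
      apply Int.prime_two.dvd_of_dvd_pow (n := 2)
      have : a ^ 2 = (a ^ 2 - 4 * b) + 2 * (2 * b) := by ring
      rw [this]
      exact dvd_add (by exact_mod_cast h) (dvd_mul_right _ _)
    have v2 : padicValInt 2 (b ^ 2 * (a ^ 2 - 4 * b)) = 2 * padicValInt 2 b := by
      rw [padicValInt.mul (pow_ne_zero _ hb0) (by omega), padicValInt.eq_zero_of_not_dvd hnd,
        add_zero, pow_two, padicValInt.mul hb0 hb0]
      ring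
    have v1 : padicValInt 2 (2 ^ 8 * D) = 8 + padicValInt 2 D := by
      rw [padicValInt.mul (by norm_num) hD0]
      congr 1
      rw [show ((2 : ℤ) ^ 8) = ((2 ^ 8 : ℕ) : ℤ) by norm_num, padicValInt.of_nat]
      exact padicValNat.prime_pow 8
    have h3 := hodd 2 Nat.prime_two (by exact_mod_cast h2)
    rw [hD, v2] at v1
    rw [Nat.odd_iff] at h3
    omega
  · -- `b = 1`
    have hb1 : b = 1 := by
      have : b.natAbs = 1 := by
        by_contra hne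
        obtain ⟨p, hp, hpb⟩ := Nat.exists_prime_and_dvd hne
        have hpb' : (p : ℤ) ∣ b := Int.natCast_dvd.2 hpb
        have := hprime p hp hpb'
        subst this
        exact hb2 (by exact_mod_cast hpb')
      omega
    subst hb1
    have ha : a ^ 2 < 4 := by omega
    have ha1 : a < 2 := by nlinarith
    have ha2 : -2 < a := by nlinarith
    interval_cases a <;> omega

end Fermat.Agent.H07.Sel
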