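import Mathlib
import Fermat.Agent.H07.SelAlg

/-!
# Program Z, package Z1 : the quartic sieve
-/

set_option autoImplicit false

namespace Fermat.Agent.H07.Sel

open Finset

section counting

/-- A set of integers below `Y` which are congruent modulo `q`. -/
lemma card_class {Y q : ℕ} (hq : 0 < q) (S : Finset ℕ) (hS : S ⊆ range Y)
    (h : ∀ i ∈ S, ∀ j ∈ S, i ≡ j [MOD q]) : S.card ≤ Y / q + 1 := by
  rcases S.eq_empty_or_nonempty with rfl | ⟨i0, h0⟩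
  · simp
  · have h1 : S ⊆ (range Y).filter (fun i => i ≡ i0 [MOD q]) := fun i hi =>
      mem_filter.2 ⟨hS hi, h i hi i0 h0⟩
    refine (card_le_card h1).trans ?_
    rw [← Nat.count_eq_card_filter_range, Nat.count_modEq_card _ hq]
    split_ifs <;> omega

/-- several classes -/
lemma card_classes {ι : Type*} [DecidableEq ι] {Y q k : ℕ} (hq : 0 < q) (S : Finset ℕ)
    (hS : S ⊆ range Y) (f : ℕ → ι) (T : Finset ι) (hT : T.card ≤ k) (hf : ∀ i ∈ S, f i ∈ T)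
    (h : ∀ i ∈ S, ∀ j ∈ S, f i = f j → i ≡ j [MOD q]) : S.card ≤ k * (Y / q + 1) := by
  rw [card_eq_sum_card_fiberwise hf]
  calc ∑ b ∈ T, (S.filter (fun a => f a = b)).card ≤ ∑ _b ∈ T, (Y / q + 1) := by
        apply sum_le_sum
        intro b _
        apply card_class hq _ ((filter_subset _ _).trans hS)
        intro i hi j hj
        rw [mem_filter] at hi hj
        exact h i hi.1 j hj.1 (hi.2.trans hj.2.symm)
    _ = T.card * (Y / q + 1) := by rw [sum_const, smul_eq_mul]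
    _ ≤ k * (Y / q + 1) := Nat.mul_le_mul_right _ hT

lemma modEq_of_dvd {M q i j : ℕ} (u : ℤ) (hMq : Nat.Coprime q M)
    (h : (q : ℤ) ∣ (u + M * i) - (u + M * j)) : i ≡ j [MOD q] := by
  have h1 : (q : ℤ) ∣ M * ((i : ℤ) - j) := by
    have : (u + M * i : ℤ) - (u + M * j) = M * ((i : ℤ) - j) := by ring
    rwa [this] at h
  have h2 : (q : ℤ) ∣ (i : ℤ) - j := by
    have hc : IsCoprime (q : ℤ) (M : ℤ) := Nat.isCoprime_iff_coprime.2 hMq
    exact hc.dvd_of_dvd_mul_left h1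
  have h3 : (i : ℤ) ≡ j [ZMOD q] := (Int.modEq_iff_dvd.2 h2).symm
  exact (Int.natCast_modEq_iff).1 h3

end counting

section roots

variable {c d : ℤ} {ℓ : ℕ}

/-- uniqueness of lifts of roots -/
lemma hensel_unique (hℓ : ℓ.Prime) (h6 : ¬ (ℓ : ℤ) ∣ 6 * (c ^ 3 - d ^ 2)) {X X' Y : ℤ}
    (hY : ¬ (ℓ : ℤ) ∣ Y) (h1 : (ℓ : ℤ) ^ 2 ∣ DF c d X Y) (h2 : (ℓ : ℤ) ^ 2 ∣ DF c d X' Y)
    (h : (ℓ : ℤ) ∣ X' - X) : (ℓ : ℤ) ^ 2 ∣ X' - X := by
  have hp := Nat.prime_iff_prime_int.mp hℓ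
  have hl0 : (ℓ : ℤ) ≠ 0 := hp.ne_zero
  obtain ⟨k, hk⟩ := h
  have hX' : X' = X + ℓ * k := by linear_combination hk
  have hG : ¬ (ℓ : ℤ) ∣ GF c d X Y :=
    sep hℓ h6 ((dvd_pow_self _ (by norm_num)).trans h1) hY
  have h4 : ¬ (ℓ : ℤ) ∣ 4 := by
    intro h
    have : (ℓ : ℤ) ∣ 2 := by
      apply hp.dvd_of_dvd_pow (n := 2); exact h.trans (by norm_num)
    exact h6 (Dvd.dvd.mul_right (this.trans (by norm_num)) _)
  rw [hX', DF_add] at h2
  have h3 : (ℓ : ℤ) ^ 2 ∣ 4 * GF c d X Y * (ℓ * k) := by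
    have e : 4 * GF c d X Y * (ℓ * k) = (DF c d X Y + 4 * GF c d X Y * (ℓ * k) +
      (ℓ * k) ^ 2 * (6 * X ^ 2 + 4 * X * (ℓ * k) + (ℓ * k) ^ 2 - 6 * c * Y ^ 2)) - DF c d X Y -
      ℓ ^ 2 * (k ^ 2 * (6 * X ^ 2 + 4 * X * (ℓ * k) + (ℓ * k) ^ 2 - 6 * c * Y ^ 2)) := by ring
    rw [e]
    exact dvd_sub (dvd_sub h2 h1) (dvd_mul_right _ _)
  have h5 : (ℓ : ℤ) ∣ 4 * GF c d X Y * k := by
    have e : 4 * GF c d X Y * (ℓ * k) = ℓ * (4 * GF c d X Y * k) := by ring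
    rw [e, pow_two] at h3
    exact (mul_dvd_mul_iff_left hl0).1 h3
  rcases hp.dvd_or_dvd h5 with h | h
  · rcases hp.dvd_or_dvd h with h | h
    · exact absurd h h4
    · exact absurd h hG
  · obtain ⟨m, rfl⟩ := h
    rw [hk]
    exact ⟨m, by ring⟩

open Polynomial in
/-- a depressed quartic -/
noncomputable def quart {F : Type*} [CommRing F] (a b e : F) : F[X] :=
  X ^ 4 + C a * X ^ 2 + C b * X + C e

open Polynomial in
lemma quart_ne {F : Type*} [Field F] (a b e : F) : quart a b e ≠ 0 ∧ (quart a b e).natDegree ≤ 4 := by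
  have h : (quart a b e).Monic := by unfold quart; monicity!
  refine ⟨h.ne_zero, ?_⟩
  unfold quart
  compute_degree

/-- the reduction of the quartic -/
noncomputable def redP (c d : ℤ) (ℓ : ℕ) (Y : ℤ) : Polynomial (ZMod ℓ) :=
  quart (-(6 * c * Y ^ 2 : ℤ) : ZMod ℓ) (-(8 * d * Y ^ 3 : ℤ) : ZMod ℓ)
    (-(3 * c ^ 2 * Y ^ 4 : ℤ) : ZMod ℓ)

lemma redP_ne [Fact ℓ.Prime] (Y : ℤ) : redP c d ℓ Y ≠ 0 ∧ (redP c d ℓ Y).natDegree ≤ 4 :=
  quart_ne _ _ _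

open Polynomial in
lemma card_roots_redP [Fact ℓ.Prime] (Y : ℤ) : (redP c d ℓ Y).roots.toFinset.card ≤ 4 :=
  (Multiset.toFinset_card_le _).trans ((card_roots' _).trans (redP_ne Y).2)

open Polynomial in
lemma mem_roots_redP [Fact ℓ.Prime] {X Y : ℤ} (h : (ℓ : ℤ) ∣ DF c d X Y) :
    (X : ZMod ℓ) ∈ (redP c d ℓ Y).roots.toFinset := by
  rw [Multiset.mem_toFinset, mem_roots (redP_ne Y).1, IsRoot.def]
  have h1 : ((DF c d X Y : ℤ) : ZMod ℓ) = 0 := (ZMod.intCast_zmod_eq_zero_iff_dvd _ ℓ).2 h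
  rw [← h1]
  simp only [redP, quart, eval_add, eval_mul, eval_pow, eval_X, eval_C, DF]
  push_cast
  ring

end roots

section bad

/-- the bad set at `ℓ` -/
def Bad (c d : ℤ) (M u v Y ℓ : ℕ) : Finset (ℕ × ℕ) :=
  (range Y ×ˢ range Y).filter (fun p => (ℓ : ℤ) ^ 2 ∣ DF c d (u + M * p.1) (v + M * p.2))

variable {c d : ℤ} {M u v Y ℓ : ℕ}

lemma card_lin (hℓ : ℓ.Prime) (hM : ¬ ℓ ∣ M) :
    ((range Y).filter (fun i : ℕ => (ℓ : ℤ) ∣ (u + M * i : ℤ))).card ≤ Y / ℓ + 1 := by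
  apply card_class hℓ.pos _ (filter_subset _ _)
  intro i hi j hj
  rw [mem_filter] at hi hj
  exact modEq_of_dvd u ((Nat.Prime.coprime_iff_not_dvd hℓ).2 hM) (dvd_sub hi.2 hj.2)

lemma card_quart (hℓ : ℓ.Prime) (hM : ¬ ℓ ∣ M) (h6 : ¬ (ℓ : ℤ) ∣ 6 * (c ^ 3 - d ^ 2)) {y : ℤ}
    (hy : ¬ (ℓ : ℤ) ∣ y) :
    ((range Y).filter (fun i : ℕ => (ℓ : ℤ) ^ 2 ∣ DF c d (u + M * i) y)).card ≤
      4 * (Y / ℓ ^ 2 + 1) := by
  have := Fact.mk hℓ
  have hcop : Nat.Coprime (ℓ ^ 2) M :=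
    Nat.Coprime.pow_left 2 ((Nat.Prime.coprime_iff_not_dvd hℓ).2 hM)
  apply card_classes (pow_pos hℓ.pos 2) _ (filter_subset _ _)
    (fun i : ℕ => (((u + M * i : ℤ)) : ZMod ℓ)) (redP c d ℓ y).roots.toFinset (card_roots_redP y)
  · intro i hi
    rw [mem_filter] at hi
    exact mem_roots_redP ((dvd_pow_self _ (by norm_num)).trans hi.2)
  · intro i hi j hj hij
    rw [mem_filter] at hi hj
    apply modEq_of_dvd (u : ℤ) hcop
    have h1 : (ℓ : ℤ) ∣ (u + M * i : ℤ) - (u + M * j : ℤ) := by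
      rw [← ZMod.intCast_zmod_eq_zero_iff_dvd, Int.cast_sub]
      exact sub_eq_zero.2 hij
    rw [Nat.cast_pow]
    exact hensel_unique hℓ h6 hy hj.2 hi.2 h1

lemma card_Bad (hℓ : ℓ.Prime) (hM : ¬ ℓ ∣ M) (h6 : ¬ (ℓ : ℤ) ∣ 6 * (c ^ 3 - d ^ 2)) :
    (Bad c d M u v Y ℓ).card ≤ (Y / ℓ + 1) ^ 2 + Y * (4 * (Y / ℓ ^ 2 + 1)) := by
  classical
  let B1 := (range Y).filter (fun i : ℕ => (ℓ : ℤ) ∣ (u + M * i : ℤ)) ×ˢ
    (range Y).filter (fun i : ℕ => (ℓ : ℤ) ∣ (v + M * i : ℤ))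
  let B2 := (Bad c d M u v Y ℓ).filter (fun p => ¬ (ℓ : ℤ) ∣ (v + M * p.2 : ℤ))
  have hsub : Bad c d M u v Y ℓ ⊆ B1 ∪ B2 := by
    intro p hp
    rw [mem_union]
    by_cases h : (ℓ : ℤ) ∣ (v + M * p.2 : ℤ)
    · left
      have hp' := hp
      rw [Bad, mem_filter, mem_product] at hp'
      rw [mem_product, mem_filter, mem_filter]
      exact ⟨⟨hp'.1.1, dvd_X hℓ ((dvd_pow_self _ (by norm_num)).trans hp'.2) h⟩, hp'.1.2, h⟩
    · right
      exact mem_filter.2 ⟨hp, h⟩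
  have h1 : B1.card ≤ (Y / ℓ + 1) ^ 2 := by
    rw [card_product, pow_two]
    exact Nat.mul_le_mul (card_lin hℓ hM) (card_lin hℓ hM)
  have h2 : B2.card ≤ Y * (4 * (Y / ℓ ^ 2 + 1)) := by
    have hmap : ∀ p ∈ B2, p.2 ∈ range Y := by
      intro p hp
      rw [mem_filter, Bad, mem_filter, mem_product] at hp
      exact hp.1.1.2
    rw [card_eq_sum_card_fiberwise hmap]
    calc ∑ b ∈ range Y, (B2.filter (fun a => a.2 = b)).card
        ≤ ∑ _b ∈ range Y, 4 * (Y / ℓ ^ 2 + 1) := by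
          apply sum_le_sum
          intro j _
          by_cases hy : (ℓ : ℤ) ∣ (v + M * j : ℤ)
          · have : B2.filter (fun a => a.2 = j) = ∅ := by
              rw [filter_eq_empty_iff]
              rintro p hp rfl
              exact (mem_filter.1 hp).2 hy
            rw [this, card_empty]
            exact Nat.zero_le _
          · refine le_trans ?_ (card_quart (u := u) (Y := Y) hℓ hM h6 hy)
            apply card_le_card_of_injOn (fun p => p.1)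
            · intro p hp
              rw [coe_filter] at hp
              obtain ⟨hp1, rfl⟩ := hp
              have hp2 := (mem_filter.1 hp1).1
              rw [Bad, mem_filter, mem_product] at hp2
              exact mem_coe.2 (mem_filter.2 ⟨hp2.1.1, hp2.2⟩)
            · intro p hp q hq hpq
              rw [coe_filter] at hp hq
              exact Prod.ext hpq (hp.2.trans hq.2.symm)
      _ = Y * (4 * (Y / ℓ ^ 2 + 1)) := by rw [sum_const, card_range, smul_eq_mul]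
  calc (Bad c d M u v Y ℓ).card ≤ (B1 ∪ B2).card := card_le_card hsub
    _ ≤ B1.card + B2.card := card_union_le _ _
    _ ≤ _ := Nat.add_le_add h1 h2

/-- large primes -/
lemma card_Bad_large (hℓ : ℓ.Prime) (h6 : ¬ (ℓ : ℤ) ∣ 6 * (c ^ 3 - d ^ 2)) {R : ℕ}
    (hR : R < ℓ) (hu : ∀ i < Y, u + M * i ≤ R) (hv : ∀ i < Y, v + M * i ≤ R) (hM : 0 < M) :
    ((Bad c d M u v Y ℓ).filter (fun p => Nat.Coprime (u + M * p.1) (v + M * p.2))).card ≤ 4 := by
  classical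
  have := Fact.mk hℓ
  set S := (Bad c d M u v Y ℓ).filter (fun p => Nat.Coprime (u + M * p.1) (v + M * p.2)) with hS
  have hmem : ∀ p ∈ S, p.1 < Y ∧ p.2 < Y ∧
      (ℓ : ℤ) ^ 2 ∣ DF c d ((u + M * p.1 : ℕ) : ℤ) ((v + M * p.2 : ℕ) : ℤ) ∧
      Nat.Coprime (u + M * p.1) (v + M * p.2) := by
    intro p hp
    rw [hS, mem_filter, Bad, mem_filter, mem_product, mem_range, mem_range] at hp
    refine ⟨hp.1.1.1, hp.1.1.2, ?_, hp.2⟩
    push_cast
    exact hp.1.2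
  have hnd : ∀ p ∈ S, ¬ (ℓ : ℤ) ∣ ((v + M * p.2 : ℕ) : ℤ) := by
    intro p hp h
    obtain ⟨-, -, h1, h2⟩ := hmem p hp
    have h3 := dvd_X hℓ ((dvd_pow_self _ (by norm_num)).trans h1) h
    exact hℓ.not_dvd_one (h2 ▸ Nat.dvd_gcd (Int.natCast_dvd_natCast.1 h3)
      (Int.natCast_dvd_natCast.1 h))
  -- the slope
  let g : ℕ × ℕ → ZMod ℓ := fun p => ((u + M * p.1 : ℕ) : ZMod ℓ) * ((v + M * p.2 : ℕ) : ZMod ℓ)⁻¹
  have hg : ∀ p ∈ S, g p ∈ (redP c d ℓ 1).roots.toFinset := by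
    intro p hp
    obtain ⟨-, -, h1, -⟩ := hmem p hp
    have hy : ((v + M * p.2 : ℕ) : ZMod ℓ) ≠ 0 := by
      intro h0
      apply hnd p hp
      rw [← ZMod.intCast_zmod_eq_zero_iff_dvd]
      exact_mod_cast h0
    have h2 : ((DF c d ((u + M * p.1 : ℕ) : ℤ) ((v + M * p.2 : ℕ) : ℤ) : ℤ) : ZMod ℓ) = 0 :=
      (ZMod.intCast_zmod_eq_zero_iff_dvd _ ℓ).2 ((dvd_pow_self _ (by norm_num)).trans h1)
    rw [Multiset.mem_toFinset, Polynomial.mem_roots (redP_ne 1).1, Polynomial.IsRoot.def]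
    simp only [redP, quart, Polynomial.eval_add, Polynomial.eval_mul, Polynomial.eval_pow,
      Polynomial.eval_X, Polynomial.eval_C, g]
    generalize (u + M * p.1 : ℕ) = x at *
    generalize (v + M * p.2 : ℕ) = y at *
    simp only [DF] at h2
    push_cast at h2 ⊢
    field_simp
    linear_combination h2
  refine le_trans (card_le_card_of_injOn g hg ?_) (card_roots_redP (c := c) (d := d) (ℓ := ℓ) 1)
  intro p hp q hq hpq
  obtain ⟨p1, p2, p3, p4⟩ := hmem p hp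
  obtain ⟨q1, q2, q3, q4⟩ := hmem q hq
  have hyp := hnd p hp
  have hyq := hnd q hq
  have bp1 := hu _ p1
  have bp2 := hv _ p2
  have bq1 := hu _ q1
  have bq2 := hv _ q2
  have hfin : u + M * p.1 = u + M * q.1 ∧ v + M * p.2 = v + M * q.2 := by
    simp only [g] at hpq
    generalize (u + M * p.1 : ℕ) = x at *
    generalize (v + M * p.2 : ℕ) = y at *
    generalize (u + M * q.1 : ℕ) = x' at *
    generalize (v + M * q.2 : ℕ) = y' at *
    have hy : ((y : ℕ) : ZMod ℓ) ≠ 0 := by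
      intro h0; apply hyp; rw [← ZMod.intCast_zmod_eq_zero_iff_dvd]; exact_mod_cast h0
    have hy' : ((y' : ℕ) : ZMod ℓ) ≠ 0 := by
      intro h0; apply hyq; rw [← ZMod.intCast_zmod_eq_zero_iff_dvd]; exact_mod_cast h0
    have h1 : (ℓ : ℤ) ∣ (x : ℤ) * y' - x' * y := by
      rw [← ZMod.intCast_zmod_eq_zero_iff_dvd]
      push_cast
      field_simp at hpq
      linear_combination hpq
    have e1 : DF c d ((x : ℤ) * y') (y * y') = y' ^ 4 * DF c d x y := by unfold DF; ring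
    have e2 : DF c d ((x' : ℤ) * y) (y * y') = y ^ 4 * DF c d x' y' := by unfold DF; ring
    have hyy : ¬ (ℓ : ℤ) ∣ (y : ℤ) * y' := by
      intro h
      rcases (Nat.prime_iff_prime_int.mp hℓ).dvd_or_dvd h with h | h
      · exact hyp h
      · exact hyq h
    have h2 := hensel_unique hℓ h6 hyy (X := (x' : ℤ) * y) (X' := (x : ℤ) * y')
      (by rw [e2]; exact Dvd.dvd.mul_left q3 _) (by rw [e1]; exact Dvd.dvd.mul_left p3 _) h1
    have h3 : (x : ℤ) * y' - x' * y = 0 := by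
      apply Int.eq_zero_of_abs_lt_dvd h2
      have b1 : (x : ℤ) * y' ≤ R * R := by exact_mod_cast Nat.mul_le_mul bp1 bq2
      have b2 : (x' : ℤ) * y ≤ R * R := by exact_mod_cast Nat.mul_le_mul bq1 bp2
      have b3 : (0 : ℤ) ≤ (x : ℤ) * y' := by positivity
      have b4 : (0 : ℤ) ≤ (x' : ℤ) * y := by positivity
      have b5 : (R : ℤ) * R < (ℓ : ℤ) ^ 2 := by
        rw [pow_two]; exact_mod_cast Nat.mul_lt_mul'' hR hR
      rw [abs_lt]
      constructor <;> linarith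
    have h4 : x * y' = x' * y := by exact_mod_cast sub_eq_zero.1 h3
    have hx : x = x' := by
      apply Nat.dvd_antisymm
      · exact (p4.dvd_of_dvd_mul_right (h4 ▸ dvd_mul_right x y'))
      · exact (q4.dvd_of_dvd_mul_right (h4 ▸ dvd_mul_right x' y))
    refine ⟨hx, ?_⟩
    subst hx
    rcases Nat.eq_zero_or_pos x with h0 | h0
    · subst h0
      rw [Nat.coprime_zero_left] at p4 q4
      rw [p4, q4]
    · exact (Nat.eq_of_mul_eq_mul_left h0 h4).symm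
  obtain ⟨f1, f2⟩ := hfin
  exact Prod.ext (Nat.eq_of_mul_eq_mul_left hM (by omega)) (Nat.eq_of_mul_eq_mul_left hM (by omega))

end bad

section asym

lemma pi_small {ε : ℝ} (hε : 0 < ε) : ∃ N : ℕ, ∀ n ≥ N, (Nat.primeCounting n : ℝ) ≤ ε * n := by
  have h1 := Chebyshev.eventually_primeCounting_le (ε := 1) one_pos
  have h2 : ∀ᶠ x : ℝ in Filter.atTop, (Real.log 4 + 1) / ε ≤ Real.log x :=
    Real.tendsto_log_atTop.eventually_ge_atTop _
  have h3 := h1.and (h2.and (Filter.eventually_gt_atTop 1))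
  have h4 := tendsto_natCast_atTop_atTop (R := ℝ) |>.eventually h3
  obtain ⟨N, hN⟩ := Filter.eventually_atTop.1 h4
  refine ⟨N, fun n hn => ?_⟩
  obtain ⟨a1, a2, a3⟩ := hN n hn
  rw [Nat.floor_natCast] at a1
  refine a1.trans ?_
  have hl : 0 < Real.log n := Real.log_pos a3
  rw [div_le_iff₀ hl]
  rw [div_le_iff₀ hε] at a2
  have hn0 : (0 : ℝ) ≤ n := by positivity
  nlinarith [mul_le_mul_of_nonneg_right a2 hn0]

lemma asym {A B : ℕ} (hA : 0 < A) (hB : 0 < B) : ∃ Y0 : ℕ, ∀ Y ≥ Y0,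
    (∑ l ∈ (Ioc 10 (A * Y)).filter Nat.Prime, ((Y / l + 1) ^ 2 + Y * (4 * (Y / l ^ 2 + 1)))) +
      4 * ((Ioc (A * Y) (B * Y ^ 2)).filter Nat.Prime).card < Y ^ 2 := by
  obtain ⟨N1, hN1⟩ := pi_small (ε := 1 / (56 * A)) (by positivity)
  obtain ⟨N2, hN2⟩ := pi_small (ε := 1 / (32 * B)) (by positivity)
  refine ⟨N1 + N2 + 1, fun Y hY => ?_⟩
  have hY1 : 1 ≤ Y := by omega
  have hAY : N1 ≤ A * Y := by nlinarith
  have hBY : N2 ≤ B * Y ^ 2 := by nlinarith [Nat.mul_le_mul hB (Nat.mul_le_mul hY1 hY1)]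
  have p1 := hN1 _ hAY
  have p2 := hN2 _ hBY
  have c1 : ((Ioc 10 (A * Y)).filter Nat.Prime).card ≤ Nat.primeCounting (A * Y) := by
    rw [← Nat.primesLE_card_eq_primeCounting]
    apply card_le_card
    intro l hl
    rw [mem_filter, mem_Ioc] at hl
    rw [Nat.mem_primesLE]
    exact ⟨hl.1.2, hl.2⟩
  have c2 : ((Ioc (A * Y) (B * Y ^ 2)).filter Nat.Prime).card ≤
      Nat.primeCounting (B * Y ^ 2) := by
    rw [← Nat.primesLE_card_eq_primeCounting]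
    apply card_le_card
    intro l hl
    rw [mem_filter, mem_Ioc] at hl
    rw [Nat.mem_primesLE]
    exact ⟨hl.1.2, hl.2⟩
  have hYr : (1 : ℝ) ≤ Y := by exact_mod_cast hY1
  have hAr : (0 : ℝ) < A := by exact_mod_cast hA
  have hBr : (0 : ℝ) < B := by exact_mod_cast hB
  have s1 : (∑ l ∈ (Ioc 10 (A * Y)).filter Nat.Prime,
      (((Y / l + 1) ^ 2 + Y * (4 * (Y / l ^ 2 + 1)) : ℕ) : ℝ)) ≤
      ∑ l ∈ (Ioc 10 (A * Y)).filter Nat.Prime, (5 * (Y : ℝ) ^ 2 * ((l : ℝ) ^ 2)⁻¹ + 7 * Y) := by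
    apply sum_le_sum
    intro l hl
    rw [mem_filter, mem_Ioc] at hl
    have hl0 : (10 : ℝ) < l := by exact_mod_cast hl.1.1
    have q1 : ((Y / l : ℕ) : ℝ) ≤ Y / l := Nat.cast_div_le
    have q2 : ((Y / l ^ 2 : ℕ) : ℝ) ≤ Y / (l : ℝ) ^ 2 := by
      have := Nat.cast_div_le (α := ℝ) (m := Y) (n := l ^ 2)
      push_cast at this
      exact this
    have q3 : (0 : ℝ) ≤ ((Y / l : ℕ) : ℝ) := by positivity
    have q4 : ((Y / l : ℕ) : ℝ) ≤ Y := by exact_mod_cast Nat.div_le_self _ _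
    have q5 : ((Y / l : ℕ) : ℝ) ^ 2 ≤ (Y / l : ℝ) ^ 2 := pow_le_pow_left₀ q3 q1 2
    push_cast
    have e1 : (Y / l : ℝ) ^ 2 = (Y : ℝ) ^ 2 * ((l : ℝ) ^ 2)⁻¹ := by
      rw [div_pow, div_eq_mul_inv]
    have e2 : (Y : ℝ) * (Y / (l : ℝ) ^ 2) = (Y : ℝ) ^ 2 * ((l : ℝ) ^ 2)⁻¹ := by
      rw [div_eq_mul_inv]; ring
    have q6 : (Y : ℝ) * ((Y / l ^ 2 : ℕ) : ℝ) ≤ Y * (Y / (l : ℝ) ^ 2) :=
      mul_le_mul_of_nonneg_left q2 (by positivity)
    nlinarith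
  have s2 : ∑ l ∈ (Ioc 10 (A * Y)).filter Nat.Prime, ((l : ℝ) ^ 2)⁻¹ ≤ 1 / 10 := by
    calc ∑ l ∈ (Ioc 10 (A * Y)).filter Nat.Prime, ((l : ℝ) ^ 2)⁻¹
        ≤ ∑ l ∈ Ioc 10 (A * Y), ((l : ℝ) ^ 2)⁻¹ :=
          sum_le_sum_of_subset_of_nonneg (filter_subset _ _) (fun _ _ _ => by positivity)
      _ ≤ 1 / 10 := by
        rcases le_or_gt 10 (A * Y) with h | h
        · have := sum_Ioc_inv_sq_le_sub (α := ℝ) (k := 10) (n := A * Y) (by norm_num) h
          refine this.trans ?_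
          have : (0 : ℝ) ≤ ((A * Y : ℕ) : ℝ)⁻¹ := by positivity
          push_cast at this ⊢
          linarith
        · rw [Ioc_eq_empty (by omega), sum_empty]; norm_num
  have hfin : (((∑ l ∈ (Ioc 10 (A * Y)).filter Nat.Prime,
      ((Y / l + 1) ^ 2 + Y * (4 * (Y / l ^ 2 + 1)))) +
      4 * ((Ioc (A * Y) (B * Y ^ 2)).filter Nat.Prime).card : ℕ) : ℝ) < ((Y ^ 2 : ℕ) : ℝ) := by
    rw [Nat.cast_add, Nat.cast_sum, Nat.cast_mul, Nat.cast_pow]
    have c1' : (((Ioc 10 (A * Y)).filter Nat.Prime).card : ℝ) ≤ 1 / (56 * A) * (A * Y) := by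
      refine le_trans (Nat.cast_le.2 c1) ?_
      push_cast at p1 ⊢
      exact p1
    have c2' : (((Ioc (A * Y) (B * Y ^ 2)).filter Nat.Prime).card : ℝ) ≤
        1 / (32 * B) * (B * Y ^ 2) := by
      refine le_trans (Nat.cast_le.2 c2) ?_
      push_cast at p2 ⊢
      exact p2
    have e1 : 1 / (56 * (A : ℝ)) * (A * Y) = Y / 56 := by field_simp
    have e2 : 1 / (32 * (B : ℝ)) * (B * Y ^ 2) = Y ^ 2 / 32 := by field_simp
    rw [e1] at c1'
    rw [e2] at c2'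
    have s3 : ∑ l ∈ (Ioc 10 (A * Y)).filter Nat.Prime, (5 * (Y : ℝ) ^ 2 * ((l : ℝ) ^ 2)⁻¹ + 7 * Y)
        ≤ 5 * (Y : ℝ) ^ 2 * (1 / 10) + 7 * Y * (Y / 56) := by
      rw [sum_add_distrib, ← mul_sum, sum_const, nsmul_eq_mul]
      have t1 : 5 * (Y : ℝ) ^ 2 * ∑ l ∈ (Ioc 10 (A * Y)).filter Nat.Prime, ((l : ℝ) ^ 2)⁻¹ ≤
        5 * (Y : ℝ) ^ 2 * (1 / 10) := mul_le_mul_of_nonneg_left s2 (by positivity)
      have t2 : (((Ioc 10 (A * Y)).filter Nat.Prime).card : ℝ) * (7 * Y) ≤ (Y / 56) * (7 * Y) :=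
        mul_le_mul_of_nonneg_right c1' (by positivity)
      linarith
    have hY2 : (0 : ℝ) < (Y : ℝ) ^ 2 := by positivity
    push_cast
    push_cast at s1
    nlinarith
  exact_mod_cast hfin

end asym

section exist

/-- existence of good points in a large box -/
lemma exists_good {c d : ℤ} {M u v Y R T : ℕ} (hM : 0 < M)
    (h10 : ∀ l : ℕ, l.Prime → l ≤ 10 → l ∣ M)
    (h6 : ∀ l : ℕ, l.Prime → (l : ℤ) ∣ 6 * (c ^ 3 - d ^ 2) → l ∣ M)
    (huv : ∀ l : ℕ, l.Prime → l ∣ M → ¬ (l ∣ u ∧ l ∣ v)) (hu0 : 0 < u)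
    (hu : ∀ i < Y, u + M * i ≤ R) (hv : ∀ i < Y, v + M * i ≤ R)
    (hlt : (∑ l ∈ (Ioc 10 R).filter Nat.Prime, ((Y / l + 1) ^ 2 + Y * (4 * (Y / l ^ 2 + 1)))) +
      4 * ((Ioc R T).filter Nat.Prime).card < Y ^ 2) :
    ∃ i < Y, ∃ j < Y, ∀ l : ℕ, l.Prime → l ≤ T → ¬ l ∣ M →
      ¬ (l : ℤ) ^ 2 ∣ DF c d (u + M * i) (v + M * j) := by
  classical
  by_contra hcon
  push Not at hcon
  let P1 := (Ioc 10 R).filter (fun l => l.Prime ∧ ¬ l ∣ M)
  let P2 := (Ioc R T).filter (fun l => l.Prime ∧ ¬ l ∣ M)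
  let S1 := P1.biUnion (fun l => Bad c d M u v Y l)
  let S2 := P2.biUnion (fun l => (Bad c d M u v Y l).filter
    (fun p => Nat.Coprime (u + M * p.1) (v + M * p.2)))
  have hcover : range Y ×ˢ range Y ⊆ S1 ∪ S2 := by
    rintro ⟨i, j⟩ hp
    rw [mem_product, mem_range, mem_range] at hp
    obtain ⟨l, hl, hlT, hlM, hdvd⟩ := hcon i hp.1 j hp.2
    have hl10 : 10 < l := by
      by_contra h
      exact hlM (h10 l hl (by omega))
    have hbad : (i, j) ∈ Bad c d M u v Y l := by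
      rw [Bad, mem_filter, mem_product, mem_range, mem_range]
      exact ⟨hp, hdvd⟩
    rw [mem_union]
    rcases le_or_gt l R with hlR | hlR
    · left
      exact mem_biUnion.2 ⟨l, mem_filter.2 ⟨mem_Ioc.2 ⟨hl10, hlR⟩, hl, hlM⟩, hbad⟩
    · by_cases hcop : Nat.Coprime (u + M * i) (v + M * j)
      · right
        exact mem_biUnion.2 ⟨l, mem_filter.2 ⟨mem_Ioc.2 ⟨hlR, hlT⟩, hl, hlM⟩,
          mem_filter.2 ⟨hbad, hcop⟩⟩
      · left
        obtain ⟨q, hq, hq1, hq2⟩ := Nat.Prime.not_coprime_iff_dvd.1 hcop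
        have hqM : ¬ q ∣ M := by
          intro h
          apply huv q hq h
          exact ⟨(Nat.dvd_add_left (h.mul_right i)).1 hq1,
            (Nat.dvd_add_left (h.mul_right j)).1 hq2⟩
        have hq10 : 10 < q := by
          by_contra h
          exact hqM (h10 q hq (by omega))
        have hqR : q ≤ R := (Nat.le_of_dvd (by omega) hq1).trans (hu i hp.1)
        refine mem_biUnion.2 ⟨q, mem_filter.2 ⟨mem_Ioc.2 ⟨hq10, hqR⟩, hq, hqM⟩, ?_⟩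
        rw [Bad, mem_filter, mem_product, mem_range, mem_range]
        refine ⟨hp, ?_⟩
        obtain ⟨x, hx⟩ := hq1
        obtain ⟨y, hy⟩ := hq2
        have hx' : ((u : ℤ) + M * i) = q * x := by exact_mod_cast hx
        have hy' : ((v : ℤ) + M * j) = q * y := by exact_mod_cast hy
        show (q : ℤ) ^ 2 ∣ DF c d ((u : ℤ) + M * i) ((v : ℤ) + M * j)
        rw [hx', hy']
        refine ⟨q ^ 2 * DF c d x y, ?_⟩
        unfold DF; ring
  have hcard : Y ^ 2 ≤ S1.card + S2.card := by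
    have h1 := card_le_card hcover
    rw [card_product, card_range, ← pow_two] at h1
    exact h1.trans (card_union_le _ _)
  have hP1 : P1 ⊆ (Ioc 10 R).filter Nat.Prime := fun l hl => by
    rw [mem_filter] at hl ⊢; exact ⟨hl.1, hl.2.1⟩
  have hP2 : P2 ⊆ (Ioc R T).filter Nat.Prime := fun l hl => by
    rw [mem_filter] at hl ⊢; exact ⟨hl.1, hl.2.1⟩
  have h1 : S1.card ≤ ∑ l ∈ (Ioc 10 R).filter Nat.Prime,
      ((Y / l + 1) ^ 2 + Y * (4 * (Y / l ^ 2 + 1))) := by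
    refine card_biUnion_le.trans ?_
    calc ∑ l ∈ P1, (Bad c d M u v Y l).card ≤
        ∑ l ∈ P1, ((Y / l + 1) ^ 2 + Y * (4 * (Y / l ^ 2 + 1))) := by
          apply sum_le_sum
          intro l hl
          rw [mem_filter] at hl
          exact card_Bad hl.2.1 hl.2.2 (fun h => hl.2.2 (h6 l hl.2.1 h))
      _ ≤ _ := sum_le_sum_of_subset hP1
  have h2 : S2.card ≤ 4 * ((Ioc R T).filter Nat.Prime).card := by
    refine card_biUnion_le.trans ?_
    calc ∑ l ∈ P2, ((Bad c d M u v Y l).filter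
          (fun p => Nat.Coprime (u + M * p.1) (v + M * p.2))).card ≤ ∑ _l ∈ P2, 4 := by
          apply sum_le_sum
          intro l hl
          rw [mem_filter, mem_Ioc] at hl
          exact card_Bad_large hl.2.1 (fun h => hl.2.2 (h6 l hl.2.1 h)) hl.1.1 hu hv hM
      _ = P2.card * 4 := by rw [sum_const, smul_eq_mul]
      _ ≤ _ := by rw [mul_comm]; exact Nat.mul_le_mul_left _ (card_le_card hP2)
  omega

lemma DF_pos (c d : ℤ) : ∃ K : ℕ, 0 < K ∧ ∀ X Y : ℤ, 0 < X → 0 ≤ Y → K * Y ≤ X →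
    0 < DF c d X Y := by
  refine ⟨1 + 6 * c.natAbs + 8 * d.natAbs + 3 * (c ^ 2).natAbs, by omega, ?_⟩
  intro X Y hX hY hK
  have ha : c ≤ |c| := le_abs_self c
  have hb : d ≤ |d| := le_abs_self d
  have he : c ^ 2 = |c ^ 2| := (abs_of_nonneg (sq_nonneg c)).symm
  have ha0 : (0 : ℤ) ≤ |c| := abs_nonneg c
  have hb0 : (0 : ℤ) ≤ |d| := abs_nonneg d
  have he0 : (0 : ℤ) ≤ |c ^ 2| := abs_nonneg _
  push_cast at hK
  unfold DF
  rw [he]
  generalize |c| = a at *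
  generalize |d| = b at *
  generalize |c ^ 2| = e at *
  have hYX : Y ≤ X := by nlinarith [mul_nonneg ha0 hY, mul_nonneg hb0 hY, mul_nonneg he0 hY]
  have h2 : 0 ≤ X ^ 2 * Y ^ 2 := by positivity
  have h3 : 0 ≤ X * Y ^ 2 * (X - Y) := mul_nonneg (by positivity) (by linarith)
  have h4 : Y ^ 2 ≤ X ^ 2 := pow_le_pow_left₀ hY hYX 2
  have h5 : (6 * a + 8 * b + 3 * e) * Y ^ 2 < X ^ 2 := by
    rcases eq_or_lt_of_le hY with h | h
    · rw [← h]; nlinarith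
    · have : (6 * a + 8 * b + 3 * e) * Y < X := by nlinarith
      nlinarith
  have h6 : c * (X ^ 2 * Y ^ 2) ≤ a * (X ^ 2 * Y ^ 2) := mul_le_mul_of_nonneg_right ha h2
  have h7 : d * (X * Y ^ 3) ≤ b * (X * Y ^ 3) := mul_le_mul_of_nonneg_right hb (by positivity)
  have h8 : b * (X * Y ^ 3) ≤ b * (X ^ 2 * Y ^ 2) :=
    mul_le_mul_of_nonneg_left (by nlinarith) hb0
  have h9 : e * (Y ^ 2 * Y ^ 2) ≤ e * (X ^ 2 * Y ^ 2) :=
    mul_le_mul_of_nonneg_left (mul_le_mul_of_nonneg_right h4 (sq_nonneg Y)) he0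
  have h10 : 0 < X ^ 2 * (X ^ 2 - (6 * a + 8 * b + 3 * e) * Y ^ 2) :=
    mul_pos (by positivity) (by linarith)
  nlinarith

lemma DF_neg {c : ℤ} (hc : c ≠ 0) (d : ℤ) : ∃ K : ℕ, 0 < K ∧ ∀ X Y : ℤ, 0 ≤ X → 0 < Y →
    K * X ≤ Y → DF c d X Y < 0 := by
  refine ⟨1 + 6 * c.natAbs + 8 * d.natAbs, by omega, ?_⟩
  intro X Y hX hY hK
  have ha : -c ≤ |c| := neg_le_abs c
  have hb : -d ≤ |d| := neg_le_abs d
  have hc2 : 1 ≤ c ^ 2 := by
    have : 0 < c ^ 2 := by positivity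
    omega
  have ha0 : (0 : ℤ) ≤ |c| := abs_nonneg c
  have hb0 : (0 : ℤ) ≤ |d| := abs_nonneg d
  push_cast at hK
  unfold DF
  generalize |c| = a at *
  generalize |d| = b at *
  generalize c ^ 2 = e at *
  have hXY : X ≤ Y := by nlinarith [mul_nonneg ha0 hX, mul_nonneg hb0 hX]
  have h2 : 0 ≤ X ^ 2 * Y ^ 2 := by positivity
  have h3 : X ^ 2 * Y ^ 2 ≤ X * Y ^ 3 := by
    have : 0 ≤ X * Y ^ 2 * (Y - X) := mul_nonneg (by positivity) (by linarith)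
    nlinarith
  have h4 : X ^ 4 ≤ X * Y ^ 3 := by
    have : X ^ 3 ≤ Y ^ 3 := pow_le_pow_left₀ hX hXY 3
    nlinarith [mul_le_mul_of_nonneg_left this hX]
  have h5 : (6 * a + 8 * b + 1) * (X * Y ^ 3) ≤ Y ^ 4 := by
    have : (6 * a + 8 * b + 1) * X ≤ Y := by linarith
    nlinarith [mul_le_mul_of_nonneg_right this (by positivity : (0 : ℤ) ≤ Y ^ 3)]
  have h6 : -c * (X ^ 2 * Y ^ 2) ≤ a * (X ^ 2 * Y ^ 2) := mul_le_mul_of_nonneg_right ha h2
  have h6' : a * (X ^ 2 * Y ^ 2) ≤ a * (X * Y ^ 3) := mul_le_mul_of_nonneg_left h3 ha0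
  have h7 : -d * (X * Y ^ 3) ≤ b * (X * Y ^ 3) := mul_le_mul_of_nonneg_right hb (by positivity)
  have h9 : Y ^ 4 ≤ e * Y ^ 4 := by nlinarith [(by positivity : (0 : ℤ) < Y ^ 4)]
  have h10 : 0 < Y ^ 4 := by positivity
  nlinarith

lemma DF_bound (c d : ℤ) : ∃ C : ℕ, 0 < C ∧ ∀ X Y R : ℤ, 0 ≤ X → 0 ≤ Y → X ≤ R → Y ≤ R →
    |DF c d X Y| ≤ C * R ^ 4 := by
  refine ⟨1 + 6 * c.natAbs + 8 * d.natAbs + 3 * (c ^ 2).natAbs, by omega, ?_⟩
  intro X Y R hX hY hXR hYR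
  have ha : c ≤ |c| := le_abs_self c
  have ha' : -c ≤ |c| := neg_le_abs c
  have hb : d ≤ |d| := le_abs_self d
  have hb' : -d ≤ |d| := neg_le_abs d
  have ha0 : (0 : ℤ) ≤ |c| := abs_nonneg c
  have hb0 : (0 : ℤ) ≤ |d| := abs_nonneg d
  have he0 : (0 : ℤ) ≤ c ^ 2 := sq_nonneg c
  push_cast
  rw [abs_of_nonneg (sq_nonneg c)]
  unfold DF
  generalize |c| = a at *
  generalize |d| = b at *
  generalize c ^ 2 = e at *
  have hR : 0 ≤ R := hX.trans hXR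
  have k1 : X ^ 2 ≤ R ^ 2 := pow_le_pow_left₀ hX hXR 2
  have k2 : Y ^ 2 ≤ R ^ 2 := pow_le_pow_left₀ hY hYR 2
  have k3 : Y ^ 3 ≤ R ^ 3 := pow_le_pow_left₀ hY hYR 3
  have k4 : X ^ 4 ≤ R ^ 4 := pow_le_pow_left₀ hX hXR 4
  have k5 : Y ^ 4 ≤ R ^ 4 := pow_le_pow_left₀ hY hYR 4
  have m1 : X ^ 2 * Y ^ 2 ≤ R ^ 4 := by
    have := mul_le_mul k1 k2 (by positivity) (by positivity)
    nlinarith
  have m2 : X * Y ^ 3 ≤ R ^ 4 := by
    have := mul_le_mul hXR k3 (by positivity) hR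
    nlinarith
  have n1 : 0 ≤ X ^ 2 * Y ^ 2 := by positivity
  have n2 : 0 ≤ X * Y ^ 3 := by positivity
  have n3 : 0 ≤ X ^ 4 := by positivity
  have n4 : 0 ≤ Y ^ 4 := by positivity
  have q1 : c * (X ^ 2 * Y ^ 2) ≤ a * R ^ 4 :=
    (mul_le_mul_of_nonneg_right ha n1).trans (mul_le_mul_of_nonneg_left m1 ha0)
  have q2 : -c * (X ^ 2 * Y ^ 2) ≤ a * R ^ 4 :=
    (mul_le_mul_of_nonneg_right ha' n1).trans (mul_le_mul_of_nonneg_left m1 ha0)
  have q3 : d * (X * Y ^ 3) ≤ b * R ^ 4 :=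
    (mul_le_mul_of_nonneg_right hb n2).trans (mul_le_mul_of_nonneg_left m2 hb0)
  have q4 : -d * (X * Y ^ 3) ≤ b * R ^ 4 :=
    (mul_le_mul_of_nonneg_right hb' n2).trans (mul_le_mul_of_nonneg_left m2 hb0)
  have q5 : e * Y ^ 4 ≤ e * R ^ 4 := mul_le_mul_of_nonneg_left k5 he0
  have q6 : 0 ≤ e * Y ^ 4 := mul_nonneg he0 n4
  have q7 : 0 ≤ R ^ 4 := by positivity
  have q8 : 0 ≤ e * R ^ 4 := mul_nonneg he0 q7
  rw [abs_le]
  constructor
  · nlinarith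
  · nlinarith

/-- **The sieve.** -/
theorem sieve {c d : ℤ} (hc : c ≠ 0) {M : ℕ} (hM : 0 < M)
    (h10 : ∀ l : ℕ, l.Prime → l ≤ 10 → l ∣ M)
    (h6 : ∀ l : ℕ, l.Prime → (l : ℤ) ∣ 6 * (c ^ 3 - d ^ 2) → l ∣ M) (x y : ℤ)
    (hxy : ∀ l : ℕ, l.Prime → l ∣ M → ¬ ((l : ℤ) ∣ x ∧ (l : ℤ) ∣ y)) (s : ℤ)
    (hs : s = 1 ∨ s = -1) :
    ∃ X Y : ℤ, (M : ℤ) ∣ X - x ∧ (M : ℤ) ∣ Y - y ∧ 0 < s * DF c d X Y ∧
      ∀ l : ℕ, l.Prime → ¬ l ∣ M → ¬ (l : ℤ) ^ 2 ∣ DF c d X Y := by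
  obtain ⟨C, hC, hbd⟩ := DF_bound c d
  -- positive representatives
  have hMz : (0 : ℤ) < M := by exact_mod_cast hM
  obtain ⟨u0, hu0, hu1, hu2⟩ : ∃ u0 : ℕ, 0 < u0 ∧ u0 ≤ 2 * M ∧ (M : ℤ) ∣ (u0 : ℤ) - x := by
    refine ⟨(x % M + M).toNat, ?_, ?_, ?_⟩
    · have := Int.emod_nonneg x hMz.ne'; omega
    · have := Int.emod_nonneg x hMz.ne'; have := Int.emod_lt_of_pos x hMz; omega
    · have h1 := Int.emod_nonneg x hMz.ne'
      rw [Int.toNat_of_nonneg (by omega)]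
      have h2 := Int.emod_add_mul_ediv x M
      exact ⟨1 - x / M, by linear_combination h2⟩
  obtain ⟨v0, hv0, hv1, hv2⟩ : ∃ v0 : ℕ, 0 < v0 ∧ v0 ≤ 2 * M ∧ (M : ℤ) ∣ (v0 : ℤ) - y := by
    refine ⟨(y % M + M).toNat, ?_, ?_, ?_⟩
    · have := Int.emod_nonneg y hMz.ne'; omega
    · have := Int.emod_nonneg y hMz.ne'; have := Int.emod_lt_of_pos y hMz; omega
    · have h1 := Int.emod_nonneg y hMz.ne'
      rw [Int.toNat_of_nonneg (by omega)]
      have h2 := Int.emod_add_mul_ediv y M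
      exact ⟨1 - y / M, by linear_combination h2⟩
  have huv0 : ∀ a b : ℕ, ∀ l : ℕ, l.Prime → l ∣ M → ¬ (l ∣ u0 + M * a ∧ l ∣ v0 + M * b) := by
    rintro a b l hl hlM ⟨h1, h2⟩
    apply hxy l hl hlM
    have hlM' : (l : ℤ) ∣ M := Int.natCast_dvd_natCast.2 hlM
    have h1' : (l : ℤ) ∣ (u0 : ℤ) + M * a := by exact_mod_cast Int.natCast_dvd_natCast.2 h1
    have h2' : (l : ℤ) ∣ (v0 : ℤ) + M * b := by exact_mod_cast Int.natCast_dvd_natCast.2 h2
    constructor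
    · have : x = ((u0 : ℤ) + M * a) - M * a - (u0 - x) := by ring
      rw [this]
      exact dvd_sub (dvd_sub h1' (Dvd.dvd.mul_right hlM' _)) (hlM'.trans hu2)
    · have : y = ((v0 : ℤ) + M * b) - M * b - (v0 - y) := by ring
      rw [this]
      exact dvd_sub (dvd_sub h2' (Dvd.dvd.mul_right hlM' _)) (hlM'.trans hv2)
  -- the core
  have core : ∀ a b A : ℕ, 0 < A → ∀ Y0 : ℕ, (∀ Y ≥ Y0, 1 ≤ Y → (∀ i < Y, u0 + M * (a * Y) + M * i ≤ A * Y) ∧
      (∀ i < Y, v0 + M * (b * Y) + M * i ≤ A * Y) ∧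
      (∀ i < Y, ∀ j < Y, 0 < s * DF c d (((u0 + M * (a * Y) : ℕ) : ℤ) + M * i)
        (((v0 + M * (b * Y) : ℕ) : ℤ) + M * j))) →
      ∃ X Y : ℤ, (M : ℤ) ∣ X - x ∧ (M : ℤ) ∣ Y - y ∧ 0 < s * DF c d X Y ∧
      ∀ l : ℕ, l.Prime → ¬ l ∣ M → ¬ (l : ℤ) ^ 2 ∣ DF c d X Y := by
    intro a b A hA Y0 hbox
    obtain ⟨Y1, hY1⟩ := asym hA (B := C * A ^ 2) (by positivity)
    obtain ⟨Y, rfl⟩ : ∃ Y, Y = Y0 + Y1 + 1 := ⟨_, rfl⟩
    set Y := Y0 + Y1 + 1 with hYdef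
    obtain ⟨b1, b2, b3⟩ := hbox Y (by omega) (by omega)
    obtain ⟨i, hi, j, hj, hgood⟩ := exists_good (c := c) (d := d) (M := M)
      (u := u0 + M * (a * Y)) (v := v0 + M * (b * Y)) (Y := Y) (R := A * Y)
      (T := C * A ^ 2 * Y ^ 2) hM h10 h6 (fun l hl hlM => huv0 _ _ l hl hlM) (by omega)
      b1 b2 (hY1 Y (by omega))
    refine ⟨((u0 + M * (a * Y) : ℕ) : ℤ) + M * i, ((v0 + M * (b * Y) : ℕ) : ℤ) + M * j, ?_, ?_,
      b3 i hi j hj, ?_⟩
    · push_cast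
      have : (u0 : ℤ) + M * (a * Y) + M * i - x = (u0 - x) + M * (a * Y + i) := by ring
      rw [this]; exact dvd_add hu2 (dvd_mul_right _ _)
    · push_cast
      have : (v0 : ℤ) + M * (b * Y) + M * j - y = (v0 - y) + M * (b * Y + j) := by ring
      rw [this]; exact dvd_add hv2 (dvd_mul_right _ _)
    · intro l hl hlM hdvd
      rcases le_or_gt l (C * A ^ 2 * Y ^ 2) with h | h
      · exact hgood l hl h hlM hdvd
      · have hne : DF c d (((u0 + M * (a * Y) : ℕ) : ℤ) + M * i)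
            (((v0 + M * (b * Y) : ℕ) : ℤ) + M * j) ≠ 0 := by
          intro h0
          have := b3 i hi j hj
          rw [h0, mul_zero] at this
          exact lt_irrefl _ this
        have h1 := Int.le_of_dvd (abs_pos.2 hne) ((dvd_abs _ _).2 hdvd)
        have h2 := hbd (((u0 + M * (a * Y) : ℕ) : ℤ) + M * i)
          (((v0 + M * (b * Y) : ℕ) : ℤ) + M * j) ((A * Y : ℕ) : ℤ) (by positivity) (by positivity)
          (by exact_mod_cast b1 i hi) (by exact_mod_cast b2 j hj)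
        have h3 : (C : ℤ) * ((A * Y : ℕ) : ℤ) ^ 4 ≤ ((C * A ^ 2 * Y ^ 2 : ℕ) : ℤ) ^ 2 := by
          have hC' : (1 : ℤ) ≤ C := by exact_mod_cast hC
          have e : ((C * A ^ 2 * Y ^ 2 : ℕ) : ℤ) ^ 2 = C * (C * ((A * Y : ℕ) : ℤ) ^ 4) := by
            push_cast; ring
          rw [e]
          have : (0 : ℤ) ≤ C * ((A * Y : ℕ) : ℤ) ^ 4 := by positivity
          nlinarith
        have h4 : ((C * A ^ 2 * Y ^ 2 : ℕ) : ℤ) ^ 2 < (l : ℤ) ^ 2 :=
          pow_lt_pow_left₀ (by exact_mod_cast h) (by positivity) (by norm_num)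
        linarith
  rcases hs with rfl | rfl
  · obtain ⟨K, hK, hpos⟩ := DF_pos c d
    apply core (2 * K) 0 (M * (2 * K + 3)) (by positivity) 0
    intro Y _ hY1
    refine ⟨?_, ?_, ?_⟩
    · intro i hi
      have : M * i ≤ M * Y := Nat.mul_le_mul_left _ hi.le
      have h2 : 2 * M ≤ 2 * M * Y := Nat.le_mul_of_pos_right _ hY1
      nlinarith
    · intro i hi
      have : M * i ≤ M * Y := Nat.mul_le_mul_left _ hi.le
      have h2 : 2 * M ≤ 2 * M * Y := Nat.le_mul_of_pos_right _ hY1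
      have h3 : 0 ≤ M * (2 * K) * Y := by positivity
      nlinarith
    · intro i hi j hj
      rw [one_mul]
      apply hpos
      · positivity
      · positivity
      · have h1 : (v0 : ℤ) + M * j ≤ 2 * M * Y := by
          have a1 : (v0 : ℤ) ≤ 2 * M := by exact_mod_cast hv1
          have a2 : (j : ℤ) + 1 ≤ Y := by exact_mod_cast hj
          have a3 : (1 : ℤ) ≤ Y := by exact_mod_cast hY1
          nlinarith
        push_cast
        rw [zero_mul, mul_zero, add_zero]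
        have hK' : (0 : ℤ) ≤ K := by positivity
        have h2 : (K : ℤ) * (v0 + M * j) ≤ K * (2 * M * Y) := mul_le_mul_of_nonneg_left h1 hK'
        have h3 : (0 : ℤ) ≤ u0 := by positivity
        have h4 : (0 : ℤ) ≤ M * i := by positivity
        nlinarith
  · obtain ⟨K, hK, hneg⟩ := DF_neg hc d
    apply core 0 (2 * K) (M * (2 * K + 3)) (by positivity) 0
    intro Y _ hY1
    refine ⟨?_, ?_, ?_⟩
    · intro i hi
      have : M * i ≤ M * Y := Nat.mul_le_mul_left _ hi.le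
      have h2 : 2 * M ≤ 2 * M * Y := Nat.le_mul_of_pos_right _ hY1
      have h3 : 0 ≤ M * (2 * K) * Y := by positivity
      nlinarith
    · intro i hi
      have : M * i ≤ M * Y := Nat.mul_le_mul_left _ hi.le
      have h2 : 2 * M ≤ 2 * M * Y := Nat.le_mul_of_pos_right _ hY1
      nlinarith
    · intro i hi j hj
      have : DF c d (((u0 + M * (0 * Y) : ℕ) : ℤ) + M * i)
          (((v0 + M * (2 * K * Y) : ℕ) : ℤ) + M * j) < 0 := by
        apply hneg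
        · positivity
        · positivity
        · have h1 : (u0 : ℤ) + M * i ≤ 2 * M * Y := by
            have a1 : (u0 : ℤ) ≤ 2 * M := by exact_mod_cast hu1
            have a2 : (i : ℤ) + 1 ≤ Y := by exact_mod_cast hi
            have a3 : (1 : ℤ) ≤ Y := by exact_mod_cast hY1
            nlinarith
          push_cast
          rw [zero_mul, mul_zero, add_zero]
          have hK' : (0 : ℤ) ≤ K := by positivity
          have h2 : (K : ℤ) * (u0 + M * i) ≤ K * (2 * M * Y) := mul_le_mul_of_nonneg_left h1 hK'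
          have h3 : (0 : ℤ) ≤ v0 := by positivity
          have h4 : (0 : ℤ) ≤ M * j := by positivity
          nlinarith
      linarith

end exist

end Fermat.Agent.H07.Sel
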