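import Mathlib
import Fermat.Agent.H07.SelSieve

/-!
# Program Z, package Z1 : local conditions
-/

set_option autoImplicit false

namespace Fermat.Agent.H07.Sel

open Finset

section congr

variable {c d m X Y x y : ℤ}

lemma DF_congr (hX : m ∣ X - x) (hY : m ∣ Y - y) : m ∣ DF c d X Y - DF c d x y := by
  have h1 : X ≡ x [ZMOD m] := (Int.modEq_iff_dvd.2 (dvd_sub_comm.1 hX))
  have h2 : Y ≡ y [ZMOD m] := (Int.modEq_iff_dvd.2 (dvd_sub_comm.1 hY))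
  have h3 : DF c d X Y ≡ DF c d x y [ZMOD m] := by
    unfold DF; gcongr
  exact dvd_sub_comm.1 (Int.modEq_iff_dvd.1 h3)

lemma CF4_congr (hX : m ∣ X - x) (hY : m ∣ Y - y) : m ∣ CF4 c d X Y - CF4 c d x y := by
  have h1 : X ≡ x [ZMOD m] := (Int.modEq_iff_dvd.2 (dvd_sub_comm.1 hX))
  have h2 : Y ≡ y [ZMOD m] := (Int.modEq_iff_dvd.2 (dvd_sub_comm.1 hY))
  have h3 : CF4 c d X Y ≡ CF4 c d x y [ZMOD m] := by
    unfold CF4; gcongr
  exact dvd_sub_comm.1 (Int.modEq_iff_dvd.1 h3)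

lemma CF6_congr (hX : m ∣ X - x) (hY : m ∣ Y - y) : m ∣ CF6 c d X Y - CF6 c d x y := by
  have h1 : X ≡ x [ZMOD m] := (Int.modEq_iff_dvd.2 (dvd_sub_comm.1 hX))
  have h2 : Y ≡ y [ZMOD m] := (Int.modEq_iff_dvd.2 (dvd_sub_comm.1 hY))
  have h3 : CF6 c d X Y ≡ CF6 c d x y [ZMOD m] := by
    unfold CF6; gcongr
  exact dvd_sub_comm.1 (Int.modEq_iff_dvd.1 h3)

end congr

section l0

lemma exists_prime_three_mod_four : ∀ n : ℕ, n % 4 = 3 → ∃ p : ℕ, p.Prime ∧ p % 4 = 3 ∧ p ∣ n := by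
  intro n
  induction n using Nat.strong_induction_on with
  | _ n ih =>
    intro hn
    have h1 : n ≠ 1 := by rintro rfl; omega
    obtain ⟨p, hp, m, rfl⟩ := Nat.exists_prime_and_dvd h1
    rcases hp.eq_two_or_odd with h2 | h2
    · subst h2; omega
    · have h3 : p % 4 = 1 ∨ p % 4 = 3 := by omega
      rcases h3 with h3 | h3
      · have hm : m % 4 = 3 := by
          rw [Nat.mul_mod, h3, one_mul, Nat.mod_mod] at hn; exact hn
        have hm0 : 0 < m := by omega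
        obtain ⟨q, hq, hq4, hqm⟩ := ih m (by nlinarith [hp.two_le]) hm
        exact ⟨q, hq, hq4, hqm.mul_left p⟩
      · exact ⟨p, hp, h3, dvd_mul_right _ _⟩

/-- a prime `3 mod 4` at which the quartic has a simple root -/
theorem exists_l0 {c d : ℤ} (hc : c ≠ 0) (hE : c ^ 3 - d ^ 2 ≠ 0) :
    ∃ l : ℕ, l.Prime ∧ l % 4 = 3 ∧ ¬ (l : ℤ) ∣ 6 * (c ^ 3 - d ^ 2) ∧ ∃ x y : ℤ,
      ¬ (l : ℤ) ∣ y ∧ (l : ℤ) ∣ DF c d x y ∧ ¬ (l : ℤ) ^ 2 ∣ DF c d x y := by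
  obtain ⟨K, hK, hneg⟩ := DF_neg hc d
  have hE2 : 0 < (c ^ 3 - d ^ 2) ^ 2 := by positivity
  obtain ⟨y, hy⟩ : ∃ y : ℤ, y = 24 * K * (c ^ 3 - d ^ 2) ^ 2 := ⟨_, rfl⟩
  have hK' : (0 : ℤ) < K := by exact_mod_cast hK
  have hy0 : 0 < y := by rw [hy]; positivity
  have hyK : (K : ℤ) * 1 ≤ y := by rw [hy]; nlinarith
  have hD := hneg 1 y (by norm_num) hy0 hyK
  have hmod : y ∣ DF c d 1 y - 1 := ⟨-(6 * c * y) - 8 * d * y ^ 2 - 3 * c ^ 2 * y ^ 3, by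
    unfold DF; ring⟩
  have h4 : (4 : ℤ) ∣ DF c d 1 y - 1 := Dvd.dvd.trans ⟨6 * K * (c ^ 3 - d ^ 2) ^ 2, by
    rw [hy]; ring⟩ hmod
  have h6E : 6 * (c ^ 3 - d ^ 2) ∣ DF c d 1 y - 1 :=
    Dvd.dvd.trans ⟨4 * K * (c ^ 3 - d ^ 2), by rw [hy]; ring⟩ hmod
  have hn : (DF c d 1 y).natAbs % 4 = 3 := by omega
  obtain ⟨l, hl, hl4, hld⟩ := exists_prime_three_mod_four _ hn
  have hlD : (l : ℤ) ∣ DF c d 1 y := Int.natCast_dvd.2 hld
  have hp := Nat.prime_iff_prime_int.mp hl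
  have hone : ∀ z : ℤ, z ∣ DF c d 1 y - 1 → ¬ (l : ℤ) ∣ z := by
    intro z hz h
    have : (l : ℤ) ∣ 1 := by
      have e : (1 : ℤ) = DF c d 1 y - (DF c d 1 y - 1) := by ring
      rw [e]; exact dvd_sub hlD (h.trans hz)
    exact hp.not_isUnit (isUnit_of_dvd_one this)
  have hl6 := hone _ h6E
  have hly := hone _ hmod
  refine ⟨l, hl, hl4, hl6, ?_⟩
  by_cases hsq : (l : ℤ) ^ 2 ∣ DF c d 1 y
  · refine ⟨1 + l, y, hly, ?_, ?_⟩
    · rw [DF_add]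
      exact dvd_add (dvd_add hlD (dvd_mul_left _ _))
        (Dvd.dvd.mul_right (dvd_pow_self _ (by norm_num)) _)
    · intro h
      rw [DF_add] at h
      have h1 : (l : ℤ) ^ 2 ∣ 4 * GF c d 1 y * l := by
        have e : 4 * GF c d 1 y * l = (DF c d 1 y + 4 * GF c d 1 y * l + (l : ℤ) ^ 2 *
          (6 * 1 ^ 2 + 4 * 1 * l + l ^ 2 - 6 * c * y ^ 2)) - DF c d 1 y - (l : ℤ) ^ 2 *
          (6 * 1 ^ 2 + 4 * 1 * l + l ^ 2 - 6 * c * y ^ 2) := by ring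
        rw [e]
        exact dvd_sub (dvd_sub h hsq) (dvd_mul_right _ _)
      have h2 : (l : ℤ) ∣ 4 * GF c d 1 y := by
        rw [pow_two] at h1
        exact (mul_dvd_mul_iff_right hp.ne_zero).1 h1
      rcases hp.dvd_or_dvd h2 with h | h
      · have : (l : ℤ) ∣ 2 := hp.dvd_of_dvd_pow (n := 2) (h.trans (by norm_num))
        exact hl6 (Dvd.dvd.mul_right (this.trans (by norm_num)) _)
      · exact sep hl hl6 hlD hly h
  · exact ⟨1, y, hly, hlD, hsq⟩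

end l0

section crt

/-- Chinese remainder theorem for a finite set of primes. -/
lemma exists_crt (S : Finset ℕ) (hS : ∀ p ∈ S, p.Prime) (k : ℕ) (a : ℕ → ℤ) :
    ∃ x : ℤ, ∀ p ∈ S, ((p : ℤ) ^ k) ∣ x - a p := by
  let a' : ℕ → ℕ := fun p => (a p % ((p : ℤ) ^ k)).toNat
  have pp : Set.Pairwise (S : Set ℕ) (Function.onFun Nat.Coprime (fun p => p ^ k)) := by
    intro p hp q hq hpq
    exact Nat.Coprime.pow _ _ ((Nat.coprime_primes (hS p hp) (hS q hq)).2 hpq)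
  obtain ⟨x, hx⟩ := Nat.chineseRemainderOfFinset a' (fun p => p ^ k) S
    (fun p hp => pow_ne_zero _ (hS p hp).ne_zero) pp
  refine ⟨x, fun p hp => ?_⟩
  have h1 := (Int.natCast_modEq_iff.2 (hx p hp))
  have hpk : (0 : ℤ) < (p : ℤ) ^ k := by have := (hS p hp).pos; positivity
  have h2 : ((a' p : ℕ) : ℤ) = a p % ((p : ℤ) ^ k) :=
    Int.toNat_of_nonneg (Int.emod_nonneg _ hpk.ne')
  rw [h2] at h1
  push_cast at h1
  have h3 : (x : ℤ) ≡ a p [ZMOD (p : ℤ) ^ k] := h1.trans (Int.mod_modEq _ _)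
  exact dvd_sub_comm.1 (Int.modEq_iff_dvd.1 h3)

end crt

section localc

/-- the local requirement at `p` -/
def GoodAt (c d D : ℤ) (p : ℕ) (X Y : ℤ) : Prop :=
  (p : ℤ) ∣ D * DF c d X Y → ¬ (p : ℤ) ∣ CF4 c d X Y ∧ Odd (padicValInt p (D * DF c d X Y))

variable {c d D : ℤ} {p : ℕ} {X Y : ℤ}

lemma DF_one (c d : ℤ) : DF c d 1 0 = 1 := by unfold DF; ring
lemma CF4_one (c d : ℤ) : CF4 c d 1 0 = c := by unfold CF4; ring
lemma CF6_one (c d : ℤ) : CF6 c d 1 0 = d := by unfold CF6; ring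

lemma val_one (hp : p.Prime) {n : ℤ} (h1 : (p : ℤ) ∣ n) (h2 : ¬ (p : ℤ) ^ 2 ∣ n) :
    padicValInt p n = 1 := by
  have := Fact.mk hp
  have hn : n ≠ 0 := by rintro rfl; exact h2 (dvd_zero _)
  have a := (padicValInt_dvd_iff 1 n (p := p)).1 (by rwa [pow_one])
  have b := mt (padicValInt_dvd_iff 2 n (p := p)).2 h2
  push Not at b
  have a' : 1 ≤ padicValInt p n := by
    rcases a with h | h
    · exact absurd h hn
    · exact h
  have b' := b.2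
  omega

lemma val_zero {n : ℤ} (h1 : ¬ (p : ℤ) ∣ n) : padicValInt p n = 0 :=
  padicValInt.eq_zero_of_not_dvd h1

lemma good_trivial (hp : p.Prime) (hD : D ≠ 0) (hc : (p : ℤ) ∣ D → ¬ (p : ℤ) ∣ c)
    (ho : (p : ℤ) ∣ D → Odd (padicValInt p D)) (hX : (p : ℤ) ∣ X - 1) (hY : (p : ℤ) ∣ Y - 0) :
    GoodAt c d D p X Y := by
  have := Fact.mk hp
  have hp' := Nat.prime_iff_prime_int.mp hp
  have h1 := DF_congr (c := c) (d := d) hX hY
  have h2 := CF4_congr (c := c) (d := d) hX hY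
  rw [DF_one] at h1
  rw [CF4_one] at h2
  have hDF : ¬ (p : ℤ) ∣ DF c d X Y := by
    intro h
    have : (p : ℤ) ∣ 1 := by
      have e : (1 : ℤ) = DF c d X Y - (DF c d X Y - 1) := by ring
      rw [e]; exact dvd_sub h h1
    exact hp'.not_isUnit (isUnit_of_dvd_one this)
  have hDF0 : DF c d X Y ≠ 0 := by intro h; rw [h] at hDF; exact hDF (dvd_zero _)
  intro hd
  have hpD : (p : ℤ) ∣ D := by
    rcases hp'.dvd_or_dvd hd with h | h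
    · exact h
    · exact absurd h hDF
  refine ⟨?_, ?_⟩
  · intro h
    apply hc hpD
    have e : c = CF4 c d X Y - (CF4 c d X Y - c) := by ring
    rw [e]; exact dvd_sub h h2
  · rw [padicValInt.mul hD hDF0, val_zero hDF, add_zero]
    exact ho hpD

lemma cusp_aux (hp : p.Prime) (h2 : p ≠ 2) (hE : c ^ 3 - d ^ 2 = 1728 * D)
    (hpD : (p : ℤ) ^ 2 ∣ D) (hd : ¬ (p : ℤ) ∣ d) (hc : ¬ (p : ℤ) ∣ c)
    (hX : (p : ℤ) ^ 2 ∣ X - (3 * d + p)) (hY : (p : ℤ) ^ 2 ∣ Y - c) :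
    (p : ℤ) ∣ DF c d X Y ∧ ¬ (p : ℤ) ^ 2 ∣ DF c d X Y ∧ ¬ (p : ℤ) ∣ CF4 c d X Y := by
  have hp' := Nat.prime_iff_prime_int.mp hp
  have h4 : ¬ (p : ℤ) ∣ 4 * d := by
    intro h
    rcases hp'.dvd_or_dvd h with h | h
    · have : (p : ℤ) ∣ 2 := hp'.dvd_of_dvd_pow (n := 2) (h.trans (by norm_num))
      have : p ∣ 2 := by exact_mod_cast this
      exact h2 ((Nat.prime_dvd_prime_iff_eq hp Nat.prime_two).1 this)
    · exact hd h
  have hW : ¬ (p : ℤ) ∣ 4 * d + p := by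
    intro h
    apply h4
    have e : 4 * d = (4 * d + p) - p := by ring
    rw [e]; exact dvd_sub h dvd_rfl
  have hE2 : (p : ℤ) ^ 2 ∣ c ^ 3 - d ^ 2 := by rw [hE]; exact Dvd.dvd.mul_left hpD _
  have hE1 : (p : ℤ) ∣ c ^ 3 - d ^ 2 := (dvd_pow_self _ (by norm_num)).trans hE2
  have e0 : 3 * d + (p : ℤ) = (4 * d + p) - d := by ring
  have h1 := DF_congr (c := c) (d := d) hX hY
  have h3 := CF4_congr (c := c) (d := d) hX hY
  rw [e0, DF_cusp] at h1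
  rw [e0, CF4_cusp] at h3
  have hDmod : (p : ℤ) ^ 2 ∣ DF c d X Y - (4 * d + p) ^ 3 * p := by
    have e : DF c d X Y - (4 * d + (p : ℤ)) ^ 3 * p = (DF c d X Y - ((4 * d + (p : ℤ)) ^ 3 *
      (4 * d + p - 4 * d) - 2 * (c ^ 3 - d ^ 2) * (3 * (4 * d + (p : ℤ)) ^ 2 -
      2 * d * (4 * d + p) + 2 * d ^ 2) - 3 * (c ^ 3 - d ^ 2) ^ 2)) -
      (c ^ 3 - d ^ 2) * (2 * (3 * (4 * d + (p : ℤ)) ^ 2 - 2 * d * (4 * d + p) + 2 * d ^ 2) +
        3 * (c ^ 3 - d ^ 2)) := by ring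
    rw [e]
    exact dvd_sub h1 (Dvd.dvd.mul_right hE2 _)
  refine ⟨?_, ?_, ?_⟩
  · have e : DF c d X Y = (DF c d X Y - (4 * d + p) ^ 3 * p) + (4 * d + p) ^ 3 * p := by ring
    rw [e]
    exact dvd_add ((dvd_pow_self _ (by norm_num)).trans hDmod) (dvd_mul_left _ _)
  · intro h
    have : (p : ℤ) ^ 2 ∣ (4 * d + p) ^ 3 * p := by
      have e : (4 * d + (p : ℤ)) ^ 3 * p = DF c d X Y - (DF c d X Y - (4 * d + p) ^ 3 * p) := by ring
      rw [e]; exact dvd_sub h hDmod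
    rw [pow_two] at this
    exact hW (hp'.dvd_of_dvd_pow ((mul_dvd_mul_iff_right hp'.ne_zero).1 this))
  · intro h
    have h5 : (p : ℤ) ∣ c * (4 * d + p) ^ 4 := by
      have e : c * (4 * d + (p : ℤ)) ^ 4 = CF4 c d X Y - (CF4 c d X Y - c * ((4 * d + (p : ℤ)) ^ 4 +
        2 * (c ^ 3 - d ^ 2) * (3 * (4 * d + p) - 4 * d) * (4 * d + p) -
        3 * (c ^ 3 - d ^ 2) ^ 2)) - (c ^ 3 - d ^ 2) * (c * (
        2 * (3 * (4 * d + (p : ℤ)) - 4 * d) * (4 * d + p) - 3 * (c ^ 3 - d ^ 2))) := by ring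
      rw [e]
      exact dvd_sub (dvd_sub h ((dvd_pow_self _ (by norm_num)).trans h3))
        (Dvd.dvd.mul_right hE1 _)
    rcases hp'.dvd_or_dvd h5 with h | h
    · exact hc h
    · exact hW (hp'.dvd_of_dvd_pow h)

lemma good_cusp (hp : p.Prime) (h2 : p ≠ 2) (hD : D ≠ 0) (hE : c ^ 3 - d ^ 2 = 1728 * D)
    (hpD : (p : ℤ) ^ 2 ∣ D) (he : Even (padicValInt p D)) (hd : ¬ (p : ℤ) ∣ d)
    (hc : ¬ (p : ℤ) ∣ c) (hX : (p : ℤ) ^ 2 ∣ X - (3 * d + p)) (hY : (p : ℤ) ^ 2 ∣ Y - c) :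
    GoodAt c d D p X Y := by
  have := Fact.mk hp
  obtain ⟨h1, h3, h4⟩ := cusp_aux hp h2 hE hpD hd hc hX hY
  intro _
  refine ⟨h4, ?_⟩
  have h0 : DF c d X Y ≠ 0 := by intro h; rw [h] at h3; exact h3 (dvd_zero _)
  rw [padicValInt.mul hD h0, val_one hp h1 h3]
  exact he.add_one

lemma good_simple (hp : p.Prime) (hD : D ≠ 0) (hE : c ^ 3 - d ^ 2 = 1728 * D)
    (h6 : ¬ (p : ℤ) ∣ 6 * (c ^ 3 - d ^ 2)) (h2 : ¬ (p : ℤ) ^ 2 ∣ DF c d X Y) :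
    GoodAt c d D p X Y := by
  have := Fact.mk hp
  have hp' := Nat.prime_iff_prime_int.mp hp
  have hpD : ¬ (p : ℤ) ∣ D := by
    intro h; apply h6; rw [hE]; exact Dvd.dvd.mul_left (Dvd.dvd.mul_left h _) _
  have h0 : DF c d X Y ≠ 0 := by intro h; rw [h] at h2; exact h2 (dvd_zero _)
  intro h
  have h1 : (p : ℤ) ∣ DF c d X Y := by
    rcases hp'.dvd_or_dvd h with h | h
    · exact absurd h hpD
    · exact h
  have hY : ¬ (p : ℤ) ∣ Y := by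
    intro hY
    obtain ⟨x, rfl⟩ := dvd_X hp h1 hY
    obtain ⟨y, rfl⟩ := hY
    apply h2
    exact ⟨p ^ 2 * DF c d x y, by unfold DF; ring⟩
  refine ⟨not_dvd_CF4 hp h6 h1 hY, ?_⟩
  rw [padicValInt.mul hD h0, val_one hp h1 h2, val_zero hpD]
  exact odd_one

/-- the requirement at `2` -/
def TwoAt (c d D X Y : ℤ) : Prop := ∃ u c' d' D' : ℤ, (u = 1 ∨ u = 4) ∧ CF4 c d X Y = u ^ 4 * c' ∧
  CF6 c d X Y = u ^ 6 * d' ∧ D * DF c d X Y ^ 3 = u ^ 12 * D' ∧ ¬ (2 : ℤ) ∣ c' ∧ d' % 4 = 3 ∧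
  (2 : ℤ) ∣ D' ∧ Odd (padicValInt 2 D')

lemma two_A (hD : D ≠ 0) (h2 : (2 : ℤ) ∣ D) (hc : ¬ (2 : ℤ) ∣ c) (hd : d % 4 = 3)
    (ho : Odd (padicValInt 2 D)) (hX : (4 : ℤ) ∣ X - 1) (hY : (4 : ℤ) ∣ Y - 0) :
    TwoAt c d D X Y := by
  have := Fact.mk Nat.prime_two
  have h1 := DF_congr (c := c) (d := d) hX hY
  have h3 := CF4_congr (c := c) (d := d) hX hY
  have h4 := CF6_congr (c := c) (d := d) hX hY
  rw [DF_one] at h1
  rw [CF4_one] at h3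
  rw [CF6_one] at h4
  have hodd : ¬ ((2 : ℕ) : ℤ) ∣ DF c d X Y := by push_cast; omega
  have h0 : DF c d X Y ≠ 0 := by omega
  refine ⟨1, CF4 c d X Y, CF6 c d X Y, D * DF c d X Y ^ 3, Or.inl rfl, by ring, by ring, by ring,
    by omega, by omega, Dvd.dvd.mul_right h2 _, ?_⟩
  have h3 : padicValInt 2 (DF c d X Y ^ 3) = 0 := val_zero (fun h =>
    hodd ((Nat.prime_iff_prime_int.mp Nat.prime_two).dvd_of_dvd_pow h))
  rw [padicValInt.mul hD (pow_ne_zero _ h0), h3, add_zero]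
  exact ho

lemma two_B (hD : D ≠ 0) (h4 : (4 : ℤ) ∣ D) (hE : c ^ 3 - d ^ 2 = 1728 * D)
    (hc : ¬ (2 : ℤ) ∣ c) (hd : d % 4 = 3)
    (he : Even (padicValInt 2 D)) (hX : (2 ^ 16 : ℤ) ∣ X - (3 * d + 8)) (hY : (2 ^ 16 : ℤ) ∣ Y - c) :
    TwoAt c d D X Y := by
  have := Fact.mk Nat.prime_two
  have h1 := DF_congr (c := c) (d := d) hX hY
  have h3 := CF4_congr (c := c) (d := d) hX hY
  have h5 := CF6_congr (c := c) (d := d) hX hY
  have e0 : 3 * d + 8 = (4 * d + 8) - d := by ring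
  rw [e0, DF_cusp, hE] at h1
  rw [e0, CF4_cusp, hE] at h3
  rw [e0, CF6_cusp, hE] at h5
  obtain ⟨D1, rfl⟩ := h4
  obtain ⟨a1, ha1⟩ := h1
  obtain ⟨a3, ha3⟩ := h3
  obtain ⟨a5, ha5⟩ := h5
  obtain ⟨w, hw⟩ : ∃ w, w = d + 2 := ⟨_, rfl⟩
  have hdodd : Odd d := ⟨2 * (d / 4) + 1, by omega⟩
  have hwodd : Odd w := ⟨2 * (d / 4) + 2, by omega⟩
  have hcodd : Odd c := by rwa [← Int.not_even_iff_odd, even_iff_two_dvd]
  have hDF : DF c d X Y = 512 * (w ^ 3 - 2 * (27 * D1 * (24 * w ^ 2 - 4 * d * w + d ^ 2) +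
      3 * 64 * 729 * D1 ^ 2 - 64 * a1)) := by
    rw [hw]; linear_combination ha1
  have hC4 : CF4 c d X Y = 4 ^ 4 * (c * (w ^ 4 + 2 * (27 * D1 * (12 * w - 4 * d) * 4 * w -
      3 * 128 * 729 * D1 ^ 2)) + 2 * (128 * a3)) := by
    rw [hw]; linear_combination ha3
  have hC6 : CF6 c d X Y = 4 ^ 6 * (d * w ^ 6 + 4 * (27 * D1 * (96 * w ^ 5 - 60 * d * w ^ 4 +
      20 * d ^ 2 * w ^ 3) + 4 * 729 * D1 ^ 2 * (240 * d * w ^ 2 + 48 * d ^ 2 * w - 8 * d ^ 3) +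
      1024 * 19683 * D1 ^ 3 * (72 * w - 9 * d) + 4 * a5)) := by
    rw [hw]; linear_combination ha5
  have hBodd : Odd (w ^ 3 - 2 * (27 * D1 * (24 * w ^ 2 - 4 * d * w + d ^ 2) +
      3 * 64 * 729 * D1 ^ 2 - 64 * a1)) := hwodd.pow.sub_even (even_two_mul _)
  have hCodd : Odd (c * (w ^ 4 + 2 * (27 * D1 * (12 * w - 4 * d) * 4 * w -
      3 * 128 * 729 * D1 ^ 2)) + 2 * (128 * a3)) :=
    (hcodd.mul (hwodd.pow.add_even (even_two_mul _))).add_even (even_two_mul _)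
  have hdw : (d * w ^ 6) % 4 = 3 := by
    obtain ⟨k, hk⟩ : ∃ k, d = 4 * k + 3 := ⟨d / 4, by omega⟩
    have hk2 : w = 4 * (k + 1) + 1 := by omega
    have : (d * w ^ 6) ≡ 3 * 1 ^ 6 [ZMOD 4] := by
      apply Int.ModEq.mul
      · rw [hk]; exact (Int.modEq_iff_dvd.2 ⟨-k, by ring⟩)
      · apply Int.ModEq.pow
        rw [hk2]; exact (Int.modEq_iff_dvd.2 ⟨-(k + 1), by ring⟩)
    exact this
  generalize (w ^ 3 - 2 * (27 * D1 * (24 * w ^ 2 - 4 * d * w + d ^ 2) +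
      3 * 64 * 729 * D1 ^ 2 - 64 * a1)) = B at hDF hBodd
  generalize (c * (w ^ 4 + 2 * (27 * D1 * (12 * w - 4 * d) * 4 * w -
      3 * 128 * 729 * D1 ^ 2)) + 2 * (128 * a3)) = c' at hC4 hCodd
  generalize (27 * D1 * (96 * w ^ 5 - 60 * d * w ^ 4 +
      20 * d ^ 2 * w ^ 3) + 4 * 729 * D1 ^ 2 * (240 * d * w ^ 2 + 48 * d ^ 2 * w - 8 * d ^ 3) +
      1024 * 19683 * D1 ^ 3 * (72 * w - 9 * d) + 4 * a5) = d'' at hC6
  have hD1 : D1 ≠ 0 := by rintro rfl; exact hD (by ring)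
  have hB0 : B ≠ 0 := by rintro rfl; exact (Int.not_odd_iff_even.2 Even.zero) hBodd
  refine ⟨4, c', d * w ^ 6 + 4 * d'', 32 * D1 * B ^ 3, Or.inr rfl, hC4, hC6, ?_, ?_, ?_, ?_, ?_⟩
  · rw [hDF]; ring
  · rw [← even_iff_two_dvd, Int.not_even_iff_odd]; exact hCodd
  · omega
  · exact ⟨16 * D1 * B ^ 3, by ring⟩
  · have v1 : padicValInt 2 (B ^ 3) = 0 := val_zero (fun h => by
      have h' : Even (B ^ 3) := even_iff_two_dvd.2 (by exact_mod_cast h)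
      exact (Int.not_odd_iff_even.2 h') hBodd.pow)
    have v2 : padicValInt 2 (4 * D1) = 2 + padicValInt 2 D1 := by
      rw [padicValInt.mul (by norm_num) hD1]
      congr 1
      rw [show (4 : ℤ) = ((2 ^ 2 : ℕ) : ℤ) by norm_num, padicValInt.of_nat]
      exact padicValNat.prime_pow 2
    have v3 : padicValInt 2 32 = 5 := by
      rw [show (32 : ℤ) = ((2 ^ 5 : ℕ) : ℤ) by norm_num, padicValInt.of_nat]
      exact padicValNat.prime_pow 5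
    rw [padicValInt.mul (mul_ne_zero (by norm_num) hD1) (pow_ne_zero _ hB0),
      padicValInt.mul (by norm_num) hD1, v1, v3]
    rw [v2] at he
    rw [Nat.even_iff] at he
    rw [Nat.odd_iff]
    omega

end localc

end Fermat.Agent.H07.Sel
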