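import Mathlib
import Fermat.Agent.H07.SelLocal

/-!
# Program Z, package Z1 : assembly of the selection theorem
-/

set_option autoImplicit false

namespace Fermat.Agent.H07.Sel

open Finset

lemma even_val_sq {p : ℕ} (hp : p.Prime) {D : ℤ} (hD : D ≠ 0) (h : (p : ℤ) ∣ D)
    (he : ¬ Odd (padicValInt p D)) : (p : ℤ) ^ 2 ∣ D := by
  have := Fact.mk hp
  rw [padicValInt_dvd_iff]
  right
  have a := (padicValInt_dvd_iff 1 D (p := p)).1 (by rwa [pow_one])
  rcases a with h | h
  · exact absurd h hD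
  · rw [Nat.odd_iff] at he
    omega

theorem selection_core (W : WeierstrassCurve ℤ) (hΔ : W.Δ ≠ 0) (hW : W.IsSemistableModel)
    (h2 : (2 : ℤ) ∣ W.Δ) :
    ∃ (W' : WeierstrassCurve ℤ) (X Y u : ℤ), (u = 1 ∨ u = 4) ∧
      CF4 W.c₄ W.c₆ X Y = u ^ 4 * W'.c₄ ∧ CF6 W.c₄ W.c₆ X Y = u ^ 6 * W'.c₆ ∧
      DF W.c₄ W.c₆ X Y ≠ 0 ∧ W'.Δ < 0 ∧ W'.IsSemistableModel ∧ (2 : ℤ) ∣ W'.Δ ∧
      (∀ ℓ : ℕ, ℓ.Prime → (ℓ : ℤ) ∣ W'.Δ → Odd (padicValInt ℓ W'.Δ)) ∧
      (∃ ℓ : ℕ, ℓ.Prime ∧ ℓ % 4 = 3 ∧ (ℓ : ℤ) ∣ W'.Δ) ∧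
      ((3 : ℤ) ∣ W'.Δ → (3 : ℤ) ∣ W.Δ) := by
  classical
  have hE : W.c₄ ^ 3 - W.c₆ ^ 2 = 1728 * W.Δ := W.c_relation.symm
  have hc2 : ¬ (2 : ℤ) ∣ W.c₄ := by
    have := hW 2 Nat.prime_two (by exact_mod_cast h2)
    exact_mod_cast this
  have hd4 : W.c₆ % 4 = 3 := c6_mod_four W hc2
  have hc6 : (3 : ℤ) ∣ W.c₄ → (27 : ℤ) ∣ W.c₆ := c6_three W
  have hss : ∀ p : ℕ, p.Prime → (p : ℤ) ∣ W.Δ → ¬ (p : ℤ) ∣ W.c₄ := hW
  generalize W.c₄ = c at *
  generalize W.c₆ = d at *
  generalize W.Δ = D at *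
  have hc0 : c ≠ 0 := by rintro rfl; exact hc2 (dvd_zero _)
  have hE0 : c ^ 3 - d ^ 2 ≠ 0 := by rw [hE]; exact mul_ne_zero (by norm_num) hΔ
  obtain ⟨l0, hl0, hl04, hl06, x0, y0, hy0, hl0d, hl0s⟩ := exists_l0 hc0 hE0
  have hl0' := Nat.prime_iff_prime_int.mp hl0
  -- the primes
  let S : Finset ℕ := (210 * D.natAbs * l0).primeFactors
  have hn0 : 210 * D.natAbs * l0 ≠ 0 := by
    have := Int.natAbs_ne_zero.2 hΔ
    have := hl0.ne_zero
    positivity
  have hSp : ∀ p ∈ S, p.Prime := fun p hp => Nat.prime_of_mem_primeFactors hp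
  have hS210 : ∀ p : ℕ, p.Prime → p ∣ 210 → p ∈ S := fun p hp h =>
    Nat.mem_primeFactors.2 ⟨hp, Dvd.dvd.mul_right (Dvd.dvd.mul_right h _) _, hn0⟩
  have hSD : ∀ p : ℕ, p.Prime → (p : ℤ) ∣ D → p ∈ S := fun p hp h =>
    Nat.mem_primeFactors.2 ⟨hp, Dvd.dvd.mul_right (Dvd.dvd.mul_left (Int.natCast_dvd.1 h) _) _, hn0⟩
  have hSl0 : l0 ∈ S := Nat.mem_primeFactors.2 ⟨hl0, dvd_mul_left _ _, hn0⟩
  let M : ℕ := ∏ p ∈ S, p ^ 16
  have hM : 0 < M := Finset.prod_pos (fun p hp => pow_pos (hSp p hp).pos _)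
  have hMS : ∀ p ∈ S, (p : ℤ) ^ 16 ∣ (M : ℤ) := by
    intro p hp
    have : p ^ 16 ∣ M := Finset.dvd_prod_of_mem (fun p => p ^ 16) hp
    exact_mod_cast Int.natCast_dvd_natCast.2 this
  have hMp : ∀ l : ℕ, l.Prime → l ∣ M → l ∈ S := by
    intro l hl h
    obtain ⟨p, hp, hlp⟩ := (Prime.dvd_finsetProd_iff hl.prime _).1 h
    have := (Nat.prime_dvd_prime_iff_eq hl (hSp p hp)).1 (hl.dvd_of_dvd_pow hlp)
    rwa [this]
  have hlM : ∀ l ∈ S, l ∣ M := fun l hl =>
    (dvd_pow_self _ (by norm_num)).trans (Finset.dvd_prod_of_mem (fun p => p ^ 16) hl)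
  -- residues
  let cuspT : ℕ → Prop := fun p => (p : ℤ) ∣ D ∧ ¬ Odd (padicValInt p D)
  let ax : ℕ → ℤ := fun p => if p = 2 then (if Odd (padicValInt 2 D) then 1 else 3 * d + 8)
    else if p = l0 then x0 else if cuspT p then 3 * d + p else 1
  let ay : ℕ → ℤ := fun p => if p = 2 then (if Odd (padicValInt 2 D) then 0 else c)
    else if p = l0 then y0 else if cuspT p then c else 0
  obtain ⟨x, hx⟩ := exists_crt S hSp 16 ax
  obtain ⟨y, hy⟩ := exists_crt S hSp 16 ay
  have hl02 : l0 ≠ 2 := by rintro rfl; omega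
  have hxy : ∀ l : ℕ, l.Prime → l ∣ M → ¬ ((l : ℤ) ∣ x ∧ (l : ℤ) ∣ y) := by
    rintro l hl hlM ⟨h1, h2'⟩
    have hl' := Nat.prime_iff_prime_int.mp hl
    have hlS := hMp l hl hlM
    have g1 : (l : ℤ) ∣ ax l := by
      have e : ax l = x - (x - ax l) := by ring
      rw [e]; exact dvd_sub h1 ((dvd_pow_self _ (by norm_num)).trans (hx l hlS))
    have g2 : (l : ℤ) ∣ ay l := by
      have e : ay l = y - (y - ay l) := by ring
      rw [e]; exact dvd_sub h2' ((dvd_pow_self _ (by norm_num)).trans (hy l hlS))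
    by_cases e2 : l = 2
    · subst e2
      by_cases ho : Odd (padicValInt 2 D)
      · simp only [ax, ho, if_true] at g1
        exact hl'.not_isUnit (isUnit_of_dvd_one g1)
      · simp only [ay, ho, if_true, if_false] at g2
        exact hc2 (by exact_mod_cast g2)
    · by_cases e3 : l = l0
      · subst e3
        simp only [ay, e2, if_true, if_false] at g2
        exact hy0 g2
      · by_cases e4 : cuspT l
        · simp only [ay, e2, e3, e4, if_true, if_false] at g2
          exact hss l hl e4.1 g2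
        · simp only [ax, e2, e3, e4, if_false] at g1
          exact hl'.not_isUnit (isUnit_of_dvd_one g1)
  obtain ⟨s, hs, hsD⟩ : ∃ s : ℤ, (s = 1 ∨ s = -1) ∧ s * D < 0 := by
    rcases lt_or_gt_of_ne hΔ with h | h
    · exact ⟨1, Or.inl rfl, by linarith⟩
    · exact ⟨-1, Or.inr rfl, by linarith⟩
  have h10 : ∀ l : ℕ, l.Prime → l ≤ 10 → l ∣ M := by
    intro l hl hle
    apply hlM l (hS210 l hl _)
    interval_cases l <;> first | (exfalso; revert hl; decide) | decide
  have h6 : ∀ l : ℕ, l.Prime → (l : ℤ) ∣ 6 * (c ^ 3 - d ^ 2) → l ∣ M := by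
    intro l hl h
    rw [hE] at h
    have hl' := Nat.prime_iff_prime_int.mp hl
    apply hlM
    have e : (6 : ℤ) * (1728 * D) = 2 ^ 7 * 3 ^ 4 * D := by ring
    rw [e] at h
    rcases hl'.dvd_or_dvd h with h | h
    · rcases hl'.dvd_or_dvd h with h | h
      · have h3 := hl'.dvd_of_dvd_pow h
        have h4 : l ∣ 2 := by exact_mod_cast h3
        exact hS210 l hl (h4.trans (by norm_num))
      · have h3 := hl'.dvd_of_dvd_pow h
        have h4 : l ∣ 3 := by exact_mod_cast h3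
        exact hS210 l hl (h4.trans (by norm_num))
    · exact hSD l hl h
  obtain ⟨X, Y, hX, hY, hpos, hgood⟩ := sieve hc0 hM h10 h6 x y hxy s hs
  have hXp : ∀ p ∈ S, (p : ℤ) ^ 16 ∣ X - ax p := by
    intro p hp
    have e : X - ax p = (X - x) + (x - ax p) := by ring
    rw [e]; exact dvd_add ((hMS p hp).trans hX) (hx p hp)
  have hYp : ∀ p ∈ S, (p : ℤ) ^ 16 ∣ Y - ay p := by
    intro p hp
    have e : Y - ay p = (Y - y) + (y - ay p) := by ring
    rw [e]; exact dvd_add ((hMS p hp).trans hY) (hy p hp)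
  have hDF0 : DF c d X Y ≠ 0 := by intro h; rw [h, mul_zero] at hpos; exact lt_irrefl _ hpos
  -- the prime 2
  have hTwo : TwoAt c d D X Y := by
    have g1 := hXp 2 (hS210 2 Nat.prime_two (by norm_num))
    have g2 := hYp 2 (hS210 2 Nat.prime_two (by norm_num))
    push_cast at g1 g2
    by_cases ho : Odd (padicValInt 2 D)
    · simp only [ax, ay, ho, if_true] at g1 g2
      exact two_A hΔ h2 hc2 hd4 ho ((by norm_num : (4 : ℤ) ∣ 2 ^ 16).trans g1)
        ((by norm_num : (4 : ℤ) ∣ 2 ^ 16).trans g2)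
    · simp only [ax, ay, ho, if_true, if_false] at g1 g2
      have h4 : (4 : ℤ) ∣ D := by
        have := even_val_sq Nat.prime_two hΔ (by exact_mod_cast h2) ho
        push_cast at this
        exact (by norm_num : (4 : ℤ) ∣ 2 ^ 2).trans this
      exact two_B hΔ h4 hE hc2 hd4 (Nat.not_odd_iff_even.1 ho) g1 g2
  -- `p | D` implies `p ∤ d`
  have hdp : ∀ p : ℕ, p.Prime → (p : ℤ) ∣ D → ¬ (p : ℤ) ∣ d := by
    intro p hp hpD hpd
    have hp' := Nat.prime_iff_prime_int.mp hp
    apply hss p hp hpD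
    apply hp'.dvd_of_dvd_pow (n := 3)
    have e : c ^ 3 = 1728 * D + d ^ 2 := by linear_combination hE
    rw [e]
    exact dvd_add (Dvd.dvd.mul_left hpD _) (hpd.trans (dvd_pow_self _ (by norm_num)))
  -- odd primes
  have hOdd : ∀ p : ℕ, p.Prime → p ≠ 2 → GoodAt c d D p X Y := by
    intro p hp hp2
    by_cases hpS : p ∈ S
    · have g1 := hXp p hpS
      have g2 := hYp p hpS
      by_cases e3 : p = l0
      · subst e3
        simp only [ax, ay, hp2, if_true, if_false] at g1 g2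
        apply good_simple hp hΔ hE hl06
        intro h
        apply hl0s
        have h3 := DF_congr (c := c) (d := d) ((pow_dvd_pow _ (by norm_num)).trans g1)
          ((pow_dvd_pow (p : ℤ) (by norm_num : 2 ≤ 16)).trans g2)
        have e : DF c d x0 y0 = DF c d X Y - (DF c d X Y - DF c d x0 y0) := by ring
        rw [e]; exact dvd_sub h h3
      · by_cases e4 : cuspT p
        · simp only [ax, ay, hp2, e3, e4, if_true, if_false] at g1 g2
          exact good_cusp hp hp2 hΔ hE (even_val_sq hp hΔ e4.1 e4.2)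
            (Nat.not_odd_iff_even.1 e4.2) (hdp p hp e4.1) (hss p hp e4.1)
            ((pow_dvd_pow _ (by norm_num)).trans g1) ((pow_dvd_pow _ (by norm_num)).trans g2)
        · simp only [ax, ay, hp2, e3, e4, if_false] at g1 g2
          apply good_trivial hp hΔ (hss p hp)
          · intro h
            by_contra hne
            exact e4 ⟨h, hne⟩
          · exact (dvd_pow_self _ (by norm_num)).trans g1
          · exact (dvd_pow_self _ (by norm_num)).trans g2
    · have hpM : ¬ p ∣ M := fun h => hpS (hMp p hp h)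
      exact good_simple hp hΔ hE (fun h => hpM (h6 p hp h)) (hgood p hp hpM)
  -- divisibility by 3
  have hThreeD : (3 : ℤ) ∣ D * DF c d X Y ^ 3 → (3 : ℤ) ∣ D := by
    intro h
    by_contra h3D
    have h3S := hS210 3 Nat.prime_three (by norm_num)
    have g1 := hXp 3 h3S
    have g2 := hYp 3 h3S
    have e3 : (3 : ℕ) ≠ l0 := by
      rintro h
      apply hl06
      rw [← h]; push_cast
      exact Dvd.dvd.mul_right (by norm_num) _
    have e4 : ¬ cuspT 3 := fun h => h3D (by exact_mod_cast h.1)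
    simp only [ax, ay, e3, e4, if_false, (by norm_num : (3 : ℕ) ≠ 2)] at g1 g2
    push_cast at g1 g2
    have k := DF_congr (c := c) (d := d) g1 g2
    rw [DF_one] at k
    have k' : (3 : ℤ) ∣ DF c d X Y - 1 := (by norm_num : (3 : ℤ) ∣ 43046721).trans k
    rcases Int.prime_three.dvd_or_dvd h with h | h
    · exact h3D h
    · have h' := Int.prime_three.dvd_of_dvd_pow h
      omega
  -- the prime 3
  have hThree : ¬ (3 : ℤ) ∣ CF4 c d X Y ∨ (27 : ℤ) ∣ CF6 c d X Y := by
    by_cases h3D : (3 : ℤ) ∣ D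
    · left
      have := (hOdd 3 Nat.prime_three (by norm_num) (by
        push_cast; exact Dvd.dvd.mul_right h3D _)).1
      exact_mod_cast this
    · have h3S := hS210 3 Nat.prime_three (by norm_num)
      have g1 := hXp 3 h3S
      have g2 := hYp 3 h3S
      have e3 : (3 : ℕ) ≠ l0 := by
        rintro h
        apply hl06
        rw [← h]; push_cast
        exact Dvd.dvd.mul_right (by norm_num) _
      have e4 : ¬ cuspT 3 := fun h => h3D (by exact_mod_cast h.1)
      simp only [ax, ay, e3, e4, if_false, (by norm_num : (3 : ℕ) ≠ 2)] at g1 g2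
      push_cast at g1 g2
      have k4 := CF4_congr (c := c) (d := d) g1 g2
      have k6 := CF6_congr (c := c) (d := d) g1 g2
      rw [CF4_one] at k4
      rw [CF6_one] at k6
      have k4' : (3 : ℤ) ∣ CF4 c d X Y - c := (by norm_num : (3 : ℤ) ∣ 43046721).trans k4
      have k6' : (27 : ℤ) ∣ CF6 c d X Y - d := (by norm_num : (27 : ℤ) ∣ 43046721).trans k6
      by_cases h3c : (3 : ℤ) ∣ c
      · right
        have e : CF6 c d X Y = (CF6 c d X Y - d) + d := by ring
        rw [e]; exact dvd_add k6' (hc6 h3c)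
      · left
        intro h
        apply h3c
        have e : c = CF4 c d X Y - (CF4 c d X Y - c) := by ring
        rw [e]; exact dvd_sub h k4'
  obtain ⟨u, c', d', D', hu, e4, e6, eD, hc', hd', hD', hoD'⟩ := hTwo
  have hu0 : u ≠ 0 := by rcases hu with rfl | rfl <;> norm_num
  have hrel : c' ^ 3 - d' ^ 2 = 1728 * D' := by
    have h := CF_rel c d X Y
    rw [hE, e4, e6] at h
    have : u ^ 12 * (c' ^ 3 - d' ^ 2) = u ^ 12 * (1728 * D') := by
      linear_combination h + 1728 * eD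
    exact mul_left_cancel₀ (pow_ne_zero _ hu0) this
  have hupos : 0 < u ^ 12 := by positivity
  have hun : ∀ p : ℕ, p.Prime → p ≠ 2 → ¬ (p : ℤ) ∣ u := by
    intro p hp hp2 h
    have hp' := Nat.prime_iff_prime_int.mp hp
    rcases hu with rfl | rfl
    · exact hp'.not_isUnit (isUnit_of_dvd_one h)
    · have h3 : (p : ℤ) ∣ 2 := hp'.dvd_of_dvd_pow (n := 2) (h.trans (by norm_num))
      have h4 : p ∣ 2 := by exact_mod_cast h3
      exact hp2 ((Nat.prime_dvd_prime_iff_eq hp Nat.prime_two).1 h4)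
  have h3' : ¬ (3 : ℤ) ∣ c' ∨ (27 : ℤ) ∣ d' := by
    rcases hThree with h | h
    · left
      intro h'
      apply h
      rw [e4]; exact Dvd.dvd.mul_left h' _
    · right
      rw [e6] at h
      have hcop : IsCoprime (27 : ℤ) (u ^ 6) := by
        have h1 : IsCoprime (3 : ℤ) u := by
          rw [Prime.coprime_iff_not_dvd Int.prime_three]
          exact_mod_cast hun 3 Nat.prime_three (by norm_num)
        have h2 : IsCoprime ((3 : ℤ) ^ 3) (u ^ 6) := h1.pow
        norm_num at h2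
        exact h2
      exact hcop.dvd_of_dvd_mul_left h
  obtain ⟨W', hW4, hW6, hWD⟩ := exists_model hrel hc' hd' hD' h3'
  have hDneg : D' < 0 := by
    have h1 : D * DF c d X Y < 0 := by
      have h3 : (s * D) * (s * DF c d X Y) < 0 := mul_neg_of_neg_of_pos hsD hpos
      have e : (s * D) * (s * DF c d X Y) = D * DF c d X Y := by
        rcases hs with rfl | rfl <;> ring
      rwa [e] at h3
    have h3 : D * DF c d X Y ^ 3 < 0 := by
      have e : D * DF c d X Y ^ 3 = (D * DF c d X Y) * DF c d X Y ^ 2 := by ring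
      rw [e]; exact mul_neg_of_neg_of_pos h1 (by positivity)
    rw [eD] at h3
    by_contra hle
    push Not at hle
    have := mul_nonneg hupos.le hle
    linarith
  have hD'0 : D' ≠ 0 := hDneg.ne
  have hoddp : ∀ p : ℕ, p.Prime → p ≠ 2 → (p : ℤ) ∣ D' →
      ¬ (p : ℤ) ∣ c' ∧ Odd (padicValInt p D') := by
    intro p hp hp2 h
    have := Fact.mk hp
    have hp' := Nat.prime_iff_prime_int.mp hp
    have h1 : (p : ℤ) ∣ D * DF c d X Y := by
      have h3 : (p : ℤ) ∣ D * DF c d X Y ^ 3 := by rw [eD]; exact Dvd.dvd.mul_left h _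
      rcases hp'.dvd_or_dvd h3 with h | h
      · exact Dvd.dvd.mul_right h _
      · exact Dvd.dvd.mul_left (hp'.dvd_of_dvd_pow h) _
    obtain ⟨g1, g2⟩ := hOdd p hp hp2 h1
    refine ⟨fun h' => g1 (by rw [e4]; exact Dvd.dvd.mul_left h' _), ?_⟩
    have v1 : padicValInt p (u ^ 12 * D') = padicValInt p D' := by
      rw [padicValInt.mul (pow_ne_zero _ hu0) hD'0, val_zero (fun h =>
        hun p hp hp2 (hp'.dvd_of_dvd_pow h)), zero_add]
    have v2 : padicValInt p (D * DF c d X Y ^ 3) =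
        padicValInt p (D * DF c d X Y) + 2 * padicValInt p (DF c d X Y) := by
      have e : D * DF c d X Y ^ 3 = (D * DF c d X Y) * (DF c d X Y * DF c d X Y) := by ring
      rw [e, padicValInt.mul (mul_ne_zero hΔ hDF0) (mul_ne_zero hDF0 hDF0),
        padicValInt.mul hDF0 hDF0]
      ring
    rw [← v1, ← eD, v2]
    exact g2.add_even (even_two_mul _)
  refine ⟨W', X, Y, u, hu, by rw [hW4]; exact e4, by rw [hW6]; exact e6, hDF0,
    by rw [hWD]; exact hDneg, ?_, by rw [hWD]; exact hD', ?_, ⟨l0, hl0, hl04, ?_⟩, ?_⟩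
  · intro p hp hpD
    rw [hWD] at hpD
    rw [hW4]
    by_cases hp2 : p = 2
    · subst hp2; exact_mod_cast hc'
    · exact (hoddp p hp hp2 hpD).1
  · intro p hp hpD
    rw [hWD] at hpD ⊢
    by_cases hp2 : p = 2
    · subst hp2; exact hoD'
    · exact (hoddp p hp hp2 hpD).2
  · rw [hWD]
    have g1 := hXp l0 hSl0
    have g2 := hYp l0 hSl0
    simp only [ax, ay, hl02, if_true, if_false] at g1 g2
    have h3 := DF_congr (c := c) (d := d) ((dvd_pow_self (l0 : ℤ) (by norm_num)).trans g1)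
      ((dvd_pow_self (l0 : ℤ) (by norm_num)).trans g2)
    have h4 : (l0 : ℤ) ∣ DF c d X Y := by
      have e : DF c d X Y = (DF c d X Y - DF c d x0 y0) + DF c d x0 y0 := by ring
      rw [e]; exact dvd_add h3 hl0d
    have h5 : (l0 : ℤ) ∣ u ^ 12 * D' := by
      rw [← eD]; exact Dvd.dvd.mul_left (h4.trans (dvd_pow_self _ (by norm_num))) _
    rcases hl0'.dvd_or_dvd h5 with h | h
    · exact absurd (hl0'.dvd_of_dvd_pow h) (hun l0 hl0 hl02)
    · exact h
  · intro h
    rw [hWD] at h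
    apply hThreeD
    rw [eD]
    exact Dvd.dvd.mul_left h _

end Fermat.Agent.H07.Sel
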