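import Mathlib
import Fermat.Prelude.Def_FLTPrelim_ModularRep
import Fermat.Agent.H07.SelCore
import Fermat.Agent.H24.Hesse2
import Fermat.Agent.S51

/-!
# Program Z, package Z1 : the selection theorem
-/

set_option autoImplicit false

namespace Fermat.Agent.H07.Sel

/-- **Theorem Z0 (selection)**, with control of the reduction at `3`. -/
theorem selection' (W : WeierstrassCurve ℤ) (hΔ : W.Δ ≠ 0) (hW : W.IsSemistableModel)
    (h2 : (2 : ℤ) ∣ W.Δ) :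
    ∃ W' : WeierstrassCurve ℤ, W'.Δ < 0 ∧ W'.IsSemistableModel ∧ (2 : ℤ) ∣ W'.Δ ∧
      (∀ ℓ : ℕ, ℓ.Prime → (ℓ : ℤ) ∣ W'.Δ → Odd (padicValInt ℓ W'.Δ)) ∧
      (∃ ℓ : ℕ, ℓ.Prime ∧ ℓ % 4 = 3 ∧ (ℓ : ℤ) ∣ W'.Δ) ∧
      ((3 : ℤ) ∣ W'.Δ → (3 : ℤ) ∣ W.Δ) ∧
      ∀ ℓ : ℕ, ℓ.Prime → W.IsGoodPrimeFor ℓ → W'.IsGoodPrimeFor ℓ → ℓ ≠ 3 →
        (3 : ℤ) ∣ (W'.apOfModel ℓ - W.apOfModel ℓ) := by
  obtain ⟨W', X, Y, u, hu, e4, e6, hDF, h1, h3, h4, h5, h6, h7⟩ := selection_core W hΔ hW h2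
  refine ⟨W', h1, h3, h4, h5, h6, h7, ?_⟩
  intro ℓ hℓ hg hg' hℓ3
  have hℓ2 : ℓ ≠ 2 := by
    rintro rfl
    exact hg (by exact_mod_cast h2)
  refine Fermat.Agent.H24.hesse_congr W W' X Y u ?_ ?_ ?_ ℓ hℓ hℓ2 hℓ3 hg hg'
  · rintro ⟨rfl, rfl⟩
    exact hDF (by unfold DF; ring)
  · rw [mul_comm, ← e4]; rfl
  · rw [mul_comm, ← e6]; rfl

/-- **Theorem Z0 (selection).** -/
theorem selection (W : WeierstrassCurve ℤ) (hΔ : W.Δ ≠ 0) (hW : W.IsSemistableModel)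
    (h2 : (2 : ℤ) ∣ W.Δ) :
    ∃ W' : WeierstrassCurve ℤ, W'.Δ < 0 ∧ W'.IsSemistableModel ∧ (2 : ℤ) ∣ W'.Δ ∧
      (∀ ℓ : ℕ, ℓ.Prime → (ℓ : ℤ) ∣ W'.Δ → Odd (padicValInt ℓ W'.Δ)) ∧
      (∃ ℓ : ℕ, ℓ.Prime ∧ ℓ % 4 = 3 ∧ (ℓ : ℤ) ∣ W'.Δ) ∧
      ∀ ℓ : ℕ, ℓ.Prime → W.IsGoodPrimeFor ℓ → W'.IsGoodPrimeFor ℓ → ℓ ≠ 3 →
        (3 : ℤ) ∣ (W'.apOfModel ℓ - W.apOfModel ℓ) := by
  obtain ⟨W', h1, h3, h4, h5, h6, -, h7⟩ := selection' W hΔ hW h2
  exact ⟨W', h1, h3, h4, h5, h6, h7⟩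

/-- The curves of `selection` have no rational 2-torsion. -/
theorem no_root (W : WeierstrassCurve ℤ) (hneg : W.Δ < 0) (hW : W.IsSemistableModel)
    (h2 : (2 : ℤ) ∣ W.Δ) (hodd : ∀ ℓ : ℕ, ℓ.Prime → (ℓ : ℤ) ∣ W.Δ → Odd (padicValInt ℓ W.Δ))
    (q : ℚ) : 4 * q ^ 3 + W.b₂ * q ^ 2 + 2 * W.b₄ * q + W.b₆ ≠ 0 := by
  intro h
  have hX : (4 * q) ^ 3 + W.b₂ * (4 * q) ^ 2 + 8 * W.b₄ * (4 * q) + 16 * W.b₆ = 0 := by
    linear_combination 16 * h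
  have hint : IsIntegral ℤ (4 * q) := by
    open Polynomial in
    refine ⟨X ^ 3 + C (W.b₂) * X ^ 2 + C (8 * W.b₄) * X + C (16 * W.b₆), ?_, ?_⟩
    · monicity!
    · simp only [Polynomial.eval₂_add, Polynomial.eval₂_mul, Polynomial.eval₂_pow,
        Polynomial.eval₂_X, Polynomial.eval₂_C]
      simp only [eq_intCast]
      push_cast
      linear_combination hX
  obtain ⟨n, hn⟩ := IsIntegrallyClosed.isIntegral_iff.mp hint
  have hn' : (n : ℚ) = 4 * q := by simpa using hn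
  rw [← hn'] at hX
  have hZ : n ^ 3 + W.b₂ * n ^ 2 + 8 * W.b₄ * n + 16 * W.b₆ = 0 := by exact_mod_cast hX
  refine no_two_torsion W.c_relation.symm hneg hW h2 hodd (3 * n + W.b₂) (3 * n ^ 2 + 2 * W.b₂ * n + 8 * W.b₄)
    (c := W.c₄) ?_ ?_
  · simp only [WeierstrassCurve.c₄]; ring
  · have hrel := W.c_relation
    have h1 : (27 : ℤ) * (2 ^ 8 * W.Δ) = 27 * ((3 * n ^ 2 + 2 * W.b₂ * n + 8 * W.b₄) ^ 2 *
        ((3 * n + W.b₂) ^ 2 - 4 * (3 * n ^ 2 + 2 * W.b₂ * n + 8 * W.b₄))) := by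
      have e1 : (27 : ℤ) * (2 ^ 8 * W.Δ) = 4 * W.c₄ ^ 3 - (2 * W.c₆) ^ 2 := by
        linear_combination 4 * hrel
      have e2 : 2 * W.c₆ = -2 * W.b₂ ^ 3 + 72 * W.b₂ * W.b₄ +
          27 * (n ^ 3 + W.b₂ * n ^ 2 + 8 * W.b₄ * n) := by
        simp only [WeierstrassCurve.c₆]
        linear_combination (-27) * hZ
      rw [e1, e2]
      simp only [WeierstrassCurve.c₄]
      ring
    exact mul_left_cancel₀ (by norm_num) h1

section irr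

open WeierstrassCurve WeierstrassCurve.Affine WeierstrassCurve.Affine.Point Fermat.Agent.H51
  Polynomial

variable {E : WeierstrassCurve.Affine ℚ}

local notation "Kbar" => AlgebraicClosure ℚ

lemma two_reducible (hΔ : (E⁄Kbar).Δ ≠ 0)
    (h : ¬ GaloisRepIsIrreducible (K := Kbar) ℚ E 2) :
    ∃ x : ℚ, psi2Sq (E⁄Kbar) (algebraMap ℚ Kbar x) = 0 := by
  have hfact : Fact (Nat.Prime 2) := ⟨by norm_num⟩
  have hdeg : (poly2 (E⁄Kbar)).natDegree = 3 := by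
    unfold poly2
    compute_degree!
  have hne : poly2 (E⁄Kbar) ≠ 0 := by
    intro h; rw [h] at hdeg; simp at hdeg
  obtain ⟨hfin, hcard⟩ := card_torsion_le (V := E⁄Kbar) (n := 2) hne (fun P hP h => by
    rw [eval_poly2]; exact (two_smul_eq_zero_iff hP).1 h)
  rw [hdeg] at hcard
  have hnt : Nontrivial (Submodule.torsionBy ℤ (E⁄Kbar).Point (2 : ℕ)) := by
    have hd : (poly2 (E⁄Kbar)).degree ≠ 0 := by
      rw [degree_eq_natDegree hne, hdeg]; norm_num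
    obtain ⟨x, hx⟩ := IsAlgClosed.exists_root _ hd
    obtain ⟨P, hP, hPx⟩ := exists_point hΔ x
    have hP2 : (2 : ℕ) • P = 0 := by
      rw [two_smul_eq_zero_iff hP, hPx, ← eval_poly2]; exact hx
    refine ⟨⟨P, ?_⟩, 0, fun h => hP (congrArg Subtype.val h)⟩
    rw [Submodule.mem_torsionBy_iff]
    exact_mod_cast hP2
  unfold GaloisRepIsIrreducible at h
  push Not at h
  obtain ⟨N, hN, hbot, htop⟩ := h hnt
  obtain ⟨v, hv, hv0, hall⟩ := line_of_card (p := 2) hfin (by omega) N hbot htop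
  have hv0' : (v : (E⁄Kbar).Point) ≠ 0 := fun h => hv0 (Subtype.ext h)
  have hv2 : (2 : ℕ) • (v : (E⁄Kbar).Point) = 0 := by
    have := v.2
    rw [Submodule.mem_torsionBy_iff] at this
    exact_mod_cast this
  have hfix : ∀ σ : Kbar ≃ₐ[ℚ] Kbar, σ (xc (v : (E⁄Kbar).Point)) = xc (v : (E⁄Kbar).Point) := by
    intro σ
    obtain ⟨c, hc⟩ := hall (σ • v) (hN σ v hv)
    have hc' : σ • (v : (E⁄Kbar).Point) = ((c • v : Submodule.torsionBy ℤ (E⁄Kbar).Point (2 : ℕ)) : (E⁄Kbar).Point) :=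
      congrArg Subtype.val hc
    have hcn : ((c • v : Submodule.torsionBy ℤ (E⁄Kbar).Point (2 : ℕ)) : (E⁄Kbar).Point) =
        c.val • (v : (E⁄Kbar).Point) := by
      have : c • v = c.val • v := by
        conv_lhs => rw [← ZMod.natCast_zmod_val c]
        exact Nat.cast_smul_eq_nsmul _ _ _
      rw [this]; rfl
    rw [hcn] at hc'
    have hne : σ • (v : (E⁄Kbar).Point) ≠ 0 := by
      intro h
      apply hv0'
      have := congrArg (fun P => σ⁻¹ • P) h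
      simpa using this
    rw [← Fermat.Agent.S51.xc_galois, hc']
    have hlt := ZMod.val_lt c
    generalize c.val = m at hlt hc'
    interval_cases m
    · rw [zero_nsmul] at hc'; exact absurd hc' hne
    · rw [one_nsmul]
  obtain ⟨q, hq⟩ := rational_of_fixed hfix
  refine ⟨q, ?_⟩
  rw [hq]
  exact (two_smul_eq_zero_iff hv0').1 hv2

/-- `E[2]` is irreducible for the curves of `selection`. -/
theorem modTwo_irreducible (W : WeierstrassCurve ℤ) (hneg : W.Δ < 0) (hW : W.IsSemistableModel)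
    (h2 : (2 : ℤ) ∣ W.Δ) (hodd : ∀ ℓ : ℕ, ℓ.Prime → (ℓ : ℤ) ∣ W.Δ → Odd (padicValInt ℓ W.Δ)) :
    W.ModRepIsIrreducible 2 := by
  by_contra h3
  have hΔQ : (W.map (Int.castRingHom ℚ)).Δ ≠ 0 := by
    rw [WeierstrassCurve.map_Δ]
    simpa using hneg.ne
  have hΔK : ((W.map (Int.castRingHom ℚ))⁄(AlgebraicClosure ℚ)).Δ ≠ 0 := by
    have : ((W.map (Int.castRingHom ℚ))⁄(AlgebraicClosure ℚ)).Δ =
        algebraMap ℚ (AlgebraicClosure ℚ) (W.map (Int.castRingHom ℚ)).Δ :=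
      WeierstrassCurve.map_Δ ..
    rw [this]
    simpa using hΔQ
  obtain ⟨x, hx⟩ := two_reducible hΔK h3
  have hx' : psi2Sq (W.map (Int.castRingHom ℚ)) x = 0 := by
    apply (algebraMap ℚ (AlgebraicClosure ℚ)).injective
    rw [_root_.map_zero, ← hx]
    unfold psi2Sq
    have hb2 : ((W.map (Int.castRingHom ℚ))⁄(AlgebraicClosure ℚ)).b₂ =
      algebraMap ℚ (AlgebraicClosure ℚ) (W.map (Int.castRingHom ℚ)).b₂ := WeierstrassCurve.map_b₂ ..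
    have hb4 : ((W.map (Int.castRingHom ℚ))⁄(AlgebraicClosure ℚ)).b₄ =
      algebraMap ℚ (AlgebraicClosure ℚ) (W.map (Int.castRingHom ℚ)).b₄ := WeierstrassCurve.map_b₄ ..
    have hb6 : ((W.map (Int.castRingHom ℚ))⁄(AlgebraicClosure ℚ)).b₆ =
      algebraMap ℚ (AlgebraicClosure ℚ) (W.map (Int.castRingHom ℚ)).b₆ := WeierstrassCurve.map_b₆ ..
    rw [hb2, hb4, hb6]
    simp only [map_add, map_mul, map_pow, map_ofNat]
  unfold psi2Sq at hx'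
  rw [WeierstrassCurve.map_b₂, WeierstrassCurve.map_b₄, WeierstrassCurve.map_b₆] at hx'
  simp only [eq_intCast] at hx'
  exact no_root W hneg hW h2 hodd x hx'

end irr

end Fermat.Agent.H07.Sel
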