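import Fermat.Agent.S51

set_option autoImplicit false
open WeierstrassCurve WeierstrassCurve.Affine WeierstrassCurve.Affine.Point

namespace Fermat.Agent.H07

open Fermat.Agent.H51 Polynomial

/-- A rational root of `X⁴ - 6aX² - 8bX - 3a²` with `a, b ∈ ℤ` is an integer. -/
lemma integer_of_quartic {a b : ℤ} {q : ℚ}
    (h : q ^ 4 - 6 * a * q ^ 2 - 8 * b * q - 3 * a ^ 2 = 0) : ∃ n : ℤ, (n : ℚ) = q := by
  have hint : IsIntegral ℤ q := by
    refine ⟨X ^ 4 - C (6 * a) * X ^ 2 - C (8 * b) * X - C (3 * a ^ 2), ?_, ?_⟩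
    · monicity!
    · simp only [eval₂_sub, eval₂_mul, eval₂_pow, eval₂_X, eval₂_C]
      simp only [eq_intCast]
      push_cast
      linear_combination h
  obtain ⟨n, hn⟩ := IsIntegrallyClosed.isIntegral_iff.mp hint
  exact ⟨n, by simpa using hn⟩

/-- Mod-3 irreducibility criterion: if `X⁴ - 6c₄X² - 8c₆X - 3c₄²` has no integer root then the
mod-3 representation of `W` is irreducible. -/
theorem modThree_irreducible (W : WeierstrassCurve ℤ) (hΔ : W.Δ ≠ 0)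
    (h : ∀ X : ℤ, X ^ 4 - 6 * W.c₄ * X ^ 2 - 8 * W.c₆ * X - 3 * W.c₄ ^ 2 ≠ 0) :
    W.ModRepIsIrreducible 3 := by
  by_contra h3
  have hΔQ : (W.map (Int.castRingHom ℚ)).Δ ≠ 0 := by
    rw [WeierstrassCurve.map_Δ]
    simpa using hΔ
  have hΔK : ((W.map (Int.castRingHom ℚ))⁄(AlgebraicClosure ℚ)).Δ ≠ 0 := by
    have : ((W.map (Int.castRingHom ℚ))⁄(AlgebraicClosure ℚ)).Δ =
        algebraMap ℚ (AlgebraicClosure ℚ) (W.map (Int.castRingHom ℚ)).Δ :=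
      WeierstrassCurve.map_Δ ..
    rw [this]
    simpa using hΔQ
  obtain ⟨x, hx⟩ := Fermat.Agent.S51.three_reducible hΔK h3
  have hx' : psi3 (W.map (Int.castRingHom ℚ)) x = 0 := by
    apply (algebraMap ℚ (AlgebraicClosure ℚ)).injective
    rw [_root_.map_zero, ← hx]
    unfold psi3
    have hb2 : ((W.map (Int.castRingHom ℚ))⁄(AlgebraicClosure ℚ)).b₂ =
      algebraMap ℚ (AlgebraicClosure ℚ) (W.map (Int.castRingHom ℚ)).b₂ := WeierstrassCurve.map_b₂ ..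
    have hb4 : ((W.map (Int.castRingHom ℚ))⁄(AlgebraicClosure ℚ)).b₄ =
      algebraMap ℚ (AlgebraicClosure ℚ) (W.map (Int.castRingHom ℚ)).b₄ := WeierstrassCurve.map_b₄ ..
    have hb6 : ((W.map (Int.castRingHom ℚ))⁄(AlgebraicClosure ℚ)).b₆ =
      algebraMap ℚ (AlgebraicClosure ℚ) (W.map (Int.castRingHom ℚ)).b₆ := WeierstrassCurve.map_b₆ ..
    have hb8 : ((W.map (Int.castRingHom ℚ))⁄(AlgebraicClosure ℚ)).b₈ =
      algebraMap ℚ (AlgebraicClosure ℚ) (W.map (Int.castRingHom ℚ)).b₈ := WeierstrassCurve.map_b₈ ..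
    rw [hb2, hb4, hb6, hb8]
    simp only [map_add, map_mul, map_pow, map_ofNat]
  unfold psi3 at hx'
  rw [WeierstrassCurve.map_b₂, WeierstrassCurve.map_b₄, WeierstrassCurve.map_b₆,
    WeierstrassCurve.map_b₈] at hx'
  simp only [eq_intCast] at hx'
  have hc4 : (W.c₄ : ℚ) = (W.b₂ : ℚ) ^ 2 - 24 * W.b₄ := by
    rw [WeierstrassCurve.c₄]; push_cast; ring
  have hc6 : (W.c₆ : ℚ) = -(W.b₂ : ℚ) ^ 3 + 36 * W.b₂ * W.b₄ - 216 * W.b₆ := by
    rw [WeierstrassCurve.c₆]; push_cast; ring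
  have hrel : 4 * (W.b₈ : ℚ) = W.b₂ * W.b₆ - W.b₄ ^ 2 := by
    exact_mod_cast congrArg (Int.cast : ℤ → ℚ) W.b_relation
  have key : (12 * x + W.b₂) ^ 4 - 6 * (W.c₄ : ℚ) * (12 * x + W.b₂) ^ 2
      - 8 * (W.c₆ : ℚ) * (12 * x + W.b₂) - 3 * (W.c₄ : ℚ) ^ 2 = 0 := by
    rw [hc4, hc6]
    linear_combination 6912 * hx' - 1728 * hrel
  obtain ⟨n, hn⟩ := integer_of_quartic key
  rw [← hn] at key
  exact h n (by exact_mod_cast key)

end Fermat.Agent.H07
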