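import Mathlib

set_option autoImplicit false

/-!
# Growth of spaces of functions with bounded poles (S26, block M2)
-/

universe u

namespace Fermat.Agent.H07.Growth

open Polynomial

section valuations

variable {R F : Type*} [CommRing R] [Field F] [Algebra R F]

lemma mem_of_isIntegral {x : F} (hx : IsIntegral R x) (V : ValuationSubring F)
    (hV : ∀ r : R, algebraMap R F r ∈ V) : x ∈ V := by
  let φ : R →+* V := (algebraMap R F).codRestrict V hV
  obtain ⟨p, hp, hpx⟩ := hx
  have h1 : IsIntegral V x := by
    refine ⟨p.map φ, hp.map φ, ?_⟩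
    rw [eval₂_map]
    exact hpx
  obtain ⟨y, hy⟩ := IsIntegrallyClosed.isIntegral_iff.mp h1
  rw [← hy]
  exact y.2

/-- integrality via valuation rings -/
lemma isIntegral_of_forall {x : F}
    (h : ∀ V : ValuationSubring F, (∀ r : R, algebraMap R F r ∈ V) → x ∈ V) : IsIntegral R x := by
  have h1 : x ∈ (integralClosure (Subring.closure (Set.range (algebraMap R F))) F).toSubring := by
    rw [← iInf_valuationSubring_superset]
    rw [Subring.mem_iInf]
    rintro ⟨V, hV⟩
    exact h V fun r => hV ⟨r, rfl⟩
  have h2 : IsIntegral (Subring.closure (Set.range (algebraMap R F))) x := h1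
  have h3 : Subring.closure (Set.range (algebraMap R F)) = (algebraMap R F).range := by
    rw [← RingHom.coe_range, Subring.closure_eq]
  rw [h3] at h2
  obtain ⟨p, hp, hpx⟩ := h2
  have hsurj : Function.Surjective (algebraMap R F).rangeRestrict :=
    (algebraMap R F).rangeRestrict_surjective
  have hl : p ∈ Polynomial.lifts (algebraMap R F).rangeRestrict := by
    rw [Polynomial.mem_lifts]
    exact Polynomial.map_surjective _ hsurj p
  obtain ⟨q, hq, -, hqm⟩ := Polynomial.lifts_and_natDegree_eq_and_monic hl hp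
  refine ⟨q, hqm, ?_⟩
  rw [← hq, eval₂_map] at hpx
  exact hpx

end valuations

section core

variable {K A k F : Type*} [Field K] [CommRing A] [IsDomain A] [IsIntegrallyClosed A] [Field k]
  [Field F] [Algebra K A] [Algebra A k] [IsFractionRing A k] [Algebra K k] [IsScalarTower K A k]
  [Algebra k F] [Algebra A F] [IsScalarTower A k F] [Algebra K F] [IsScalarTower K k F]
  [IsScalarTower K A F] [FiniteDimensional k F]
  {Γ : Type*} [LinearOrderedCommGroupWithZero Γ] (v : Valuation k Γ)

/-- integrality at infinity after scaling -/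
lemma exists_scale {s : k} (hs : 1 ≤ v s) (hs' : ∀ x : k, ∃ a : ℕ, v x ≤ v s ^ a) (w : F) :
    ∃ a : ℕ, ∀ b ≥ a, ∀ V : ValuationSubring F, (∀ x : k, v x ≤ 1 → algebraMap k F x ∈ V) →
      w * algebraMap k F ((s ^ b)⁻¹) ∈ V := by
  have hs0 : v s ≠ 0 := (zero_lt_one.trans_le hs).ne'
  have hs0' : s ≠ 0 := by rintro rfl; simp at hs0
  let p := minpoly k w
  have hpm : p.Monic := minpoly.monic (Algebra.IsIntegral.isIntegral w)
  choose a ha using hs'
  obtain ⟨M, hM⟩ : ∃ M : ℕ, ∀ i ∈ Finset.range p.natDegree, a (p.coeff i) ≤ M :=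
    ⟨(Finset.range p.natDegree).sup fun i => a (p.coeff i), fun i hi =>
      Finset.le_sup (f := fun i => a (p.coeff i)) hi⟩
  refine ⟨M, fun b hb V hV => ?_⟩
  let O := v.valuationSubring
  let _ : Algebra O F := ((algebraMap k F).comp O.subtype).toAlgebra
  -- the scaled polynomial
  set c := (s ^ b)⁻¹ with hc
  let q := p.scaleRoots c
  have hq : ∀ i, q.coeff i ∈ O := by
    intro i
    rw [Valuation.mem_valuationSubring_iff, coeff_scaleRoots]
    rcases lt_trichotomy i p.natDegree with h | h | h
    · rw [map_mul, map_pow, hc, map_inv₀, map_pow, inv_pow, ← pow_mul]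
      have h1 : v (p.coeff i) ≤ v s ^ (b * (p.natDegree - i)) := by
        refine (ha _).trans (pow_le_pow_right₀ hs ?_)
        calc a (p.coeff i) ≤ M := hM i (Finset.mem_range.mpr h)
          _ ≤ b := hb
          _ = b * 1 := (mul_one b).symm
          _ ≤ b * (p.natDegree - i) := Nat.mul_le_mul_left b (by omega)
      calc v (p.coeff i) * (v s ^ (b * (p.natDegree - i)))⁻¹
          ≤ v s ^ (b * (p.natDegree - i)) * (v s ^ (b * (p.natDegree - i)))⁻¹ :=
            mul_le_mul_left h1 _
        _ = 1 := mul_inv_cancel₀ (pow_ne_zero _ hs0)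
    · rw [h, hpm.coeff_natDegree, Nat.sub_self, pow_zero, mul_one, map_one]
    · rw [coeff_eq_zero_of_natDegree_lt h, zero_mul, map_zero]
      exact zero_le_one
  have hqm : q.Monic := (monic_scaleRoots_iff c).mpr hpm
  let q' : O[X] := q.toSubring O.toSubring (by
    intro x hx
    obtain ⟨i, -, rfl⟩ := mem_coeffs_iff.mp hx
    exact hq i)
  have hq'm : q'.Monic := (monic_toSubring _ _ _).mpr hqm
  have hint : IsIntegral O (algebraMap k F c * w) := by
    refine ⟨q', hq'm, ?_⟩
    have h1 : eval₂ (algebraMap O F) (algebraMap k F c * w) q' =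
        aeval (algebraMap k F c * w) (q'.map O.subtype) := by
      rw [aeval_def, eval₂_map]; rfl
    rw [h1]
    have h2 : q'.map O.subtype = q := by
      ext i
      rw [coeff_map]
      exact coeff_toSubring _ _ _
    rw [h2]
    have h3 : aeval w p = 0 := minpoly.aeval k w
    exact scaleRoots_aeval_eq_zero h3
  have := mem_of_isIntegral hint V (fun r => hV _ r.2)
  rw [mul_comm] at this
  exact this

theorem core [Algebra.IsSeparable k F] {s : k} (hs : 1 ≤ v s)
    (hs' : ∀ x : k, ∃ a : ℕ, v x ≤ v s ^ a)
    (hvK : ∀ c : K, v (algebraMap K k c) ≤ 1) (D : ℕ → Submodule K A) (g : ℕ)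
    [∀ n, Module.Finite K (D n)] (hD : ∀ n, Module.finrank K (D n) ≤ (n + 1) ^ g)
    (hD' : ∀ (n : ℕ) (a : A), v (algebraMap A k a) ≤ v s ^ n → a ∈ D n) (W : Finset F) :
    ∃ C : ℕ, ∀ m : ℕ, 1 ≤ m → ∀ U : Submodule K F,
      (∀ f ∈ U, ∀ V : ValuationSubring F, (∀ c : K, algebraMap K F c ∈ V) →
        ∃ w ∈ W, w ≠ 0 ∧ f * (w⁻¹) ^ m ∈ V) →
      Module.Finite K U ∧ Module.finrank K U ≤ C * m ^ g := by
  classical
  have hs0 : v s ≠ 0 := (zero_lt_one.trans_le hs).ne'
  have hs0' : s ≠ 0 := by rintro rfl; simp at hs0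
  let b := Module.finBasis k F
  set d := Module.finrank k F with hd
  let S : Finset F := W ∪ Finset.univ.image b
  obtain ⟨Q, hQ0, hQ⟩ : ∃ y ≠ (0 : A), ∀ x ∈ S, IsIntegral A (y • x) := by
    have := IsLocalization.isAlgebraic k (nonZeroDivisors A)
    have := Algebra.IsAlgebraic.trans A k F
    exact Algebra.IsAlgebraic.exists_integral_multiples ..
  -- scaling at infinity
  obtain ⟨a, ha1, ha2⟩ : ∃ a : ℕ, v (algebraMap A k Q) ≤ v s ^ a ∧
      ∀ x ∈ S, ∀ V : ValuationSubring F, (∀ x : k, v x ≤ 1 → algebraMap k F x ∈ V) →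
        x * algebraMap k F ((s ^ a)⁻¹) ∈ V := by
    choose ax hax using fun x : F => exists_scale v hs hs' x
    obtain ⟨a0, ha0⟩ := hs' (algebraMap A k Q)
    refine ⟨max a0 (S.sup ax), ha0.trans (pow_le_pow_right₀ hs (le_max_left _ _)), ?_⟩
    intro x hx V hV
    exact hax x _ ((Finset.le_sup (f := ax) hx).trans (le_max_right _ _)) V hV
  refine ⟨d * (4 * a + 1) ^ g, fun m hm U hU => ?_⟩
  set n := a * (2 * m + 2) with hn
  -- the key estimate
  have hQF : algebraMap A F Q ≠ 0 := by
    rw [IsScalarTower.algebraMap_apply A k F]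
    simpa using hQ0
  have key : ∀ f ∈ U, ∀ j, ∃ t ∈ D n, algebraMap A k t =
      Algebra.trace k F (algebraMap A F Q ^ (m + 1) * f * b j) := by
    intro f hf j
    have hj : b j ∈ S := Finset.mem_union_right _ (Finset.mem_image_of_mem _ (Finset.mem_univ j))
    have hint : IsIntegral A (algebraMap A F Q ^ (m + 1) * f * b j) := by
      apply isIntegral_of_forall
      intro V hV
      have hVK : ∀ c : K, algebraMap K F c ∈ V := by
        intro c
        rw [IsScalarTower.algebraMap_apply K A F]; exact hV _
      obtain ⟨w, hw, hw0, hfw⟩ := hU f hf V hVK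
      have h1 := mem_of_isIntegral (hQ w (Finset.mem_union_left _ hw)) V hV
      have h2 := mem_of_isIntegral (hQ (b j) hj) V hV
      rw [Algebra.smul_def] at h1 h2
      have e : algebraMap A F Q ^ (m + 1) * f * b j =
          (f * (w⁻¹) ^ m) * (algebraMap A F Q * w) ^ m * (algebraMap A F Q * b j) := by
        have : w⁻¹ ^ m * w ^ m = 1 := by rw [← mul_pow, inv_mul_cancel₀ hw0, one_pow]
        linear_combination (-(algebraMap A F Q ^ (m + 1) * f * b j)) * this
      rw [e]
      exact mul_mem (mul_mem hfw (pow_mem h1 m)) h2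
    obtain ⟨t, ht⟩ := IsIntegrallyClosed.isIntegral_iff.mp (Algebra.isIntegral_trace (L := k) hint)
    refine ⟨t, hD' n t ?_, ht⟩
    rw [ht]
    -- bound of the valuation of the trace
    let O := v.valuationSubring
    let _ : Algebra O F := ((algebraMap k F).comp O.subtype).toAlgebra
    have : IsScalarTower O k F := IsScalarTower.of_algebraMap_eq (fun _ => rfl)
    have hint2 : IsIntegral O (algebraMap k F ((s ^ n)⁻¹) *
        (algebraMap A F Q ^ (m + 1) * f * b j)) := by
      apply isIntegral_of_forall
      intro V hV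
      have hVv : ∀ x : k, v x ≤ 1 → algebraMap k F x ∈ V := fun x hx => hV ⟨x, hx⟩
      have hVK : ∀ c : K, algebraMap K F c ∈ V := by
        intro c
        rw [IsScalarTower.algebraMap_apply K k F]; exact hVv _ (hvK c)
      obtain ⟨w, hw, hw0, hfw⟩ := hU f hf V hVK
      have h1 := ha2 w (Finset.mem_union_left _ hw) V hVv
      have h2 := ha2 (b j) hj V hVv
      have h3 : algebraMap k F ((s ^ a)⁻¹) * algebraMap A F Q ∈ V := by
        rw [IsScalarTower.algebraMap_apply A k F, ← map_mul]
        apply hVv
        rw [map_mul, map_inv₀, map_pow]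
        calc (v s ^ a)⁻¹ * v (algebraMap A k Q) ≤ (v s ^ a)⁻¹ * v s ^ a := mul_le_mul_right ha1 _
          _ = 1 := inv_mul_cancel₀ (pow_ne_zero _ hs0)
      have e : algebraMap k F ((s ^ n)⁻¹) * (algebraMap A F Q ^ (m + 1) * f * b j) =
          (f * (w⁻¹) ^ m) * (w * algebraMap k F ((s ^ a)⁻¹)) ^ m *
          (algebraMap k F ((s ^ a)⁻¹) * algebraMap A F Q) ^ (m + 1) *
          (b j * algebraMap k F ((s ^ a)⁻¹)) := by
        have h4 : w⁻¹ ^ m * w ^ m = 1 := by rw [← mul_pow, inv_mul_cancel₀ hw0, one_pow]
        have h5 : algebraMap k F ((s ^ n)⁻¹) = algebraMap k F ((s ^ a)⁻¹) ^ (2 * m + 2) := by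
          rw [hn, pow_mul, ← inv_pow, map_pow]
        rw [h5]
        set z := algebraMap k F ((s ^ a)⁻¹) with hz
        linear_combination (-(z ^ (2 * m + 2) * algebraMap A F Q ^ (m + 1) * f * b j)) * h4
      rw [e]
      exact mul_mem (mul_mem (mul_mem hfw (pow_mem h1 m)) (pow_mem h3 _)) h2
    obtain ⟨y, hy⟩ := IsIntegrallyClosed.isIntegral_iff.mp
      (Algebra.isIntegral_trace (L := k) hint2)
    have h6 : v (Algebra.trace k F (algebraMap k F ((s ^ n)⁻¹) *
        (algebraMap A F Q ^ (m + 1) * f * b j))) ≤ 1 := by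
      rw [← hy]; exact y.2
    rw [← Algebra.smul_def, map_smul, smul_eq_mul, map_mul, map_inv₀, map_pow] at h6
    calc v (Algebra.trace k F (algebraMap A F Q ^ (m + 1) * f * b j))
        = v s ^ n * ((v s ^ n)⁻¹ * v (Algebra.trace k F (algebraMap A F Q ^ (m + 1) * f * b j))) := by
          rw [← mul_assoc, mul_inv_cancel₀ (pow_ne_zero _ hs0), one_mul]
      _ ≤ v s ^ n * 1 := mul_le_mul_right h6 _
      _ = v s ^ n := mul_one _
  -- the linear map
  let φ : A →ₗ[K] k := (IsScalarTower.toAlgHom K A k).toLinearMap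
  have hφ : Function.Injective φ := FaithfulSMul.algebraMap_injective A k
  let T : U →ₗ[K] (Fin d → k) := LinearMap.pi fun j =>
    ((Algebra.trace k F).restrictScalars K).comp
      (((LinearMap.mulLeft K (algebraMap A F Q ^ (m + 1))).comp U.subtype : U →ₗ[K] F) |>
        (LinearMap.mulRight K (b j)).comp)
  have hT : ∀ f j, T f j = Algebra.trace k F (algebraMap A F Q ^ (m + 1) * f * b j) := by
    intro f j; rfl
  let E : Submodule K k := (D n).map φ
  have hE : ∀ f j, T f j ∈ E := by
    intro f j
    obtain ⟨t, ht, hte⟩ := key f f.2 j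
    rw [hT]
    exact ⟨t, ht, hte⟩
  let T' : U →ₗ[K] (Fin d → E) := LinearMap.pi fun j =>
    ((LinearMap.proj j).comp T).codRestrict E (fun f => hE f j)
  have hinj : Function.Injective T' := by
    rw [injective_iff_map_eq_zero]
    intro f hf
    have h1 : ∀ j, Algebra.trace k F (algebraMap A F Q ^ (m + 1) * f * b j) = 0 := by
      intro j
      have := congrFun hf j
      have h2 := congrArg Subtype.val this
      exact h2
    have h2 : algebraMap A F Q ^ (m + 1) * (f : F) = 0 := by
      have hnd := traceForm_nondegenerate k F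
      apply hnd.1
      intro y
      rw [← b.sum_repr y, map_sum]
      apply Finset.sum_eq_zero
      intro j _
      rw [map_smul]
      have : (Algebra.traceForm k F) (algebraMap A F Q ^ (m + 1) * (f : F)) (b j) = 0 := by
        rw [Algebra.traceForm_apply]; exact h1 j
      rw [this, smul_zero]
    have h3 : (f : F) = 0 := (mul_eq_zero.mp h2).resolve_left (pow_ne_zero _ hQF)
    exact Subtype.ext h3
  have : Module.Finite K E := Module.Finite.map (D n) φ
  refine ⟨Module.Finite.of_injective T' hinj, ?_⟩
  have h1 := LinearMap.finrank_le_finrank_of_injective hinj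
  rw [Module.finrank_pi_fintype, Finset.sum_const, Finset.card_univ, Fintype.card_fin,
    smul_eq_mul] at h1
  have h2 : Module.finrank K E ≤ (n + 1) ^ g :=
    (Submodule.finrank_map_le φ (D n)).trans (hD n)
  calc Module.finrank K U ≤ d * Module.finrank K E := h1
    _ ≤ d * (n + 1) ^ g := Nat.mul_le_mul_left d h2
    _ ≤ d * ((4 * a + 1) * m) ^ g := by
        apply Nat.mul_le_mul_left
        apply Nat.pow_le_pow_left
        rw [hn]
        nlinarith
    _ = d * (4 * a + 1) ^ g * m ^ g := by rw [mul_pow, mul_assoc]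

end core

section degree

variable (K σ : Type*) [Field K] [Fintype σ]

open MvPolynomial WithZero

/-- The degree valuation. -/
noncomputable def degVal : Valuation (MvPolynomial σ K) ℤᵐ⁰ where
  toFun p := by
    classical
    exact if p = 0 then 0 else exp (p.totalDegree : ℤ)
  map_zero' := by simp
  map_one' := by simp
  map_mul' p q := by
    classical
    by_cases hp : p = 0
    · simp [hp]
    by_cases hq : q = 0
    · simp [hq]
    rw [if_neg (mul_ne_zero hp hq), if_neg hp, if_neg hq, ← exp_add,
      totalDegree_mul_of_isDomain hp hq]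
    push_cast; rfl
  map_add_le_max' p q := by
    classical
    by_cases hp : p = 0
    · simp [hp]
    by_cases hq : q = 0
    · simp [hq]
    by_cases hpq : p + q = 0
    · rw [if_pos hpq]; exact zero_le
    rw [if_neg hpq, if_neg hp, if_neg hq]
    have h := totalDegree_add p q
    rcases le_max_iff.mp h with h1 | h1
    · apply le_max_of_le_left; rw [exp_le_exp]; exact_mod_cast h1
    · apply le_max_of_le_right; rw [exp_le_exp]; exact_mod_cast h1

omit [Fintype σ] in
lemma degVal_apply {p : MvPolynomial σ K} (hp : p ≠ 0) :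
    degVal K σ p = exp (p.totalDegree : ℤ) := by
  classical
  show (if p = 0 then 0 else exp (p.totalDegree : ℤ)) = _
  rw [if_neg hp]

/-- polynomials of bounded degree -/
noncomputable def coeffMap (n : ℕ) :
    restrictTotalDegree σ K n →ₗ[K] ((σ → Fin (n + 1)) → K) where
  toFun p e := coeff (Finsupp.equivFunOnFinite.symm fun i => (e i : ℕ)) p.1
  map_add' p q := by ext e; simp
  map_smul' c p := by ext e; simp

lemma coeffMap_injective (n : ℕ) : Function.Injective (coeffMap K σ n) := by
  rw [injective_iff_map_eq_zero]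
  intro p hp
  apply Subtype.ext
  ext e
  by_cases he : ∀ i, e i ≤ n
  · have := congrFun hp fun i => ⟨e i, Nat.lt_succ_of_le (he i)⟩
    have h2 : (Finsupp.equivFunOnFinite.symm fun i => (e i : ℕ)) = e := by
      ext i; simp
    simp only [coeffMap, LinearMap.coe_mk, AddHom.coe_mk] at this
    rw [h2] at this
    exact this
  · push Not at he
    obtain ⟨i, hi⟩ := he
    have hd : p.1.totalDegree ≤ n := (mem_restrictTotalDegree _ _ _).mp p.2
    rw [coeff_eq_zero_of_totalDegree_lt]
    · simp
    · refine lt_of_le_of_lt hd (lt_of_lt_of_le hi ?_)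
      by_cases h0 : i ∈ e.support
      · exact Finset.single_le_sum (f := fun i => e i) (fun _ _ => Nat.zero_le _) h0
      · rw [Finsupp.notMem_support_iff.mp h0]; exact Nat.zero_le _

instance (n : ℕ) : Module.Finite K (restrictTotalDegree σ K n) :=
  Module.Finite.of_injective _ (coeffMap_injective K σ n)

lemma finrank_restrictTotalDegree_le (n : ℕ) :
    Module.finrank K (restrictTotalDegree σ K n) ≤ (n + 1) ^ Fintype.card σ := by
  classical
  have h := LinearMap.finrank_le_finrank_of_injective (coeffMap_injective K σ n)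
  rw [Module.finrank_fintype_fun_eq_card, Fintype.card_fun, Fintype.card_fin] at h
  exact h

end degree

section final

open MvPolynomial WithZero

lemma degVal_le_one_of_ne {K σ : Type*} [Field K] [Fintype σ] {p : MvPolynomial σ K} (hp : p ≠ 0) :
    1 ≤ degVal K σ p := by
  rw [degVal_apply K σ hp, ← exp_zero, exp_le_exp]
  exact_mod_cast Nat.zero_le _

/-- **M2**: growth bound. -/
theorem M2 (K F : Type u) [Field K] [IsAlgClosed K] [Field F] [Algebra K F] (g : ℕ)
    (hfg : (⊤ : IntermediateField K F).FG) (htr : Algebra.trdeg K F = g) (W : Finset F)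
    (_hW : (1 : F) ∈ W) :
    ∃ C : ℕ, ∀ m : ℕ, 1 ≤ m → ∀ U : Submodule K F,
      (∀ f ∈ U, ∀ V : ValuationSubring F, (∀ c : K, algebraMap K F c ∈ V) →
        ∃ w ∈ W, w ≠ 0 ∧ f * (w⁻¹) ^ m ∈ V) →
      Module.Finite K U ∧ Module.finrank K U ≤ C * m ^ g := by
  classical
  have hess : Algebra.EssFiniteType K F := IntermediateField.fg_top_iff.mp hfg
  obtain ⟨s, hs, hsep⟩ := exists_isTranscendenceBasis_and_isSeparable_of_perfectField K F
  have hcard : Fintype.card s = g := by
    have h1 := hs.cardinalMk_eq_trdeg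
    rw [htr, Cardinal.mk_fintype] at h1
    exact_mod_cast h1
  have hrange : (s : Set F) = Set.range ((↑) : s → F) := Subtype.range_coe.symm
  rw [hrange] at hsep
  have hx : AlgebraicIndependent K ((↑) : s → F) := hs.1
  set k := IntermediateField.adjoin K (Set.range ((↑) : s → F)) with hk
  let A := MvPolynomial s K
  let e := hx.aevalEquivField
  let φ : A →+* k := (e : FractionRing A →+* k).comp (algebraMap A (FractionRing A))
  let _ : Algebra A k := φ.toAlgebra
  let e' : FractionRing A ≃ₐ[A] k := { e.toRingEquiv with commutes' := fun _ => rfl }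
  have hfrac : IsFractionRing A k := IsLocalization.isLocalization_of_algEquiv _ e'
  let _ : Algebra A F := ((algebraMap k F).comp φ).toAlgebra
  have t1 : IsScalarTower A k F := IsScalarTower.of_algebraMap_eq fun _ => rfl
  have t2 : IsScalarTower K A k := by
    apply IsScalarTower.of_algebraMap_eq
    intro c
    show algebraMap K k c = e (algebraMap A (FractionRing A) (algebraMap K A c))
    rw [← IsScalarTower.algebraMap_apply K A (FractionRing A), AlgEquiv.commutes]
  have t3 : IsScalarTower K A F := by
    apply IsScalarTower.of_algebraMap_eq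
    intro c
    rw [IsScalarTower.algebraMap_apply A k F, ← IsScalarTower.algebraMap_apply K A k,
      ← IsScalarTower.algebraMap_apply K k F]
  have hfin : FiniteDimensional k F := by
    have : Algebra.EssFiniteType k F := Algebra.EssFiniteType.of_comp K k F
    exact Algebra.finite_of_essFiniteType_of_isAlgebraic
  let v : Valuation k ℤᵐ⁰ := (degVal K s).extendToLocalization (S := nonZeroDivisors A) (by
    intro x hx
    rw [Ideal.mem_primeCompl_iff, Valuation.mem_supp_iff]
    intro h
    have := degVal_le_one_of_ne (nonZeroDivisors.ne_zero hx)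
    rw [h] at this
    exact not_lt_of_ge this zero_lt_one) k
  have hv : ∀ a : A, v (algebraMap A k a) = degVal K s a := fun a =>
    Valuation.extendToLocalization_apply_map_apply _ _ _ a
  have hdiv : ∀ x : k, ∃ a : A, v x ≤ degVal K s a := by
    intro x
    obtain ⟨a, b, hb, rfl⟩ := IsFractionRing.div_surjective (A := A) x
    refine ⟨a, ?_⟩
    rw [map_div₀, hv, hv]
    have hb1 := degVal_le_one_of_ne (nonZeroDivisors.ne_zero hb)
    calc degVal K s a / degVal K s b = degVal K s a * (degVal K s b)⁻¹ := div_eq_mul_inv _ _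
      _ ≤ degVal K s a * 1 := mul_le_mul_right (inv_le_one_of_one_le₀ hb1) _
      _ = degVal K s a := mul_one _
  have hvK : ∀ c : K, v (algebraMap K k c) ≤ 1 := by
    intro c
    rw [IsScalarTower.algebraMap_apply K A k, hv]
    by_cases hc : c = 0
    · rw [hc, map_zero, map_zero]; exact zero_le_one
    · rw [degVal_apply]
      · rw [MvPolynomial.algebraMap_eq, totalDegree_C]; simp
      · rw [MvPolynomial.algebraMap_eq]; simpa using hc
  obtain ⟨s0, h1, h2, h3⟩ : ∃ s0 : k, 1 ≤ v s0 ∧ (∀ x : k, ∃ a : ℕ, v x ≤ v s0 ^ a) ∧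
      ∀ (n : ℕ) (a : A), v (algebraMap A k a) ≤ v s0 ^ n → a ∈ restrictTotalDegree s K n := by
    by_cases hne : Nonempty s
    · obtain ⟨i⟩ := hne
      have hXi : v (algebraMap A k (X i)) = exp 1 := by
        rw [hv, degVal_apply K s (X_ne_zero i), totalDegree_X]; rfl
      have hpow : ∀ n : ℕ, v (algebraMap A k (X i)) ^ n = exp (n : ℤ) := by
        intro n
        rw [hXi, ← exp_nsmul]; simp
      refine ⟨algebraMap A k (X i), ?_, ?_, ?_⟩
      · rw [hXi, ← exp_zero, exp_le_exp]; norm_num
      · intro x
        obtain ⟨a, ha⟩ := hdiv x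
        by_cases ha0 : a = 0
        · refine ⟨0, ha.trans ?_⟩
          rw [ha0, map_zero]; exact zero_le
        · refine ⟨a.totalDegree, ha.trans ?_⟩
          rw [hpow, degVal_apply K s ha0]
      · intro n a ha
        rw [mem_restrictTotalDegree]
        by_cases ha0 : a = 0
        · rw [ha0]; simp
        · rw [hpow, hv, degVal_apply K s ha0, exp_le_exp] at ha
          exact_mod_cast ha
    · have hempty : IsEmpty s := not_nonempty_iff.mp hne
      have hdeg : ∀ a : A, a.totalDegree = 0 := by
        intro a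
        rw [totalDegree_eq_zero_iff_eq_C]
        exact eq_C_of_isEmpty a
      refine ⟨1, by rw [map_one], ?_, ?_⟩
      · intro x
        obtain ⟨a, ha⟩ := hdiv x
        refine ⟨0, ha.trans ?_⟩
        by_cases ha0 : a = 0
        · rw [ha0, map_zero]; exact zero_le
        · rw [degVal_apply K s ha0, hdeg]; simp
      · intro n a _
        rw [mem_restrictTotalDegree, hdeg]
        exact Nat.zero_le n
  exact core (K := K) (A := A) v h1 h2 hvK (fun n => restrictTotalDegree s K n) g
    (fun n => by rw [← hcard]; exact finrank_restrictTotalDegree_le K s n) h3 W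

end final

end Fermat.Agent.H07.Growth
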