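import Mathlib
import Fermat.Agent.Igusa.ModPoly2

set_option autoImplicit false

/-!
# The shape of the modular polynomial of prime level
-/

namespace Fermat.Agent.H07

open ModularCurve Polynomial Fermat.Agent.Igusa

section Lead

variable {R : Type*} [CommRing R]

/-- `f` has no terms below `n` and the coefficient of `q^n` is `c`. -/
structure Lead (f : LaurentSeries R) (n : ℤ) (c : R) : Prop where
  lt : ∀ m < n, f.coeff m = 0
  eq : f.coeff n = c

lemma Lead.mul {f g : LaurentSeries R} {n m : ℤ} {c d : R} (hf : Lead f n c) (hg : Lead g m d) :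
    Lead (f * g) (n + m) (c * d) := by
  constructor
  · intro k hk
    rw [HahnSeries.coeff_mul]
    apply Finset.sum_eq_zero
    intro ij hij
    obtain ⟨h1, h2, h3⟩ := Finset.mem_antidiagonal.mp hij
    by_cases hi : ij.1 < n
    · rw [hf.lt _ hi, zero_mul]
    · rw [hg.lt ij.2 (by omega), mul_zero]
  · rw [HahnSeries.coeff_mul, Finset.sum_eq_single (n, m)]
    · rw [hf.eq, hg.eq]
    · intro ij hij hne
      obtain ⟨h1, h2, h3⟩ := Finset.mem_antidiagonal.mp hij
      by_cases hi : ij.1 < n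
      · rw [hf.lt _ hi, zero_mul]
      · by_cases hj : ij.2 < m
        · rw [hg.lt _ hj, mul_zero]
        · exfalso
          apply hne
          ext <;> dsimp <;> omega
    · intro h
      rw [Finset.mem_antidiagonal] at h
      by_contra h0
      apply h
      refine ⟨?_, ?_, rfl⟩
      · rw [HahnSeries.mem_support]
        exact left_ne_zero_of_mul h0
      · rw [HahnSeries.mem_support]
        exact right_ne_zero_of_mul h0

lemma Lead.neg {f : LaurentSeries R} {n : ℤ} {c : R} (hf : Lead f n c) : Lead (-f) n (-c) :=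
  ⟨fun m hm => by rw [HahnSeries.coeff_neg, hf.lt m hm, neg_zero], by
    rw [HahnSeries.coeff_neg, hf.eq]⟩

lemma Lead.add {f g : LaurentSeries R} {n : ℤ} {c d : R} (hf : Lead f n c) (hg : Lead g n d) :
    Lead (f + g) n (c + d) :=
  ⟨fun m hm => by rw [HahnSeries.coeff_add, hf.lt m hm, hg.lt m hm, add_zero], by
    rw [HahnSeries.coeff_add, hf.eq, hg.eq]⟩

lemma Lead.of_lt {f : LaurentSeries R} {n m : ℤ} {c : R} (hf : Lead f n c) (h : m < n) :
    Lead f m 0 := ⟨fun k hk => hf.lt k (by omega), hf.lt m h⟩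

/-- no terms below `n` -/
def Ge (f : LaurentSeries R) (n : ℤ) : Prop := ∀ m < n, f.coeff m = 0

lemma Lead.ge {f : LaurentSeries R} {n : ℤ} {c : R} (hf : Lead f n c) : Ge f n := hf.lt

lemma Ge.lead {f : LaurentSeries R} {n : ℤ} (hf : Ge f n) : Lead f n (f.coeff n) := ⟨hf, rfl⟩

lemma Ge.mul {f g : LaurentSeries R} {n m : ℤ} (hf : Ge f n) (hg : Ge g m) : Ge (f * g) (n + m) :=
  (hf.lead.mul hg.lead).ge

lemma Ge.sub {f g : LaurentSeries R} {n : ℤ} (hf : Ge f n) (hg : Ge g n) : Ge (f - g) n :=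
  fun m hm => by rw [HahnSeries.coeff_sub, hf m hm, hg m hm, sub_zero]

lemma Ge.mono {f : LaurentSeries R} {n m : ℤ} (hf : Ge f n) (h : m ≤ n) : Ge f m :=
  fun k hk => hf k (by omega)

lemma ge_zero (n : ℤ) : Ge (0 : LaurentSeries R) n := fun _ _ => rfl

lemma lead_one : Lead (1 : LaurentSeries R) 0 1 :=
  ⟨fun m hm => by rw [HahnSeries.coeff_one, if_neg hm.ne], by rw [HahnSeries.coeff_one, if_pos rfl]⟩

/-- coefficients of a product of linear factors with simple poles -/
lemma prod_coeff {ι : Type*} [DecidableEq ι] (s : Finset ι) (ρ : ι → LaurentSeries R) (u : ι → R)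
    (h : ∀ i, Lead (ρ i) (-1) (u i)) :
    (∀ k : ℕ, Ge ((∏ i ∈ s, (X - C (ρ i))).coeff k) (-((s.card : ℤ) - k))) ∧
    Lead ((∏ i ∈ s, (X - C (ρ i))).coeff 0) (-(s.card : ℤ)) ((-1) ^ s.card * ∏ i ∈ s, u i) := by
  induction s using Finset.induction_on with
  | empty =>
    refine ⟨fun k => ?_, ?_⟩
    · rw [Finset.prod_empty, Finset.card_empty, coeff_one]
      split_ifs with hk
      · subst hk; simpa using lead_one.ge
      · exact ge_zero _
    · simpa using lead_one
  | insert i s hi ih =>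
    obtain ⟨ih1, ih2⟩ := ih
    rw [Finset.prod_insert hi, Finset.card_insert_of_notMem hi, Finset.prod_insert hi]
    set Q := ∏ i ∈ s, (X - C (ρ i)) with hQ
    have e0 : ((X - C (ρ i)) * Q).coeff 0 = -(ρ i * Q.coeff 0) := by
      rw [sub_mul, coeff_sub, mul_coeff_zero, coeff_X_zero, zero_mul, coeff_C_mul, zero_sub]
    have e1 : ∀ k, ((X - C (ρ i)) * Q).coeff (k + 1) = Q.coeff k - ρ i * Q.coeff (k + 1) := by
      intro k
      rw [sub_mul, coeff_sub, coeff_X_mul, coeff_C_mul]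
    have h0 : Lead (((X - C (ρ i)) * Q).coeff 0) (-((s.card + 1 : ℕ) : ℤ))
        ((-1) ^ (s.card + 1) * (u i * ∏ i ∈ s, u i)) := by
      rw [e0]
      have h1 := ((h i).mul ih2).neg
      have e2 : (-1 : ℤ) + -(s.card : ℤ) = -((s.card + 1 : ℕ) : ℤ) := by push_cast; ring
      rw [e2] at h1
      convert h1 using 1
      ring
    refine ⟨?_, h0⟩
    intro k
    cases k with
    | zero => simpa using h0.ge
    | succ k =>
      rw [e1]
      apply Ge.sub
      · refine (ih1 k).mono ?_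
        push_cast; omega
      · refine (((h i).ge).mul (ih1 (k + 1))).mono ?_
        push_cast; omega

end Lead

section shape

variable (r : ℕ) [hr : Fact r.Prime]

lemma lead_J {R : Type*} [CommRing R] [Nontrivial R] : Lead (jqModC R) (-1) 1 :=
  ⟨fun _ hm => coeff_jqModC_of_lt R hm, coeff_jqModC_neg_one R⟩

lemma lead_J_pow {R : Type*} [CommRing R] [Nontrivial R] (n : ℕ) :
    Lead (jqModC R ^ n) (-(n : ℤ)) 1 :=
  ⟨fun _ hm => coeff_jqModC_pow_of_lt R hm, coeff_jqModC_pow_self R n⟩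

lemma lead_twist {R : Type*} [CommRing R] [Nontrivial R] (a : Rˣ) :
    Lead (twist a (jqModC R)) (-1) ((a⁻¹ : Rˣ) : R) := by
  constructor
  · intro m hm
    rw [twist_coeff, coeff_jqModC_of_lt R hm, zero_mul]
  · rw [twist_coeff, coeff_jqModC_neg_one, one_mul, zpow_neg_one]

lemma lead_qExpand {R : Type*} [CommRing R] (N : ℕ) [NeZero N] {f : LaurentSeries R} {n : ℤ}
    {c : R} (hf : Lead f n c) : Lead (qExpand R N f) (N * n) c := by
  have hN : (0 : ℤ) < N := by exact_mod_cast Nat.pos_of_ne_zero (NeZero.ne N)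
  constructor
  · intro m hm
    by_cases hd : (N : ℤ) ∣ m
    · obtain ⟨k, rfl⟩ := hd
      rw [qExpand_coeff_mul]
      exact hf.lt k (lt_of_mul_lt_mul_left hm hN.le)
    · exact qExpand_coeff_of_not_dvd N f hd
  · rw [qExpand_coeff_mul, hf.eq]

lemma prod_zeta {R : Type*} [CommRing R] [IsDomain R] {ζ : Rˣ} (hζ : IsPrimitiveRoot ζ r)
    (hr2 : r ≠ 2) : ∏ b : ZMod r, ((ζ ^ b.val)⁻¹ : Rˣ) = 1 := by
  have : NeZero r := ⟨hr.out.ne_zero⟩
  rw [Finset.prod_inv_distrib, inv_eq_one]
  set S := ∏ b : ZMod r, ζ ^ b.val with hS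
  have h1 : S * S = 1 := by
    have h2 : S = ∏ b : ZMod r, ζ ^ (-b).val := by
      rw [hS]
      exact (Equiv.prod_comp (Equiv.neg (ZMod r)) (fun b => ζ ^ b.val)).symm
    nth_rewrite 2 [h2]
    rw [hS, ← Finset.prod_mul_distrib]
    apply Finset.prod_eq_one
    intro b _
    rw [← pow_add]
    have h3 : r ∣ b.val + (-b).val := by
      rw [← ZMod.natCast_eq_zero_iff]
      push_cast
      rw [ZMod.natCast_zmod_val, ZMod.natCast_zmod_val, add_neg_cancel]
    obtain ⟨t, ht⟩ := h3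
    rw [ht, pow_mul, hζ.pow_eq_one, one_pow]
  have h2 : S ^ r = 1 := by
    rw [hS, ← Finset.prod_pow]
    apply Finset.prod_eq_one
    intro b _
    rw [← pow_mul, mul_comm, pow_mul, hζ.pow_eq_one, one_pow]
  obtain ⟨k, hk⟩ := hr.out.odd_of_ne_two hr2
  rw [hk, pow_add, pow_mul, pow_two, h1, one_pow, one_mul, pow_one] at h2
  exact h2

/-- The shape of the coefficients of the product of the roots. -/
lemma rtPoly_shape {R : Type*} [CommRing R] [IsDomain R] {ζ : Rˣ} (hζ : IsPrimitiveRoot ζ r)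
    (hr2 : r ≠ 2) :
    (∀ k, 1 ≤ k → k ≤ r → Ge ((rtPoly r ζ).coeff k) (-((r : ℤ) * r) - (r - k))) ∧
    Lead ((rtPoly r ζ).coeff r) (-((r : ℤ) * r)) (-1) ∧
    Lead ((rtPoly r ζ).coeff 0) (-((r : ℤ) * r) - r) 1 := by
  classical
  have : NeZero r := ⟨hr.out.ne_zero⟩
  have hr1 : 2 ≤ r := hr.out.two_le
  have hcard : (Finset.univ : Finset (ZMod r)).card = r := by simp [ZMod.card]
  obtain ⟨h1, h2⟩ := prod_coeff (Finset.univ : Finset (ZMod r)) (fun b => rt r ζ (some b))
    (fun b => (((ζ ^ b.val)⁻¹ : Rˣ) : R)) (fun b => lead_twist _)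
  rw [hcard] at h1 h2
  have hnone : Lead (rt r ζ none) (-((r : ℤ) * r)) 1 := by
    have := lead_qExpand r (lead_qExpand r (lead_J (R := R)))
    have e : -((r : ℤ) * r) = r * (r * (-1)) := by ring
    rw [e]; exact this
  have eP : rtPoly r ζ = (X - C (rt r ζ none)) * ∏ b : ZMod r, (X - C (rt r ζ (some b))) := by
    rw [rtPoly, Fintype.prod_option]
  set Q := ∏ b : ZMod r, (X - C (rt r ζ (some b))) with hQ
  have hQr : Q.coeff r = 1 := by
    have hm : Q.Monic := monic_prod_of_monic _ _ fun i _ => monic_X_sub_C _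
    have hd : Q.natDegree = r := by
      rw [hQ, natDegree_prod_of_monic _ _ (fun i _ => monic_X_sub_C _)]
      simp [ZMod.card]
    rw [← hd]; exact hm
  have e0 : (rtPoly r ζ).coeff 0 = -(rt r ζ none * Q.coeff 0) := by
    rw [eP, sub_mul, coeff_sub, mul_coeff_zero, coeff_X_zero, zero_mul, coeff_C_mul, zero_sub]
  have e1 : ∀ k, (rtPoly r ζ).coeff (k + 1) = Q.coeff k - rt r ζ none * Q.coeff (k + 1) := by
    intro k
    rw [eP, sub_mul, coeff_sub, coeff_X_mul, coeff_C_mul]
  refine ⟨?_, ?_, ?_⟩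
  · intro k hk1 hk2
    obtain ⟨k, rfl⟩ : ∃ j, k = j + 1 := ⟨k - 1, by omega⟩
    rw [e1]
    have hrr : (r : ℤ) * r ≥ 2 * r := by nlinarith
    apply Ge.sub
    · refine (h1 k).mono ?_
      push_cast; nlinarith
    · refine (hnone.ge.mul (h1 (k + 1))).mono ?_
      push_cast; omega
  · obtain ⟨k, hk⟩ : ∃ j, r = j + 1 := ⟨r - 1, by omega⟩
    have e2 : (rtPoly r ζ).coeff r = Q.coeff (r - 1) - rt r ζ none * 1 := by
      have := e1 (r - 1)
      rw [show r - 1 + 1 = r by omega] at this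
      rw [this, hQr]
    rw [e2, mul_one, sub_eq_add_neg]
    have h3 : Lead (Q.coeff (r - 1)) (-((r : ℤ) * r)) 0 := by
      refine (h1 (r - 1)).lead.of_lt ?_
      have : ((r - 1 : ℕ) : ℤ) = r - 1 := by push_cast [show 1 ≤ r by omega]; ring
      rw [this]
      have h4 : (2 : ℤ) ≤ r := by exact_mod_cast hr1
      nlinarith
    have := h3.add hnone.neg
    simpa using this
  · rw [e0]
    have h3 := (hnone.mul h2).neg
    have e3 : -((r : ℤ) * r) + -(r : ℤ) = -((r : ℤ) * r) - r := by ring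
    rw [e3] at h3
    have e4 : -(1 * ((-1) ^ r * ∏ b : ZMod r, (((ζ ^ b.val)⁻¹ : Rˣ) : R))) = 1 := by
      have h5 : ∏ b : ZMod r, (((ζ ^ b.val)⁻¹ : Rˣ) : R) = 1 := by
        rw [← Units.coe_prod, prod_zeta r hζ hr2, Units.val_one]
      rw [h5, (hr.out.odd_of_ne_two hr2).neg_one_pow]
      ring
    rw [e4] at h3
    exact h3

/-- q-expansion of an integer polynomial in `j(q^r)`. -/
lemma coeff_evZ (r : ℕ) [NeZero r] (P : ℤ[X]) (D : ℕ) (hD : P.natDegree ≤ D) :
    (evZ (qExpand ℂ r (jqModC ℂ)) P).coeff (-((r : ℤ) * D)) = (P.coeff D : ℂ) := by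
  have e1 : evZ (qExpand ℂ r (jqModC ℂ)) P = qExpand ℂ r (evZ (jqModC ℂ) P) := by
    rw [ringHom_evZ]
  have e2 : -((r : ℤ) * D) = r * (-(D : ℤ)) := by ring
  rw [e1, e2, qExpand_coeff_mul, evZ_apply, eval₂_eq_sum_range' _ (Nat.lt_succ_of_le hD)]
  rw [HahnSeries.coeff_sum, Finset.sum_range_succ, Finset.sum_eq_zero, zero_add]
  · have := (lead_J_pow (R := ℂ) D).eq
    rw [eq_intCast, ← zsmul_eq_mul, HahnSeries.coeff_smul, this, zsmul_eq_mul, mul_one]
  · intro i hi
    have hi' := Finset.mem_range.mp hi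
    have := (lead_J_pow (R := ℂ) i).lt (-(D : ℤ)) (by omega)
    rw [eq_intCast, ← zsmul_eq_mul, HahnSeries.coeff_smul, this, smul_zero]

lemma natDegree_le_of_ge (r : ℕ) [NeZero r] (P : ℤ[X]) (D : ℕ)
    (h : Ge (evZ (qExpand ℂ r (jqModC ℂ)) P) (-((r : ℤ) * D) - (r - 1))) :
    P.natDegree ≤ D := by
  by_contra hcon
  push Not at hcon
  have hr0 : 0 < r := Nat.pos_of_ne_zero (NeZero.ne r)
  have h1 := coeff_evZ r P P.natDegree le_rfl
  have h2 : -((r : ℤ) * P.natDegree) < -((r : ℤ) * D) - (r - 1) := by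
    have : (D : ℤ) + 1 ≤ P.natDegree := by exact_mod_cast hcon
    have hr0' : (0 : ℤ) < r := by exact_mod_cast hr0
    nlinarith
  rw [h _ h2] at h1
  have h3 : P.coeff P.natDegree = 0 := by exact_mod_cast h1.symm
  have h4 : P = 0 := by rwa [coeff_natDegree, leadingCoeff_eq_zero] at h3
  rw [h4, natDegree_zero] at hcon
  omega

theorem modPoly_shape (hr2 : r ≠ 2) :
    (∀ k, 1 ≤ k → k ≤ r → ((modPoly r).coeff k).natDegree ≤ r) ∧
    ((modPoly r).coeff r).coeff r = -1 ∧
    ((modPoly r).coeff 0).natDegree ≤ r + 1 ∧ ((modPoly r).coeff 0).coeff (r + 1) = 1 := by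
  have : NeZero r := ⟨hr.out.ne_zero⟩
  have hr1 : 2 ≤ r := hr.out.two_le
  have hζ := zr_prim r
  obtain ⟨h1, h2, h3⟩ := rtPoly_shape r hζ hr2
  have hco : ∀ k, evZ (qExpand ℂ r (jqModC ℂ)) ((modPoly r).coeff k) = (rtPoly r (zr r)).coeff k := by
    intro k
    rw [← modPoly_map_complex, coeff_map]
  have hd1 : ∀ k, 1 ≤ k → k ≤ r → ((modPoly r).coeff k).natDegree ≤ r := by
    intro k hk1 hk2
    apply natDegree_le_of_ge r
    rw [hco]
    refine (h1 k hk1 hk2).mono ?_
    have : (1 : ℤ) ≤ k := by exact_mod_cast hk1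
    linarith
  have hd0 : ((modPoly r).coeff 0).natDegree ≤ r + 1 := by
    apply natDegree_le_of_ge r
    rw [hco]
    refine h3.ge.mono ?_
    push_cast
    nlinarith
  refine ⟨hd1, ?_, hd0, ?_⟩
  · have h4 := coeff_evZ r ((modPoly r).coeff r) r (hd1 r (by omega) le_rfl)
    rw [hco, h2.eq] at h4
    exact_mod_cast h4.symm
  · have h4 := coeff_evZ r ((modPoly r).coeff 0) (r + 1) hd0
    have e1 : -((r : ℤ) * ((r + 1 : ℕ) : ℤ)) = -((r : ℤ) * r) - r := by push_cast; ring
    rw [hco, e1, h3.eq] at h4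
    exact_mod_cast h4.symm

/-- **Shape of the modular polynomial.** -/
theorem modPoly_eq (hr2 : r ≠ 2) : ∃ z : ℕ → ℕ → ℤ, z r r = 0 ∧
    modPoly r = X ^ (r + 1) + C (X ^ (r + 1)) - C (X ^ r) * X ^ r +
      ∑ b ∈ Finset.range (r + 1), ∑ a ∈ Finset.range (r + 1), C (C (z a b) * X ^ a) * X ^ b := by
  obtain ⟨h1, h2, h3, h4⟩ := modPoly_shape r hr2
  have hr1 : 2 ≤ r := hr.out.two_le
  refine ⟨fun a b => if a = r ∧ b = r then 0 else ((modPoly r).coeff b).coeff a, by simp, ?_⟩
  have hc : ∀ b, b ≤ r → (modPoly r).coeff b = (if b = r then -X ^ r else 0)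
      + (if b = 0 then X ^ (r + 1) else 0) + ∑ a ∈ Finset.range (r + 1),
        C (if a = r ∧ b = r then 0 else ((modPoly r).coeff b).coeff a) * X ^ a := by
    intro b hb
    by_cases hb0 : b = 0
    · subst hb0
      rw [if_neg (by omega), if_pos rfl, zero_add]
      conv_lhs => rw [((modPoly r).coeff 0).as_sum_range' (r + 1 + 1) (Nat.lt_succ_of_le h3)]
      rw [Finset.sum_range_succ, h4, monomial_one_right_eq_X_pow, add_comm]
      congr 1
      apply Finset.sum_congr rfl
      intro a _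
      rw [if_neg (by omega), C_mul_X_pow_eq_monomial]
    · have hb1 : 1 ≤ b := Nat.one_le_iff_ne_zero.mpr hb0
      rw [if_neg hb0, add_zero]
      conv_lhs => rw [((modPoly r).coeff b).as_sum_range' (r + 1) (Nat.lt_succ_of_le (h1 b hb1 hb))]
      rw [Finset.sum_range_succ, Finset.sum_range_succ]
      by_cases hbr : b = r
      · subst hbr
        rw [if_pos rfl, if_pos ⟨rfl, rfl⟩, h2, C_0, zero_mul, add_zero, add_comm]
        congr 1
        · rw [← C_mul_X_pow_eq_monomial]; simp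
        · apply Finset.sum_congr rfl
          intro a ha
          have := Finset.mem_range.mp ha
          rw [if_neg (by omega), C_mul_X_pow_eq_monomial]
      · rw [if_neg hbr, zero_add, if_neg (by omega), C_mul_X_pow_eq_monomial]
        congr 1
        apply Finset.sum_congr rfl
        intro a _
        rw [if_neg (by omega), C_mul_X_pow_eq_monomial]
  conv_lhs => rw [(modPoly r).as_sum_range' (r + 1 + 1) (by rw [modPoly_natDegree]; omega)]
  rw [Finset.sum_range_succ]
  have hlead : (modPoly r).coeff (r + 1) = 1 := by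
    have := modPoly_monic r
    rw [Monic, leadingCoeff, modPoly_natDegree] at this
    exact this
  rw [hlead, monomial_one_right_eq_X_pow]
  have e1 : ∀ b ∈ Finset.range (r + 1), monomial b ((modPoly r).coeff b) =
      (if b = r then (-(C (X ^ r) * X ^ r) : ℤ[X][X]) else 0) +
      (if b = 0 then (C (X ^ (r + 1)) : ℤ[X][X]) else 0) +
      ∑ a ∈ Finset.range (r + 1), (C (C (if a = r ∧ b = r then 0 else
        ((modPoly r).coeff b).coeff a) * X ^ a) * X ^ b : ℤ[X][X]) := by
    intro b hb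
    have hb' := Finset.mem_range.mp hb
    conv_lhs => rw [hc b (by omega)]
    rw [← C_mul_X_pow_eq_monomial, C_add, C_add, map_sum, add_mul, add_mul, Finset.sum_mul]
    congr 1
    congr 1
    · by_cases h : b = r
      · rw [if_pos h, if_pos h, h, C_neg]; ring
      · rw [if_neg h, if_neg h, C_0, zero_mul]
    · by_cases h : b = 0
      · rw [if_pos h, if_pos h, h, pow_zero, mul_one]
      · rw [if_neg h, if_neg h, C_0, zero_mul]
  rw [Finset.sum_congr rfl e1, Finset.sum_add_distrib, Finset.sum_add_distrib,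
    Finset.sum_ite_eq' , Finset.sum_ite_eq', if_pos (by simp), if_pos (by simp)]
  ring

end shape

end Fermat.Agent.H07
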