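import Mathlib
import Fermat.Agent.H07.PhiShape

set_option autoImplicit false

/-!
# Newton polygon dichotomy for the modular equation
-/

namespace Fermat.Agent.H07

open ModularCurve Polynomial Fermat.Agent.Igusa

section core

variable {K : Type*} [Field K] {Γ : Type*} [LinearOrderedCommGroupWithZero Γ] (v : Valuation K Γ)

/-- the lower order terms -/
def lowSum (r : ℕ) (z : ℕ → ℕ → ℤ) (c y : K) : K :=
  ∑ b ∈ Finset.range (r + 1), ∑ a ∈ Finset.range (r + 1), (z a b : K) * c ^ a * y ^ b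

lemma pow_mul_lt {γ η : Γ} (hγ : 1 < γ) (hη : 1 < η) {a b m n : ℕ} (ha : a ≤ m) (hb : b ≤ n)
    (hne : ¬ (a = m ∧ b = n)) : γ ^ a * η ^ b < γ ^ m * η ^ n := by
  have h0γ : 0 < γ := zero_lt_one.trans hγ
  have h0η : 0 < η := zero_lt_one.trans hη
  rcases ha.lt_or_eq with h | h
  · calc γ ^ a * η ^ b ≤ γ ^ a * η ^ n := by
          apply mul_le_mul_right
          exact pow_le_pow_right₀ hη.le hb
      _ < γ ^ m * η ^ n := by
          apply mul_lt_mul_of_pos_right _ (pow_pos h0η n)
          exact pow_lt_pow_right₀ hγ h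
  · have hb' : b < n := lt_of_le_of_ne hb (fun h' => hne ⟨h, h'⟩)
    rw [h]
    apply mul_lt_mul_of_pos_left _ (pow_pos h0γ m)
    exact pow_lt_pow_right₀ hη hb'

lemma lowSum_lt {r : ℕ} {z : ℕ → ℕ → ℤ} (hz : z r r = 0) (hv : ∀ n : ℤ, v (n : K) ≤ 1) {c y : K}
    (hc : 1 < v c) (hy : 1 < v y) : v (lowSum r z c y) < v c ^ r * v y ^ r := by
  have h0 : v c ^ r * v y ^ r ≠ 0 :=
    mul_ne_zero (pow_ne_zero _ (zero_lt_one.trans hc).ne') (pow_ne_zero _ (zero_lt_one.trans hy).ne')
  refine Valuation.map_sum_lt v h0 fun b hb => Valuation.map_sum_lt v h0 fun a ha => ?_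
  have ha' := Nat.lt_succ_iff.mp (Finset.mem_range.mp ha)
  have hb' := Nat.lt_succ_iff.mp (Finset.mem_range.mp hb)
  by_cases h : a = r ∧ b = r
  · obtain ⟨rfl, rfl⟩ := h
    rw [hz, Int.cast_zero, zero_mul, zero_mul, map_zero]
    exact zero_lt_iff.mpr h0
  · rw [map_mul, map_mul, map_pow, map_pow]
    calc v (z a b : K) * v c ^ a * v y ^ b ≤ 1 * v c ^ a * v y ^ b := by
          apply mul_le_mul_left
          apply mul_le_mul_left
          exact hv _
      _ = v c ^ a * v y ^ b := by rw [one_mul]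
      _ < _ := pow_mul_lt hc hy ha' hb' h

theorem dich_core {r : ℕ} (hr : 2 ≤ r) {z : ℕ → ℕ → ℤ} (hz : z r r = 0)
    (hv : ∀ n : ℤ, v (n : K) ≤ 1) {c y : K} (hc : 1 < v c)
    (h : y ^ (r + 1) + c ^ (r + 1) - c ^ r * y ^ r + lowSum r z c y = 0) :
    1 < v y ∧ (v y = v c ^ r ∨ v y ^ r = v c) := by
  have h0c : 0 < v c := zero_lt_one.trans hc
  have hy : 1 < v y := by
    by_contra hy
    push Not at hy
    have hle : ∀ b : ℕ, v y ^ b ≤ 1 := fun b => pow_le_one₀ zero_le hy
    have e1 : c ^ (r + 1) = -(y ^ (r + 1)) + c ^ r * y ^ r + -lowSum r z c y := by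
      linear_combination h
    have h0 : v c ^ (r + 1) ≠ 0 := pow_ne_zero _ h0c.ne'
    have hlt : ∀ a ≤ r, ∀ b : ℕ, v c ^ a * v y ^ b < v c ^ (r + 1) := by
      intro a ha b
      calc v c ^ a * v y ^ b ≤ v c ^ a * 1 := mul_le_mul_right (hle b) _
        _ = v c ^ a := mul_one _
        _ < _ := pow_lt_pow_right₀ hc (by omega)
    have h1 : v (c ^ (r + 1)) < v c ^ (r + 1) := by
      rw [e1]
      refine Valuation.map_add_lt v (Valuation.map_add_lt v ?_ ?_) ?_
      · rw [Valuation.map_neg, map_pow]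
        have := hlt 0 (Nat.zero_le _) (r + 1)
        simpa using this
      · rw [map_mul, map_pow, map_pow]; exact hlt r le_rfl r
      · rw [Valuation.map_neg]
        refine Valuation.map_sum_lt v h0 fun b hb => Valuation.map_sum_lt v h0 fun a ha => ?_
        have ha' := Nat.lt_succ_iff.mp (Finset.mem_range.mp ha)
        rw [map_mul, map_mul, map_pow, map_pow]
        calc v (z a b : K) * v c ^ a * v y ^ b ≤ 1 * v c ^ a * v y ^ b := by
              apply mul_le_mul_left
              apply mul_le_mul_left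
              exact hv _
          _ = v c ^ a * v y ^ b := by rw [one_mul]
          _ < _ := hlt a ha' b
    rw [map_pow] at h1
    exact lt_irrefl _ h1
  refine ⟨hy, ?_⟩
  have h0y : 0 < v y := zero_lt_one.trans hy
  have hlow := lowSum_lt v hz hv hc hy
  have e2 : y ^ (r + 1) + c ^ (r + 1) = c ^ r * y ^ r - lowSum r z c y := by
    linear_combination h
  have h3 : v (y ^ (r + 1) + c ^ (r + 1)) = v c ^ r * v y ^ r := by
    rw [e2, Valuation.map_sub_eq_of_lt_left, map_mul, map_pow, map_pow]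
    rw [map_mul, map_pow, map_pow]
    exact hlow
  have h4 : v c ^ r * v y ^ r ≤ max (v y ^ (r + 1)) (v c ^ (r + 1)) := by
    rw [← h3, ← map_pow, ← map_pow]
    exact Valuation.map_add v _ _
  rcases le_max_iff.mp h4 with h5 | h5
  · left
    have h6 : v c ^ r ≤ v y := by
      rw [pow_succ'] at h5
      exact le_of_mul_le_mul_right h5 (pow_pos h0y r)
    rcases h6.lt_or_eq with h7 | h7
    · exfalso
      have h8 : v (c ^ (r + 1)) < v (y ^ (r + 1)) := by
        rw [map_pow, map_pow]
        apply pow_lt_pow_left₀ _ zero_le (by omega)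
        refine lt_of_le_of_lt ?_ h7
        calc v c = v c ^ 1 := (pow_one _).symm
          _ ≤ v c ^ r := pow_le_pow_right₀ hc.le (by omega)
      rw [Valuation.map_add_eq_of_lt_left v h8, map_pow] at h3
      have h9 : v c ^ r * v y ^ r < v y ^ (r + 1) := by
        rw [pow_succ' (v y)]
        exact mul_lt_mul_of_pos_right h7 (pow_pos h0y r)
      rw [← h3] at h9
      exact lt_irrefl _ h9
    · exact h7.symm
  · right
    have h6 : v y ^ r ≤ v c := by
      rw [pow_succ] at h5
      exact le_of_mul_le_mul_left h5 (pow_pos h0c r)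
    rcases h6.lt_or_eq with h7 | h7
    · exfalso
      have h8 : v (y ^ (r + 1)) < v (c ^ (r + 1)) := by
        rw [map_pow, map_pow]
        apply pow_lt_pow_left₀ _ zero_le (by omega)
        refine lt_of_le_of_lt ?_ h7
        calc v y = v y ^ 1 := (pow_one _).symm
          _ ≤ v y ^ r := pow_le_pow_right₀ hy.le (by omega)
      rw [Valuation.map_add_eq_of_lt_right v h8, map_pow] at h3
      have h9 : v c ^ r * v y ^ r < v c ^ (r + 1) := by
        rw [pow_succ (v c)]
        exact mul_lt_mul_of_pos_left h7 (pow_pos h0c r)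
      rw [← h3] at h9
      exact lt_irrefl _ h9
    · exact h7

/-- In the first case `y` is close to `c^r`. -/
theorem close_core {r : ℕ} (hr : 2 ≤ r) {z : ℕ → ℕ → ℤ} (hz : z r r = 0)
    (hv : ∀ n : ℤ, v (n : K) ≤ 1) {c y : K} (hc : 1 < v c)
    (h : y ^ (r + 1) + c ^ (r + 1) - c ^ r * y ^ r + lowSum r z c y = 0)
    (hy : v y = v c ^ r) : v (y - c ^ r) < v c ^ r := by
  have h0c : 0 < v c := zero_lt_one.trans hc
  have hy1 : 1 < v y := by rw [hy]; exact one_lt_pow₀ hc (by omega)
  have h0y : 0 < v y := zero_lt_one.trans hy1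
  have hlow := lowSum_lt v hz hv hc hy1
  have e1 : (y - c ^ r) * y ^ r = -(c ^ (r + 1)) + -lowSum r z c y := by linear_combination h
  have h1 : v ((y - c ^ r) * y ^ r) < v c ^ r * v y ^ r := by
    rw [e1]
    refine Valuation.map_add_lt v ?_ ?_
    · rw [Valuation.map_neg, map_pow, hy, ← pow_mul, ← pow_add]
      apply pow_lt_pow_right₀ hc
      nlinarith
    · rw [Valuation.map_neg]; exact hlow
  rw [map_mul, map_pow] at h1
  exact lt_of_mul_lt_mul_right h1 (pow_pos h0y r).le

/-- The `Y`-derivative does not vanish in the first case. -/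
theorem derivY_core {r : ℕ} (hr : 2 ≤ r) {z : ℕ → ℕ → ℤ} (hz : z r r = 0)
    (hv : ∀ n : ℤ, v (n : K) ≤ 1) {c y : K} (hc : 1 < v c)
    (h : y ^ (r + 1) + c ^ (r + 1) - c ^ r * y ^ r + lowSum r z c y = 0)
    (hy : v y = v c ^ r) :
    (r + 1 : ℕ) * y ^ r - c ^ r * ((r : K) * y ^ (r - 1)) +
      ∑ b ∈ Finset.range (r + 1), ∑ a ∈ Finset.range (r + 1),
        (z a b : K) * c ^ a * ((b : K) * y ^ (b - 1)) ≠ 0 := by
  have h0c : 0 < v c := zero_lt_one.trans hc
  have hy1 : 1 < v y := by rw [hy]; exact one_lt_pow₀ hc (by omega)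
  have h0y : 0 < v y := zero_lt_one.trans hy1
  have hy0 : y ≠ 0 := by rintro rfl; simp at h0y
  have hvn : ∀ n : ℕ, v (n : K) ≤ 1 := fun n => by simpa using hv n
  have hclose := close_core v hr hz hv hc h hy
  have hc0 : (0 : Γ) ≠ v c ^ r * v y ^ r :=
    (mul_ne_zero (pow_ne_zero _ h0c.ne') (pow_ne_zero _ h0y.ne')).symm
  -- multiply by y
  intro hzero
  have e1 : y ^ r * c ^ r = -((r + 1 : ℕ) * (y - c ^ r) * y ^ r) +
      -∑ b ∈ Finset.range (r + 1), ∑ a ∈ Finset.range (r + 1),
        (z a b : K) * c ^ a * ((b : K) * y ^ b) := by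
    have h1 := congrArg (fun t => t * y) hzero
    simp only [zero_mul, add_mul, sub_mul, Finset.sum_mul] at h1
    have h2 : ∀ b ∈ Finset.range (r + 1), ∀ a ∈ Finset.range (r + 1),
        (z a b : K) * c ^ a * ((b : K) * y ^ (b - 1)) * y =
        (z a b : K) * c ^ a * ((b : K) * y ^ b) := by
      intro b _ a _
      cases b with
      | zero => simp
      | succ b => rw [Nat.add_sub_cancel, pow_succ]; ring
    rw [Finset.sum_congr rfl fun b hb => Finset.sum_congr rfl fun a ha => h2 b hb a ha] at h1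
    have h3 : y ^ (r - 1) * y = y ^ r := by
      rw [← pow_succ]; congr 1; omega
    push_cast at h1 ⊢
    linear_combination h1 + (c ^ r * r) * h3
  have h4 : v (y ^ r * c ^ r) < v c ^ r * v y ^ r := by
    rw [e1]
    refine Valuation.map_add_lt v ?_ ?_
    · rw [Valuation.map_neg, map_mul, map_mul, map_pow]
      calc v ((r + 1 : ℕ) : K) * v (y - c ^ r) * v y ^ r ≤ 1 * v (y - c ^ r) * v y ^ r := by
            apply mul_le_mul_left
            apply mul_le_mul_left
            exact hvn _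
        _ = v (y - c ^ r) * v y ^ r := by rw [one_mul]
        _ < _ := mul_lt_mul_of_pos_right hclose (pow_pos h0y r)
    · rw [Valuation.map_neg]
      refine Valuation.map_sum_lt v hc0.symm fun b hb => Valuation.map_sum_lt v hc0.symm
        fun a ha => ?_
      have ha' := Nat.lt_succ_iff.mp (Finset.mem_range.mp ha)
      have hb' := Nat.lt_succ_iff.mp (Finset.mem_range.mp hb)
      by_cases hab : a = r ∧ b = r
      · obtain ⟨rfl, rfl⟩ := hab
        rw [hz, Int.cast_zero, zero_mul, zero_mul, map_zero]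
        exact zero_lt_iff.mpr hc0.symm
      · rw [map_mul, map_mul, map_mul, map_pow, map_pow]
        calc v (z a b : K) * v c ^ a * (v (b : K) * v y ^ b) ≤ 1 * v c ^ a * (1 * v y ^ b) := by
              refine mul_le_mul' (mul_le_mul' (hv _) le_rfl) (mul_le_mul' (hvn _) le_rfl)
          _ = v c ^ a * v y ^ b := by rw [one_mul, one_mul]
          _ < _ := pow_mul_lt hc hy1 ha' hb' hab
  rw [map_mul, map_pow, map_pow, mul_comm] at h4
  exact lt_irrefl _ h4

lemma lowSum_swap (r : ℕ) (z : ℕ → ℕ → ℤ) (c y : K) :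
    lowSum r z c y = lowSum r (fun a b => z b a) y c := by
  unfold lowSum
  rw [Finset.sum_comm]
  refine Finset.sum_congr rfl fun a _ => Finset.sum_congr rfl fun b _ => by ring

end core

section main

variable (r : ℕ) [hr : Fact r.Prime] {K : Type*} [Field K]

lemma eval_modPoly {z : ℕ → ℕ → ℤ}
    (h : modPoly r = X ^ (r + 1) + C (X ^ (r + 1)) - C (X ^ r) * X ^ r +
      ∑ b ∈ Finset.range (r + 1), ∑ a ∈ Finset.range (r + 1), C (C (z a b) * X ^ a) * X ^ b)
    (c y : K) : (modPoly r).eval₂ (evZ c) y =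
      y ^ (r + 1) + c ^ (r + 1) - c ^ r * y ^ r + lowSum r z c y := by
  rw [h, lowSum]
  simp only [eval₂_add, eval₂_sub, eval₂_mul, eval₂_pow, eval₂_X, eval₂_C, eval₂_finsetSum,
    map_mul, map_pow, evZ_X]
  simp [evZ]

lemma eval_derivative_modPoly {z : ℕ → ℕ → ℤ}
    (h : modPoly r = X ^ (r + 1) + C (X ^ (r + 1)) - C (X ^ r) * X ^ r +
      ∑ b ∈ Finset.range (r + 1), ∑ a ∈ Finset.range (r + 1), C (C (z a b) * X ^ a) * X ^ b)
    (c y : K) : (derivative (modPoly r)).eval₂ (evZ c) y =
      (r + 1 : ℕ) * y ^ r - c ^ r * ((r : K) * y ^ (r - 1)) +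
      ∑ b ∈ Finset.range (r + 1), ∑ a ∈ Finset.range (r + 1),
        (z a b : K) * c ^ a * ((b : K) * y ^ (b - 1)) := by
  rw [h]
  simp only [derivative_add, derivative_sub, derivative_X_pow, derivative_C, derivative_sum,
    derivative_C_mul, add_zero, Nat.add_sub_cancel]
  simp only [eval₂_add, eval₂_sub, eval₂_mul, eval₂_pow, eval₂_X, eval₂_C,
    eval₂_finsetSum, map_mul, map_pow, evZ_X]
  simp [evZ]

/-- `Φ(X, y)` as a polynomial in `X` over `K`. -/
noncomputable def phiX (y : K) : K[X] :=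
  (modPoly r).eval₂ (mapRingHom (Int.castRingHom K)) (C y)

lemma phiX_eval (y c : K) : (phiX r y).eval c = (modPoly r).eval₂ (evZ c) y := by
  rw [phiX, ← coe_evalRingHom, hom_eval₂]
  congr 1
  · apply Polynomial.ringHom_ext
    · intro n; simp
    · simp
  · simp

lemma phiX_eq {z : ℕ → ℕ → ℤ}
    (h : modPoly r = X ^ (r + 1) + C (X ^ (r + 1)) - C (X ^ r) * X ^ r +
      ∑ b ∈ Finset.range (r + 1), ∑ a ∈ Finset.range (r + 1), C (C (z a b) * X ^ a) * X ^ b)
    (y : K) : phiX r y = C y ^ (r + 1) + X ^ (r + 1) - X ^ r * C y ^ r +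
      ∑ b ∈ Finset.range (r + 1), ∑ a ∈ Finset.range (r + 1),
        C (z a b : K) * X ^ a * C y ^ b := by
  rw [phiX, h]
  simp only [eval₂_add, eval₂_sub, eval₂_mul, eval₂_pow, eval₂_X, eval₂_C, eval₂_finsetSum,
    map_mul, map_pow, coe_mapRingHom, map_X, eq_intCast]
  simp only [Polynomial.map_intCast, ← C_eq_intCast, Int.cast_id]
  simp

lemma phiX_derivative_eval {z : ℕ → ℕ → ℤ}
    (h : modPoly r = X ^ (r + 1) + C (X ^ (r + 1)) - C (X ^ r) * X ^ r +
      ∑ b ∈ Finset.range (r + 1), ∑ a ∈ Finset.range (r + 1), C (C (z a b) * X ^ a) * X ^ b)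
    (y c : K) : (derivative (phiX r y)).eval c =
      (r + 1 : ℕ) * c ^ r - y ^ r * ((r : K) * c ^ (r - 1)) +
      ∑ a ∈ Finset.range (r + 1), ∑ b ∈ Finset.range (r + 1),
        (z a b : K) * y ^ b * ((a : K) * c ^ (a - 1)) := by
  rw [phiX_eq r h, Finset.sum_comm]
  simp only [derivative_add, derivative_sub, derivative_C, derivative_sum,
    derivative_mul, ← C_pow, mul_zero, add_zero, zero_add, eval_add, eval_sub,
    eval_mul, eval_pow, eval_X, eval_C, eval_finsetSum, Nat.add_sub_cancel, zero_mul, derivative_pow]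
  congr 1
  · push_cast; simp; ring
  · refine Finset.sum_congr rfl fun a _ => Finset.sum_congr rfl fun b _ => ?_
    simp; ring

variable (A : ValuationSubring K)

lemma valuation_intCast (n : ℤ) : A.valuation (n : K) ≤ 1 :=
  (A.valuation_le_one_iff _).mpr (intCast_mem A n)

/-- **Dichotomy** for the modular equation over a valued field. -/
theorem dichotomy (hr2 : r ≠ 2) {c y : K} (hc : c ∉ A)
    (h : (modPoly r).eval₂ (evZ c) y = 0) :
    A.valuation y = A.valuation c ^ r ∨ A.valuation y ^ r = A.valuation c := by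
  obtain ⟨z, hz, hΦ⟩ := modPoly_eq r hr2
  rw [eval_modPoly r hΦ] at h
  refine (dich_core A.valuation hr.out.two_le hz (valuation_intCast A) ?_ h).2
  rw [← not_le, A.valuation_le_one_iff]; exact hc

/-- the second coordinate is also large -/
theorem notMem_of_notMem (hr2 : r ≠ 2) {c y : K} (hc : c ∉ A)
    (h : (modPoly r).eval₂ (evZ c) y = 0) : y ∉ A := by
  obtain ⟨z, hz, hΦ⟩ := modPoly_eq r hr2
  rw [eval_modPoly r hΦ] at h
  have := (dich_core A.valuation hr.out.two_le hz (valuation_intCast A)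
    (by rw [← not_le, A.valuation_le_one_iff]; exact hc) h).1
  rwa [← not_le, A.valuation_le_one_iff] at this

/-- In the first case `y/c^r` is a principal unit. -/
theorem close_of_case_one (hr2 : r ≠ 2) {c y : K} (hc : c ∉ A)
    (h : (modPoly r).eval₂ (evZ c) y = 0) (hy : A.valuation y = A.valuation c ^ r) :
    A.valuation (y - c ^ r) < A.valuation c ^ r := by
  obtain ⟨z, hz, hΦ⟩ := modPoly_eq r hr2
  rw [eval_modPoly r hΦ] at h
  exact close_core A.valuation hr.out.two_le hz (valuation_intCast A)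
    (by rw [← not_le, A.valuation_le_one_iff]; exact hc) h hy

/-- In the second case `c/y^r` is a principal unit. -/
theorem close_of_case_two (hr2 : r ≠ 2) {c y : K} (hc : c ∉ A)
    (h : (modPoly r).eval₂ (evZ c) y = 0) (hy : A.valuation y ^ r = A.valuation c) :
    A.valuation (c - y ^ r) < A.valuation y ^ r := by
  have hyA := notMem_of_notMem r A hr2 hc h
  obtain ⟨z, hz, hΦ⟩ := modPoly_eq r hr2
  rw [eval_modPoly r hΦ] at h
  refine close_core (z := fun a b => z b a) A.valuation hr.out.two_le hz (valuation_intCast A)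
    (by rw [← not_le, A.valuation_le_one_iff]; exact hyA) ?_ hy.symm
  rw [← lowSum_swap]
  linear_combination h

/-- `y` is a simple root of `Φ(c, Y)` in the first case. -/
theorem derivY_ne_zero (hr2 : r ≠ 2) {c y : K} (hc : c ∉ A)
    (h : (modPoly r).eval₂ (evZ c) y = 0) (hy : A.valuation y = A.valuation c ^ r) :
    (derivative ((modPoly r).map (evZ c))).eval y ≠ 0 := by
  obtain ⟨z, hz, hΦ⟩ := modPoly_eq r hr2
  rw [derivative_map, eval_map, eval_derivative_modPoly r hΦ]
  rw [eval_modPoly r hΦ] at h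
  exact derivY_core A.valuation hr.out.two_le hz (valuation_intCast A)
    (by rw [← not_le, A.valuation_le_one_iff]; exact hc) h hy

/-- `c` is a simple root of `Φ(X, y)` in the second case. -/
theorem derivX_ne_zero (hr2 : r ≠ 2) {c y : K} (hc : c ∉ A)
    (h : (modPoly r).eval₂ (evZ c) y = 0) (hy : A.valuation y ^ r = A.valuation c) :
    (derivative (phiX r y)).eval c ≠ 0 := by
  have hyA := notMem_of_notMem r A hr2 hc h
  obtain ⟨z, hz, hΦ⟩ := modPoly_eq r hr2
  rw [phiX_derivative_eval r hΦ]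
  rw [eval_modPoly r hΦ] at h
  refine derivY_core (z := fun a b => z b a) A.valuation hr.out.two_le hz (valuation_intCast A)
    (by rw [← not_le, A.valuation_le_one_iff]; exact hyA) ?_ hy.symm
  rw [← lowSum_swap]
  linear_combination h

end main

end Fermat.Agent.H07
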