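import Mathlib
import Fermat.Prelude.Def_JacJ1Iface
import Fermat.Prelude.Def_GoodReductionJacobian_RelativeGroupLawKernel

set_option autoImplicit false

/-!
# Multiplication by `n` on a commutative smooth group scheme is étale (S26, block M1a)
-/

universe u

open CategoryTheory AlgebraicGeometry NeronModelInfra GoodReductionJacobian

namespace Fermat.Agent.H07.NMul

noncomputable section

variable {K : Type u} [Field K] {A : Scheme.{u}} {f : A ⟶ Spec (CommRingCat.of K)}

/-- The commutative group of points. -/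
@[reducible] def cg (L : RelativeGroupLaw K f) (hc : L.IsCommutative) {T : Scheme.{u}}
    (t : T ⟶ Spec (CommRingCat.of K)) : CommGroup (SchemeHomOver t f) :=
  { L.pointGroup t with mul_comm := hc t }

/-- restriction as a homomorphism -/
def res (L : RelativeGroupLaw K f) (hc : L.IsCommutative) {T' T : Scheme.{u}}
    {t : T ⟶ Spec (CommRingCat.of K)} {t' : T' ⟶ Spec (CommRingCat.of K)} (i : T' ⟶ T)
    (hi : i ≫ t = t') :
    letI := cg L hc t; letI := cg L hc t'; SchemeHomOver t f →* SchemeHomOver t' f :=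
  letI := cg L hc t; letI := cg L hc t'
  { toFun := schemeHomOverComp i hi
    map_one' := L.one_natural t t' i hi
    map_mul' := L.mul_natural t t' i hi }

lemma pow_eq (L : RelativeGroupLaw K f) (hc : L.IsCommutative) {T : Scheme.{u}}
    (t : T ⟶ Spec (CommRingCat.of K)) (x : SchemeHomOver t f) (n : ℕ) :
    letI := cg L hc t; x ^ n = L.nsmul t n x := by
  letI := cg L hc t
  induction n with
  | zero => exact pow_zero x
  | succ n ih => rw [pow_succ, ih]; rfl

lemma comp_schemeNsmul (L : RelativeGroupLaw K f) {T : Scheme.{u}}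
    (t : T ⟶ Spec (CommRingCat.of K)) (x : SchemeHomOver t f) (n : ℕ) :
    x.1 ≫ L.schemeNsmul n = (L.nsmul t n x).1 := by
  have h := L.nsmul_natural f t x.1 x.2 n RelativeGroupLaw.idPoint
  have h2 : schemeHomOverComp x.1 x.2 RelativeGroupLaw.idPoint = x :=
    Subtype.ext (Category.comp_id _)
  rw [h2] at h
  exact congrArg Subtype.val h

section affine

variable {V : A.Opens} (hV : IsAffineOpen V)

/-- The structure map `K → Γ(A, V)`. -/
def kap (f : A ⟶ Spec (CommRingCat.of K)) : CommRingCat.of K ⟶ Γ(A, V) :=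
  Spec.preimage (hV.fromSpec ≫ f)

lemma map_kap : Spec.map (kap hV f) = hV.fromSpec ≫ f := Spec.map_preimage _

/-- If `i` is surjective and `i ≫ z` lands in `V` then so does `z`. -/
lemma exists_factor {R : CommRingCat.{u}} {T : Scheme.{u}} (i : T ⟶ Spec R)
    (hi : Function.Surjective i) (z : Spec R ⟶ A) (h : Set.range (i ≫ z) ⊆ V) :
    ∃ φ : Γ(A, V) ⟶ R, z = Spec.map φ ≫ hV.fromSpec := by
  have h1 : Set.range z ⊆ Set.range hV.fromSpec := by
    rw [hV.range_fromSpec]
    rintro _ ⟨x, rfl⟩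
    obtain ⟨y, rfl⟩ := hi x
    exact h ⟨y, by simp⟩
  refine ⟨Spec.preimage (IsOpenImmersion.lift hV.fromSpec z h1), ?_⟩
  rw [Spec.map_preimage, IsOpenImmersion.lift_fac]

lemma surjective_of_nil {R S : CommRingCat.{u}} (φ : R ⟶ S) (h1 : Function.Surjective φ)
    (h2 : RingHom.ker φ.hom ≤ nilradical R) : Function.Surjective (Spec.map φ) := by
  have := PrimeSpectrum.isHomeomorph_comap φ.hom (fun x => ⟨1, one_pos, by
    obtain ⟨y, hy⟩ := h1 x
    exact ⟨y, by rw [pow_one]; exact hy⟩⟩) h2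
  exact this.surjective

end affine

section tsze

variable (M : Type u) [AddCommGroup M] [Module K M] [Module Kᵐᵒᵖ M] [IsCentralScalar K M]
variable {N : Type u} [AddCommGroup N] [Module K N] [Module Kᵐᵒᵖ N] [IsCentralScalar K N]
variable {P : Type u} [AddCommGroup P] [Module K P] [Module Kᵐᵒᵖ P] [IsCentralScalar K P]

/-- structure morphism -/
def stE : Spec (CommRingCat.of (TrivSqZeroExt K M)) ⟶ Spec (CommRingCat.of K) :=
  Spec.map (CommRingCat.ofHom (algebraMap K (TrivSqZeroExt K M)))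

/-- zero section -/
def zE : Spec (CommRingCat.of K) ⟶ Spec (CommRingCat.of (TrivSqZeroExt K M)) :=
  Spec.map (CommRingCat.ofHom (TrivSqZeroExt.fstHom K K M).toRingHom)

variable {M}

/-- functoriality -/
def mE (g : M →ₗ[K] N) : Spec (CommRingCat.of (TrivSqZeroExt K N)) ⟶
    Spec (CommRingCat.of (TrivSqZeroExt K M)) :=
  Spec.map (CommRingCat.ofHom (TrivSqZeroExt.map g).toRingHom)

lemma mE_stE (g : M →ₗ[K] N) : mE g ≫ stE M = stE N := by
  rw [mE, stE, stE, ← Spec.map_comp, ← CommRingCat.ofHom_comp]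
  congr 2
  exact (TrivSqZeroExt.map g).comp_algebraMap

lemma zE_mE (g : M →ₗ[K] N) : zE N ≫ mE g = zE M := by
  rw [mE, zE, zE, ← Spec.map_comp, ← CommRingCat.ofHom_comp]
  congr 2
  ext x
  simp

lemma mE_comp (g : M →ₗ[K] N) (h : N →ₗ[K] P) : mE (h ∘ₗ g) = mE h ≫ mE g := by
  rw [mE, mE, mE, ← Spec.map_comp, ← CommRingCat.ofHom_comp]
  congr 2
  ext x <;> simp

lemma mE_id : mE (LinearMap.id : M →ₗ[K] M) = 𝟙 _ := by
  rw [mE, ← Spec.map_id]
  congr 2
  ext x <;> simp

lemma mE_zero : mE (0 : M →ₗ[K] N) = stE N ≫ zE M := by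
  rw [mE, stE, zE, ← Spec.map_comp, ← CommRingCat.ofHom_comp]
  congr 2
  refine RingHom.ext fun x => TrivSqZeroExt.ext ?_ ?_
  · simp [TrivSqZeroExt.algebraMap_eq_inl]
  · simp [TrivSqZeroExt.algebraMap_eq_inl]

lemma zE_stE : zE (K := K) M ≫ stE (K := K) M = 𝟙 _ := by
  rw [zE, stE, ← Spec.map_comp, ← CommRingCat.ofHom_comp, ← Spec.map_id]
  congr 1

lemma zE_surjective : Function.Surjective (zE (K := K) M) := by
  apply surjective_of_nil
  · intro x
    exact ⟨TrivSqZeroExt.inl x, by simp⟩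
  · intro x hx
    rw [mem_nilradical]
    refine ⟨2, ?_⟩
    have h1 : TrivSqZeroExt.fst x = 0 := hx
    ext
    · simp [pow_two, h1]
    · simp [pow_two, h1]

variable (L : RelativeGroupLaw K f) (hc : L.IsCommutative)

/-- the origin -/
def org : Spec (CommRingCat.of K) ⟶ A := (L.one (𝟙 _)).1

/-- action of a linear map on points -/
def act (g : M →ₗ[K] N) (x : SchemeHomOver (stE M) f) : SchemeHomOver (stE N) f :=
  schemeHomOverComp (mE g) (mE_stE g) x

/-- points reducing to the origin -/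
def T0 (M : Type u) [AddCommGroup M] [Module K M] [Module Kᵐᵒᵖ M] [IsCentralScalar K M]
    (x : SchemeHomOver (stE M) f) : Prop := zE M ≫ x.1 = org L

lemma one_val {T : Scheme.{u}} (t : T ⟶ Spec (CommRingCat.of K)) : (L.one t).1 = t ≫ org L := by
  have := L.one_natural (𝟙 _) t t (Category.comp_id t)
  exact (congrArg Subtype.val this).symm

lemma act_comp (g : M →ₗ[K] N) (h : N →ₗ[K] P) (x : SchemeHomOver (stE M) f) :
    act (h ∘ₗ g) x = act h (act g x) := by
  apply Subtype.ext
  show mE (h ∘ₗ g) ≫ x.1 = mE h ≫ mE g ≫ x.1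
  rw [mE_comp, Category.assoc]

lemma act_id (x : SchemeHomOver (stE M) f) : act LinearMap.id x = x := by
  apply Subtype.ext
  show mE LinearMap.id ≫ x.1 = x.1
  rw [mE_id, Category.id_comp]

variable {L}

lemma act_zero {x : SchemeHomOver (stE M) f} (hx : T0 L M x) :
    act (0 : M →ₗ[K] N) x = L.one (stE N) := by
  apply Subtype.ext
  show mE (0 : M →ₗ[K] N) ≫ x.1 = (L.one (stE N)).1
  rw [mE_zero, Category.assoc, hx, one_val]

lemma T0_act {x : SchemeHomOver (stE M) f} (hx : T0 L M x) (g : M →ₗ[K] N) :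
    T0 L N (act g x) := by
  show zE N ≫ mE g ≫ x.1 = org L
  rw [← Category.assoc, zE_mE]; exact hx

lemma T0_mul {x y : SchemeHomOver (stE M) f} (hx : T0 L M x) (hy : T0 L M y) :
    T0 L M (L.mul (stE M) x y) := by
  have h := L.mul_natural (stE M) (𝟙 _) (zE M) zE_stE x y
  have h2 := congrArg Subtype.val h
  show zE M ≫ (L.mul (stE M) x y).1 = org L
  refine h2.trans ?_
  have ex : schemeHomOverComp (zE M) zE_stE x = L.one (𝟙 _) := Subtype.ext hx
  have ey : schemeHomOverComp (zE M) zE_stE y = L.one (𝟙 _) := Subtype.ext hy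
  rw [ex, ey, L.one_mul]
  rfl

lemma T0_one : T0 L M (L.one (stE M)) := by
  show zE M ≫ (L.one (stE M)).1 = org L
  rw [one_val, ← Category.assoc, zE_stE, Category.id_comp]

/-- representation of an infinitesimal point -/
lemma exists_rep {V : A.Opens} (hV : IsAffineOpen V) (h0 : Set.range (org L) ⊆ V)
    {x : SchemeHomOver (stE M) f} (hx : T0 L M x) :
    ∃ φ : Γ(A, V) ⟶ CommRingCat.of (TrivSqZeroExt K M), x.1 = Spec.map φ ≫ hV.fromSpec :=
  exists_factor hV (zE M) zE_surjective x.1 (by rw [hx]; exact h0)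

lemma exists_affine : ∃ V : A.Opens, IsAffineOpen V ∧ Set.range (org L) ⊆ V := by
  let p : Spec (CommRingCat.of K) := IsLocalRing.closedPoint K
  obtain ⟨V, hV, hp, -⟩ := exists_isAffineOpen_mem_and_subset (X := A) (x := org L p) (U := ⊤)
    trivial
  refine ⟨V, hV, ?_⟩
  rintro _ ⟨y, rfl⟩
  have : y = p := Subsingleton.elim (α := PrimeSpectrum K) y p
  rw [this]; exact hp

lemma ext_prod {x y : SchemeHomOver (stE (M × N)) f} (hx : T0 L (M × N) x) (hy : T0 L (M × N) y)
    (h1 : act (LinearMap.fst K M N) x = act (LinearMap.fst K M N) y)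
    (h2 : act (LinearMap.snd K M N) x = act (LinearMap.snd K M N) y) : x = y := by
  obtain ⟨V, hV, h0⟩ := exists_affine (L := L)
  obtain ⟨φ, hφ⟩ := exists_rep hV h0 hx
  obtain ⟨ψ, hψ⟩ := exists_rep hV h0 hy
  apply Subtype.ext
  rw [hφ, hψ]
  have e1 : mE (LinearMap.fst K M N) ≫ Spec.map φ ≫ hV.fromSpec =
      mE (LinearMap.fst K M N) ≫ Spec.map ψ ≫ hV.fromSpec := by
    rw [← hφ, ← hψ]; exact congrArg Subtype.val h1
  have e2 : mE (LinearMap.snd K M N) ≫ Spec.map φ ≫ hV.fromSpec =
      mE (LinearMap.snd K M N) ≫ Spec.map ψ ≫ hV.fromSpec := by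
    rw [← hφ, ← hψ]; exact congrArg Subtype.val h2
  rw [← Category.assoc, ← Category.assoc, cancel_mono, mE, ← Spec.map_comp, ← Spec.map_comp,
    Spec.map_inj] at e1 e2
  have e3 : φ = ψ := by
    refine CommRingCat.hom_ext (RingHom.ext fun a => ?_)
    have f1 := congrArg (fun z => z.hom a) e1
    have f2 := congrArg (fun z => z.hom a) e2
    simp only [CommRingCat.hom_comp, RingHom.comp_apply, CommRingCat.hom_ofHom] at f1 f2
    have g1 := congrArg TrivSqZeroExt.fst f1
    have g2 := congrArg TrivSqZeroExt.snd f1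
    have g3 := congrArg TrivSqZeroExt.snd f2
    simp at g1 g2 g3
    apply TrivSqZeroExt.ext
    · exact g1
    · exact Prod.ext g2 g3
  rw [e3]

lemma act_mul (g : M →ₗ[K] N) (x y : SchemeHomOver (stE M) f) :
    act g (L.mul (stE M) x y) = L.mul (stE N) (act g x) (act g y) :=
  L.mul_natural _ _ _ _ _ _

lemma fst_inl (y : SchemeHomOver (stE N) f) :
    act (LinearMap.fst K N N) (act (LinearMap.inl K N N) y) = y := by
  rw [← act_comp, LinearMap.fst_comp_inl, act_id]

lemma snd_inr (y : SchemeHomOver (stE N) f) :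
    act (LinearMap.snd K N N) (act (LinearMap.inr K N N) y) = y := by
  rw [← act_comp, LinearMap.snd_comp_inr, act_id]

lemma fst_inr {y : SchemeHomOver (stE N) f} (hy : T0 L N y) :
    act (LinearMap.fst K N N) (act (LinearMap.inr K N N) y) = L.one (stE N) := by
  rw [← act_comp, LinearMap.fst_comp_inr, act_zero hy]

lemma snd_inl {y : SchemeHomOver (stE N) f} (hy : T0 L N y) :
    act (LinearMap.snd K N N) (act (LinearMap.inl K N N) y) = L.one (stE N) := by
  rw [← act_comp, LinearMap.snd_comp_inl, act_zero hy]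

/-- **Additivity**. -/
theorem act_add {x : SchemeHomOver (stE M) f} (hx : T0 L M x) (g h : M →ₗ[K] N) :
    act (g + h) x = L.mul (stE N) (act g x) (act h x) := by
  have hu : act (g.prod h) x =
      L.mul _ (act (LinearMap.inl K N N) (act g x)) (act (LinearMap.inr K N N) (act h x)) := by
    apply ext_prod (L := L) (T0_act hx _)
    · exact T0_mul (T0_act (T0_act hx _) _) (T0_act (T0_act hx _) _)
    · rw [act_mul, fst_inl, fst_inr (T0_act hx _), L.mul_one, ← act_comp, LinearMap.fst_prod]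
    · rw [act_mul, snd_inr, snd_inl (T0_act hx _), L.one_mul, ← act_comp, LinearMap.snd_prod]
  have e1 : act (LinearMap.coprod LinearMap.id LinearMap.id) (act (g.prod h) x) = act (g + h) x := by
    rw [← act_comp]
    congr 1
  have e2 (y : SchemeHomOver (stE N) f) : act (LinearMap.coprod LinearMap.id LinearMap.id)
      (act (LinearMap.inl K N N) y) = y := by
    rw [← act_comp, LinearMap.coprod_inl, act_id]
  have e3 (y : SchemeHomOver (stE N) f) : act (LinearMap.coprod LinearMap.id LinearMap.id)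
      (act (LinearMap.inr K N N) y) = y := by
    rw [← act_comp, LinearMap.coprod_inr, act_id]
  rw [← e1, hu, act_mul, e2, e3]

theorem act_nsmul {x : SchemeHomOver (stE M) f} (hx : T0 L M x) (n : ℕ) :
    L.nsmul (stE M) n x = act ((n : K) • (LinearMap.id : M →ₗ[K] M)) x := by
  induction n with
  | zero => rw [Nat.cast_zero, zero_smul, act_zero hx]; rfl
  | succ n ih =>
    rw [Nat.cast_succ, add_smul, one_smul, act_add hx, act_id, ← ih]; rfl

end tsze

section general

variable {R : Type u} [CommRing R] [Algebra K R]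

/-- structure morphism of `Spec R` -/
def stR (R : Type u) [CommRing R] [Algebra K R] :
    Spec (CommRingCat.of R) ⟶ Spec (CommRingCat.of K) :=
  Spec.map (CommRingCat.ofHom (algebraMap K R))

/-- the closed immersion -/
def qR (I : Ideal R) : Spec (CommRingCat.of (R ⧸ I)) ⟶ Spec (CommRingCat.of R) :=
  Spec.map (CommRingCat.ofHom (Ideal.Quotient.mk I))

lemma qR_stR (I : Ideal R) : qR I ≫ stR (K := K) R = stR (R ⧸ I) := by
  rw [qR, stR, stR, ← Spec.map_comp, ← CommRingCat.ofHom_comp]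

lemma qR_surjective (I : Ideal R) (hI : I ^ 2 = ⊥) : Function.Surjective (qR I) := by
  apply surjective_of_nil
  · exact Ideal.Quotient.mk_surjective
  · intro x hx
    rw [mem_nilradical]
    refine ⟨2, ?_⟩
    have h1 : x ∈ I := by
      have : Ideal.Quotient.mk I x = 0 := hx
      rwa [Ideal.Quotient.eq_zero_iff_mem] at this
    have h2 : x ^ 2 ∈ I ^ 2 := Ideal.pow_mem_pow h1 2
    rwa [hI] at h2

/-- opposite action -/
@[reducible] def opI (I : Ideal R) : Module Kᵐᵒᵖ I :=
  Module.compHom I ((RingHom.id K).fromOpposite mul_comm)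

attribute [local instance] opI

local instance (I : Ideal R) : IsCentralScalar K I := ⟨fun _ _ => rfl⟩

/-- the map `K ⊕ I → R` -/
def sg (I : Ideal R) (hI : I ^ 2 = ⊥) : TrivSqZeroExt K I →ₐ[K] R :=
  TrivSqZeroExt.liftEquivOfComm ⟨I.subtype.restrictScalars K, fun x y => by
    have h : (x : R) * (y : R) ∈ I ^ 2 := by
      rw [pow_two]; exact Ideal.mul_mem_mul x.2 y.2
    rw [hI] at h
    exact h⟩

lemma sg_apply (I : Ideal R) (hI : I ^ 2 = ⊥) (x : TrivSqZeroExt K I) :
    sg I hI x = algebraMap K R x.fst + (x.snd : R) := by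
  simp [sg, TrivSqZeroExt.lift_def, Algebra.ofId_apply]

/-- the map on spectra -/
def sgS (K : Type u) [Field K] {R : Type u} [CommRing R] [Algebra K R] (I : Ideal R)
    (hI : I ^ 2 = ⊥) : Spec (CommRingCat.of R) ⟶ Spec (CommRingCat.of (TrivSqZeroExt K I)) :=
  Spec.map (CommRingCat.ofHom (sg (K := K) I hI).toRingHom)

lemma sgS_stE (I : Ideal R) (hI : I ^ 2 = ⊥) : sgS K I hI ≫ stE (K := K) I = stR R := by
  rw [sgS, stE, stR, ← Spec.map_comp, ← CommRingCat.ofHom_comp]
  congr 2
  exact (sg (K := K) I hI).comp_algebraMap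

lemma qR_sgS (I : Ideal R) (hI : I ^ 2 = ⊥) : qR I ≫ sgS K I hI = stR (R ⧸ I) ≫ zE (K := K) I := by
  rw [sgS, qR, stR, zE, ← Spec.map_comp, ← Spec.map_comp, ← CommRingCat.ofHom_comp,
    ← CommRingCat.ofHom_comp]
  congr 2
  refine RingHom.ext fun x => ?_
  show Ideal.Quotient.mk I (sg I hI x) = algebraMap K (R ⧸ I) x.fst
  rw [sg_apply, map_add, Ideal.Quotient.eq_zero_iff_mem.2 x.snd.2, add_zero]
  rfl

variable (L : RelativeGroupLaw K f)

/-- push an infinitesimal point -/
def bump (I : Ideal R) (hI : I ^ 2 = ⊥) (x : SchemeHomOver (stE (K := K) I) f) :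
    SchemeHomOver (stR (K := K) R) f :=
  schemeHomOverComp (sgS K I hI) (sgS_stE I hI) x

/-- points of `A(R)` trivial modulo `I` -/
def KerI (I : Ideal R) (z : SchemeHomOver (stR (K := K) R) f) : Prop :=
  qR I ≫ z.1 = stR (R ⧸ I) ≫ org L

variable {L}

lemma KerI_bump (I : Ideal R) (hI : I ^ 2 = ⊥) {x : SchemeHomOver (stE (K := K) I) f}
    (hx : T0 L I x) : KerI L I (bump I hI x) := by
  show qR I ≫ sgS K I hI ≫ x.1 = stR (R ⧸ I) ≫ org L
  rw [← Category.assoc, qR_sgS, Category.assoc, hx]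

lemma bump_one (I : Ideal R) (hI : I ^ 2 = ⊥) : bump I hI (L.one (stE (K := K) I)) = L.one _ :=
  L.one_natural _ _ _ _

lemma bump_nsmul (I : Ideal R) (hI : I ^ 2 = ⊥) (n : ℕ) (x : SchemeHomOver (stE (K := K) I) f) :
    bump I hI (L.nsmul _ n x) = L.nsmul _ n (bump I hI x) :=
  L.nsmul_natural _ _ _ _ _ _

lemma bump_inj (I : Ideal R) (hI : I ^ 2 = ⊥) {x y : SchemeHomOver (stE (K := K) I) f}
    (hx : T0 L I x) (hy : T0 L I y) (h : bump I hI x = bump I hI y) : x = y := by
  obtain ⟨V, hV, h0⟩ := exists_affine (L := L)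
  obtain ⟨φ, hφ⟩ := exists_rep hV h0 hx
  obtain ⟨ψ, hψ⟩ := exists_rep hV h0 hy
  apply Subtype.ext
  rw [hφ, hψ]
  have e1 : sgS K I hI ≫ Spec.map φ ≫ hV.fromSpec = sgS K I hI ≫ Spec.map ψ ≫ hV.fromSpec := by
    rw [← hφ, ← hψ]; exact congrArg Subtype.val h
  have e2 : zE (K := K) I ≫ Spec.map φ ≫ hV.fromSpec = zE (K := K) I ≫ Spec.map ψ ≫ hV.fromSpec := by
    rw [← hφ, ← hψ]
    exact hx.trans hy.symm
  rw [← Category.assoc, ← Category.assoc, cancel_mono, sgS, ← Spec.map_comp, ← Spec.map_comp,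
    Spec.map_inj] at e1
  rw [← Category.assoc, ← Category.assoc, cancel_mono, zE, ← Spec.map_comp, ← Spec.map_comp,
    Spec.map_inj] at e2
  have e3 : φ = ψ := by
    refine CommRingCat.hom_ext (RingHom.ext fun a => ?_)
    have f1 : sg (K := K) I hI (φ.hom a) = sg (K := K) I hI (ψ.hom a) :=
      congrArg (fun z => z.hom a) e1
    have f2 : TrivSqZeroExt.fst (φ.hom a) = TrivSqZeroExt.fst (ψ.hom a) :=
      congrArg (fun z => z.hom a) e2
    rw [sg_apply, sg_apply, f2] at f1
    exact TrivSqZeroExt.ext f2 (Subtype.ext (add_left_cancel f1))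
  rw [e3]

lemma bump_surj (I : Ideal R) (hI : I ^ 2 = ⊥) {z : SchemeHomOver (stR (K := K) R) f}
    (hz : KerI L I z) : ∃ x, T0 L I x ∧ bump I hI x = z := by
  obtain ⟨V, hV, h0⟩ := exists_affine (L := L)
  obtain ⟨φ, hφ⟩ := exists_factor hV (qR I) (qR_surjective I hI) z.1 (by
    rw [hz]
    refine subset_trans ?_ h0
    rintro _ ⟨x, rfl⟩
    exact ⟨_, (Scheme.Hom.comp_apply _ _ _).symm⟩)
  obtain ⟨ε, hε⟩ := exists_factor hV (𝟙 _) Function.surjective_id (org L) (by
    rw [Category.id_comp]; exact h0)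
  have e1 : qR I ≫ Spec.map φ ≫ hV.fromSpec = stR (R ⧸ I) ≫ Spec.map ε ≫ hV.fromSpec := by
    rw [← hφ, ← hε]; exact hz
  rw [← Category.assoc, ← Category.assoc, cancel_mono, qR, stR, ← Spec.map_comp, ← Spec.map_comp,
    Spec.map_inj] at e1
  have e2 : kap hV f ≫ φ = CommRingCat.ofHom (algebraMap K R) := by
    rw [← Spec.map_inj, Spec.map_comp, map_kap, ← Category.assoc, ← hφ]
    exact z.2
  have e3 : kap hV f ≫ ε = 𝟙 _ := by
    rw [← Spec.map_inj, Spec.map_comp, map_kap, ← Category.assoc, ← hε, Spec.map_id]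
    exact (L.one (𝟙 _)).2
  have f1 (a) : Ideal.Quotient.mk I (φ.hom a) = algebraMap K (R ⧸ I) (ε.hom a) :=
    congrArg (fun z => z.hom a) e1
  have f2 (c : K) : φ.hom ((kap hV f).hom c) = algebraMap K R c :=
    congrArg (fun z => z.hom c) e2
  have f3 (c : K) : ε.hom ((kap hV f).hom c) = c :=
    congrArg (fun z => z.hom c) e3
  have hmem (a) : φ.hom a - algebraMap K R (ε.hom a) ∈ I := by
    rw [← Ideal.Quotient.eq_zero_iff_mem, map_sub, f1]
    exact sub_self _
  have hmul (a b : R) (ha : a ∈ I) (hb : b ∈ I) : a * b = 0 := by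
    have h : a * b ∈ I ^ 2 := by rw [pow_two]; exact Ideal.mul_mem_mul ha hb
    rwa [hI] at h
  let Φ : Γ(A, V) →+* TrivSqZeroExt K I :=
    { toFun := fun a => (ε.hom a, ⟨φ.hom a - algebraMap K R (ε.hom a), hmem a⟩)
      map_one' := by
        refine TrivSqZeroExt.ext ?_ ?_
        · exact map_one ε.hom
        · apply Subtype.ext
          show φ.hom 1 - algebraMap K R (ε.hom 1) = 0
          rw [map_one, map_one, map_one, sub_self]
      map_zero' := by
        refine TrivSqZeroExt.ext ?_ ?_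
        · exact map_zero ε.hom
        · apply Subtype.ext
          show φ.hom 0 - algebraMap K R (ε.hom 0) = 0
          rw [map_zero, map_zero, map_zero, sub_self]
      map_add' := fun a b => by
        refine TrivSqZeroExt.ext ?_ ?_
        · exact map_add ε.hom a b
        · apply Subtype.ext
          show φ.hom (a + b) - algebraMap K R (ε.hom (a + b)) =
            (φ.hom a - algebraMap K R (ε.hom a)) + (φ.hom b - algebraMap K R (ε.hom b))
          rw [map_add, map_add, map_add]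
          ring
      map_mul' := fun a b => by
        refine TrivSqZeroExt.ext ?_ ?_
        · exact map_mul ε.hom a b
        · apply Subtype.ext
          have := hmul _ _ (hmem a) (hmem b)
          show φ.hom (a * b) - algebraMap K R (ε.hom (a * b)) =
            ε.hom a • (φ.hom b - algebraMap K R (ε.hom b)) +
              ε.hom b • (φ.hom a - algebraMap K R (ε.hom a))
          rw [map_mul, map_mul, map_mul, Algebra.smul_def, Algebra.smul_def]
          linear_combination this }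
  have hΦ : ∀ a, sg (K := K) I hI (Φ a) = φ.hom a := by
    intro a
    rw [sg_apply]
    show algebraMap K R (ε.hom a) + (φ.hom a - algebraMap K R (ε.hom a)) = _
    ring
  refine ⟨⟨Spec.map (CommRingCat.ofHom Φ) ≫ hV.fromSpec, ?_⟩, ?_, ?_⟩
  · rw [Category.assoc, ← map_kap, ← Spec.map_comp, stE]
    congr 1
    refine CommRingCat.hom_ext (RingHom.ext fun c => ?_)
    refine TrivSqZeroExt.ext ?_ ?_
    · exact f3 c
    · apply Subtype.ext
      show φ.hom ((kap hV f).hom c) - algebraMap K R (ε.hom ((kap hV f).hom c)) = 0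
      rw [f2, f3, sub_self]
  · show zE (K := K) I ≫ Spec.map (CommRingCat.ofHom Φ) ≫ hV.fromSpec = org L
    rw [hε, ← Category.assoc, zE, ← Spec.map_comp]
    rfl
  · apply Subtype.ext
    show sgS K I hI ≫ Spec.map (CommRingCat.ofHom Φ) ≫ hV.fromSpec = z.1
    rw [hφ, ← Category.assoc, sgS, ← Spec.map_comp]
    congr 2
    exact CommRingCat.hom_ext (RingHom.ext fun a => hΦ a)

lemma act_inv {M : Type u} [AddCommGroup M] [Module K M] [Module Kᵐᵒᵖ M] [IsCentralScalar K M]
    {a b : K} (hab : a * b = 1) (x : SchemeHomOver (stE M) f) :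
    act (a • (LinearMap.id : M →ₗ[K] M)) (act (b • (LinearMap.id : M →ₗ[K] M)) x) = x := by
  rw [← act_comp]
  have : (a • (LinearMap.id : M →ₗ[K] M)) ∘ₗ (b • (LinearMap.id : M →ₗ[K] M)) = LinearMap.id := by
    rw [LinearMap.smul_comp, LinearMap.comp_smul, LinearMap.id_comp, smul_smul, hab, one_smul]
  rw [this, act_id]

theorem KerI_surj (I : Ideal R) (hI : I ^ 2 = ⊥) {n : ℕ} (hn : (n : K) ≠ 0)
    {z : SchemeHomOver (stR (K := K) R) f} (hz : KerI L I z) :
    ∃ w, KerI L I w ∧ L.nsmul _ n w = z := by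
  obtain ⟨x, hx, rfl⟩ := bump_surj I hI hz
  refine ⟨bump I hI (act ((n : K)⁻¹ • LinearMap.id) x), KerI_bump I hI (T0_act hx _), ?_⟩
  rw [← bump_nsmul, act_nsmul (T0_act hx _), act_inv (mul_inv_cancel₀ hn)]

theorem KerI_inj (I : Ideal R) (hI : I ^ 2 = ⊥) {n : ℕ} (hn : (n : K) ≠ 0)
    {z : SchemeHomOver (stR (K := K) R) f} (hz : KerI L I z) (h : L.nsmul _ n z = L.one _) :
    z = L.one _ := by
  obtain ⟨x, hx, rfl⟩ := bump_surj I hI hz
  rw [← bump_nsmul, ← bump_one I hI, act_nsmul hx] at h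
  have h1 := bump_inj I hI (T0_act hx _) T0_one h
  have h2 := congrArg (act ((n : K)⁻¹ • LinearMap.id)) h1
  rw [act_inv (inv_mul_cancel₀ hn)] at h2
  rw [h2, ← bump_one I hI]
  congr 1
  exact L.one_natural _ _ _ _

theorem lift_unique (hc : L.IsCommutative) (I : Ideal R) (hI : I ^ 2 = ⊥) {n : ℕ}
    (hn : (n : K) ≠ 0) {x x' : SchemeHomOver (stR (K := K) R) f}
    (h1 : qR I ≫ x.1 = qR I ≫ x'.1) (h2 : L.nsmul _ n x = L.nsmul _ n x') : x = x' := by
  let _ := cg L hc (stR (K := K) R)
  let _ := cg L hc (stR (K := K) (R ⧸ I))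
  let r := res L hc (qR I) (qR_stR (K := K) I)
  have hr : r x = r x' := Subtype.ext h1
  have hz : KerI L I (x⁻¹ * x') := by
    have : r (x⁻¹ * x') = 1 := by rw [map_mul, map_inv, hr, inv_mul_cancel]
    exact (congrArg Subtype.val this).trans (one_val L _)
  have hp : (x⁻¹ * x') ^ n = 1 := by
    rw [mul_pow, inv_pow]
    have e : x ^ n = x' ^ n := by
      rw [pow_eq L hc, pow_eq L hc]; exact h2
    rw [e, inv_mul_cancel]
  have h3 : x⁻¹ * x' = 1 := KerI_inj I hI hn hz ((pow_eq L hc _ _ n).symm.trans hp)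
  exact inv_mul_eq_one.1 h3

theorem lift_exists (hc : L.IsCommutative) (I : Ideal R) (hI : I ^ 2 = ⊥) {n : ℕ}
    (hn : (n : K) ≠ 0) {x y : SchemeHomOver (stR (K := K) R) f}
    (h : qR I ≫ (L.nsmul _ n x).1 = qR I ≫ y.1) :
    ∃ w : SchemeHomOver (stR (K := K) R) f, qR I ≫ w.1 = qR I ≫ x.1 ∧ L.nsmul _ n w = y := by
  let _ := cg L hc (stR (K := K) R)
  let _ := cg L hc (stR (K := K) (R ⧸ I))
  let r := res L hc (qR I) (qR_stR (K := K) I)
  have hr : r (x ^ n) = r y := by
    rw [pow_eq L hc]; exact Subtype.ext h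
  have hz : KerI L I ((x ^ n)⁻¹ * y) := by
    have : r ((x ^ n)⁻¹ * y) = 1 := by rw [map_mul, map_inv, hr, inv_mul_cancel]
    exact (congrArg Subtype.val this).trans (one_val L _)
  obtain ⟨w, hw, hwn⟩ := KerI_surj I hI hn hz
  have hw1 : r w = 1 := Subtype.ext (hw.trans (one_val L _).symm)
  have hwn' : w ^ n = (x ^ n)⁻¹ * y := (pow_eq L hc _ _ n).trans hwn
  refine ⟨x * w, ?_, ?_⟩
  · have : r (x * w) = r x := by rw [map_mul, hw1, mul_one]
    exact congrArg Subtype.val this
  · have : (x * w) ^ n = y := by rw [mul_pow, hwn', mul_inv_cancel_left]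
    exact (pow_eq L hc _ _ n).symm.trans this

end general

section final

lemma kap_smooth {V : A.Opens} (hV : IsAffineOpen V) [Smooth f] : (kap hV f).hom.Smooth := by
  have h : Smooth (Spec.map (kap hV f)) := by
    rw [map_kap]; infer_instance
  exact (HasRingHomProperty.Spec_iff (P := @Smooth)).1 h

variable (L : RelativeGroupLaw K f)

theorem etale_schemeNsmul [Smooth f] (hc : L.IsCommutative) {n : ℕ} (hn : (n : K) ≠ 0) :
    Etale (L.schemeNsmul n) := by
  constructor
  intro U hU V hV e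
  have hk : kap hU f ≫ (L.schemeNsmul n).appLE U V e = kap hV f := by
    rw [← Spec.map_inj, Spec.map_comp, map_kap, map_kap, ← Category.assoc,
      IsAffineOpen.SpecMap_appLE_fromSpec, Category.assoc, L.schemeNsmul_over]
  have hsp := IsAffineOpen.SpecMap_appLE_fromSpec (L.schemeNsmul n) hU hV e
  generalize (L.schemeNsmul n).appLE U V e = ν at hk hsp
  have hsmV := kap_smooth (f := f) hV
  have hsmU := kap_smooth (f := f) hU
  have hfp : ν.hom.FinitePresentation := by
    apply RingHom.FinitePresentation.of_comp_finiteType (kap hU f).hom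
    · rw [← CommRingCat.hom_comp, hk]
      exact hsmV.finitePresentation
    · exact RingHom.FiniteType.of_finitePresentation hsmU.finitePresentation
  letI : Algebra Γ(A, U) Γ(A, V) := ν.hom.toAlgebra
  letI : Algebra K Γ(A, U) := (kap hU f).hom.toAlgebra
  letI : Algebra K Γ(A, V) := (kap hV f).hom.toAlgebra
  haveI : IsScalarTower K Γ(A, U) Γ(A, V) := IsScalarTower.of_algebraMap_eq'
    (congrArg CommRingCat.Hom.hom hk).symm
  haveI : Algebra.FormallySmooth K Γ(A, V) := by
    have := hsmV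
    exact this.formallySmooth
  show Algebra.Etale Γ(A, U) Γ(A, V)
  refine ⟨?_, hfp⟩
  rw [Algebra.FormallyEtale.iff_comp_bijective]
  intro B _ _ I hI
  letI : Algebra K B := ((algebraMap Γ(A, U) B).comp (kap hU f).hom).toAlgebra
  haveI : IsScalarTower K Γ(A, U) B := IsScalarTower.of_algebraMap_eq' rfl
  let y : SchemeHomOver (stR (K := K) B) f :=
    ⟨Spec.map (CommRingCat.ofHom (algebraMap Γ(A, U) B)) ≫ hU.fromSpec, by
      rw [Category.assoc, ← map_kap, ← Spec.map_comp]; rfl⟩
  let pt (g : Γ(A, V) →ₐ[K] B) : SchemeHomOver (stR (K := K) B) f :=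
    ⟨Spec.map (CommRingCat.ofHom g.toRingHom) ≫ hV.fromSpec, by
      rw [Category.assoc, ← map_kap, ← Spec.map_comp, stR]
      congr 1
      exact CommRingCat.hom_ext g.comp_algebraMap⟩
  have hpt (g : Γ(A, V) →ₐ[Γ(A, U)] B) : L.nsmul _ n (pt (g.restrictScalars K)) = y := by
    apply Subtype.ext
    rw [← comp_schemeNsmul]
    show (Spec.map (CommRingCat.ofHom g.toRingHom) ≫ hV.fromSpec) ≫ _ =
      Spec.map (CommRingCat.ofHom (algebraMap Γ(A, U) B)) ≫ hU.fromSpec
    rw [Category.assoc, ← hsp, ← Category.assoc, ← Spec.map_comp]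
    congr 2
    exact CommRingCat.hom_ext g.comp_algebraMap
  constructor
  · intro g g' hgg
    have h1 : qR I ≫ (pt (g.restrictScalars K)).1 = qR I ≫ (pt (g'.restrictScalars K)).1 := by
      show qR I ≫ Spec.map (CommRingCat.ofHom g.toRingHom) ≫ hV.fromSpec =
        qR I ≫ Spec.map (CommRingCat.ofHom g'.toRingHom) ≫ hV.fromSpec
      rw [← Category.assoc, ← Category.assoc, qR, ← Spec.map_comp, ← Spec.map_comp]
      congr 2
      exact CommRingCat.hom_ext (congrArg AlgHom.toRingHom hgg)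
    have h2 := lift_unique hc I hI hn h1 ((hpt g).trans (hpt g').symm)
    have h3 : Spec.map (CommRingCat.ofHom g.toRingHom) ≫ hV.fromSpec =
      Spec.map (CommRingCat.ofHom g'.toRingHom) ≫ hV.fromSpec := congrArg Subtype.val h2
    rw [cancel_mono, Spec.map_inj] at h3
    exact AlgHom.ext fun a => congrArg (fun z => z.hom a) h3
  · intro g0
    obtain ⟨g1, hg1⟩ := Algebra.FormallySmooth.exists_lift I ⟨2, hI⟩ (g0.restrictScalars K)
    have hg1' (a : Γ(A, V)) : Ideal.Quotient.mk I (g1 a) = g0 a := DFunLike.congr_fun hg1 a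
    have h1 : qR I ≫ (pt g1).1 = Spec.map (CommRingCat.ofHom g0.toRingHom) ≫ hV.fromSpec := by
      show qR I ≫ Spec.map (CommRingCat.ofHom g1.toRingHom) ≫ hV.fromSpec = _
      rw [← Category.assoc, qR, ← Spec.map_comp]
      congr 2
      exact CommRingCat.hom_ext (RingHom.ext fun a => hg1' a)
    have h2 : qR I ≫ (L.nsmul _ n (pt g1)).1 = qR I ≫ y.1 := by
      rw [← comp_schemeNsmul, ← Category.assoc, h1, Category.assoc, ← hsp, ← Category.assoc,
        ← Spec.map_comp]
      show _ = qR I ≫ Spec.map (CommRingCat.ofHom (algebraMap Γ(A, U) B)) ≫ hU.fromSpec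
      rw [← Category.assoc, qR, ← Spec.map_comp]
      congr 2
      exact CommRingCat.hom_ext g0.comp_algebraMap
    obtain ⟨w, hw1, hw2⟩ := lift_exists hc I hI hn h2
    obtain ⟨φ, hφ⟩ := exists_factor hV (qR I) (qR_surjective I hI) w.1 (by
      rw [hw1, h1]
      rintro _ ⟨x, rfl⟩
      rw [Scheme.Hom.comp_apply]
      rw [← hV.range_fromSpec]
      exact ⟨_, rfl⟩)
    have e1 : ν ≫ φ = CommRingCat.ofHom (algebraMap Γ(A, U) B) := by
      rw [← Spec.map_inj, ← cancel_mono hU.fromSpec, Spec.map_comp, Category.assoc, hsp,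
        ← Category.assoc, ← hφ, comp_schemeNsmul, hw2]
    have e2 : φ ≫ CommRingCat.ofHom (Ideal.Quotient.mk I) = CommRingCat.ofHom g0.toRingHom := by
      rw [← Spec.map_inj, ← cancel_mono hV.fromSpec, ← h1, ← hw1, hφ, Spec.map_comp,
        Category.assoc]
      rfl
    refine ⟨{ φ.hom with commutes' := fun a => congrArg (fun z => z.hom a) e1 }, ?_⟩
    exact AlgHom.ext fun a => congrArg (fun z => z.hom a) e2

/-- **M1a**: multiplication by `n` is étale. -/
theorem M1a {K : Type u} [Field K] {A : Scheme.{u}}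
    (f : A ⟶ Spec (CommRingCat.of K)) (L : RelativeGroupLaw K f) (hc : L.IsCommutative)
    (hA : AbelianSchemePropertyBundle K f) (n : ℕ) (hn : (n : K) ≠ 0) :
    Etale (L.schemeNsmul n) :=
  haveI := hA.smooth
  etale_schemeNsmul L hc hn

end final

end

end Fermat.Agent.H07.NMul
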