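import Mathlib
import Fermat.Agent.H07.NMul
import Fermat.Agent.H20.Stk

set_option autoImplicit false

/-!
# The degree of multiplication by `n` (S26, blocks M1c and M1d)
-/

universe u

open CategoryTheory AlgebraicGeometry NeronModelInfra GoodReductionJacobian TensorProduct

namespace Fermat.Agent.H07.NMul

noncomputable section

lemma locallyQuasiFinite_of_etale {X Y : Scheme.{u}} (φ : X ⟶ Y) [Etale φ] :
    LocallyQuasiFinite φ := by
  constructor
  intro U hU V hV e
  have h := Etale.etale_appLE φ hU hV e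
  algebraize [(φ.appLE U V e).hom]
  show Algebra.QuasiFinite Γ(Y, U) Γ(X, V)
  infer_instance

/-- **M1c**: multiplication by `n` is finite and surjective. -/
theorem M1c {K : Type u} [Field K] {A : Scheme.{u}}
    (f : A ⟶ Spec (CommRingCat.of K)) (L : RelativeGroupLaw K f) (hc : L.IsCommutative)
    (hA : AbelianSchemePropertyBundle K f) (n : ℕ) (hn : (n : K) ≠ 0) :
    IsFinite (L.schemeNsmul n) ∧ Surjective (L.schemeNsmul n) := by
  have hE := M1a f L hc hA n hn
  have hP := hA.proper
  have hpr : IsProper (L.schemeNsmul n) := by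
    have : IsProper (L.schemeNsmul n ≫ f) := by
      rw [L.schemeNsmul_over]; exact hP
    exact IsProper.of_comp (L.schemeNsmul n) f
  have hq : LocallyQuasiFinite (L.schemeNsmul n) := locallyQuasiFinite_of_etale _
  refine ⟨IsFinite.of_isProper_of_locallyQuasiFinite _, ?_⟩
  have hconn : _root_.IsConnected (Set.univ : Set A) := by
    convert! hA.connectedFibres (IsLocalRing.closedPoint K) using 1
    symm
    exact Set.eq_univ_of_forall fun x => Subsingleton.elim (α := PrimeSpectrum K) _ _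
  have : ConnectedSpace A := connectedSpace_iff_univ.2 hconn
  have hclopen : IsClopen (Set.range (L.schemeNsmul n)) :=
    ⟨(L.schemeNsmul n).isClosedMap.isClosed_range, (L.schemeNsmul n).isOpenMap.isOpen_range⟩
  rcases isClopen_iff.1 hclopen with h | h
  · obtain ⟨x⟩ : Nonempty A := inferInstance
    have : L.schemeNsmul n x ∈ (∅ : Set A) := by rw [← h]; exact ⟨x, rfl⟩
    exact this.elim
  · exact ⟨Set.range_eq_univ.1 h⟩

section alg

theorem card_algHom_field {K B : Type u} [Field K] [IsAlgClosed K] [CommRing B] [Algebra K B]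
    [Module.Finite K B] [Algebra.Etale K B] : Nat.card (B →ₐ[K] K) = Module.finrank K B := by
  apply le_antisymm (card_algHom_le_finrank K B K)
  let e := Algebra.FormallyEtale.equivPiOfIsSepClosed K B
  have hfin : Finite (PrimeSpectrum B) := by
    have : IsArtinianRing B := isArtinian_of_tower K inferInstance
    infer_instance
  have := Fintype.ofFinite (PrimeSpectrum B)
  rw [e.toLinearEquiv.finrank_eq, Module.finrank_fintype_fun_eq_card, ← Nat.card_eq_fintype_card]
  let g : PrimeSpectrum B → (B →ₐ[K] K) := fun p => (Pi.evalAlgHom K (fun _ => K) p).comp e.toAlgHom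
  apply Nat.card_le_card_of_injective g
  intro p q hpq
  classical
  by_contra hne
  have h1 := DFunLike.congr_fun hpq (e.symm (Pi.single p 1))
  simp [g, hne] at h1

theorem card_algHom_eq {R S K : Type u} [CommRing R] [IsDomain R] [CommRing S] [Algebra R S]
    [Module.Finite R S] [Algebra.Etale R S] [Field K] [IsAlgClosed K] [Algebra R K] :
    Nat.card (S →ₐ[R] K) = Module.finrank R S := by
  rw [Nat.card_congr (AlgHom.liftEquiv R K S K), card_algHom_field]
  have h1 := Module.rankAtStalk_baseChange (R := R) (M := S) (⊥ : PrimeSpectrum K)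
  rw [Module.rankAtStalk_eq_finrank_of_free] at h1
  rw [← Ideal.finrank_fiber_eq_finrank (M := S)
    (PrimeSpectrum.comap (algebraMap R K) (⊥ : PrimeSpectrum K)).asIdeal,
    Ideal.finrank_fiber_eq_rankAtStalk]
  exact h1

theorem finite_algHom {R S K : Type u} [CommRing R] [CommRing S] [Algebra R S]
    [Module.Finite R S] [Field K] [Algebra R K] : Finite (S →ₐ[R] K) :=
  Finite.of_equiv _ (AlgHom.liftEquiv R K S K).symm

theorem finrank_fieldRange {R S F₁ F₂ : Type*} [CommRing R] [CommRing S] [Field F₁] [Field F₂]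
    [Algebra R S] [Algebra R F₁] [Algebra S F₂] [IsFractionRing R F₁] [IsFractionRing S F₂]
    (N : F₁ →+* F₂) (h : ∀ a : R, N (algebraMap R F₁ a) = algebraMap S F₂ (algebraMap R S a)) :
    Module.finrank N.fieldRange F₂ = Module.finrank R S := by
  letI : Algebra R N.fieldRange := (N.rangeRestrictField.comp (algebraMap R F₁)).toAlgebra
  letI : Algebra R F₂ := ((algebraMap S F₂).comp (algebraMap R S)).toAlgebra
  haveI : IsScalarTower R S F₂ := IsScalarTower.of_algebraMap_eq' rfl
  haveI : IsScalarTower R N.fieldRange F₂ := IsScalarTower.of_algebraMap_eq fun a => (h a).symm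
  let e : F₁ ≃ₐ[R] N.fieldRange :=
    { RingEquiv.ofBijective N.rangeRestrictField
        ⟨N.rangeRestrictField.injective, N.rangeRestrictField_bijective.2⟩ with
      commutes' := fun a => rfl }
  haveI : IsFractionRing R N.fieldRange :=
    IsLocalization.isLocalization_of_algEquiv (nonZeroDivisors R) e
  exact IsFractionRing.finrank_eq R N.fieldRange S F₂

end alg

section main

open Fermat.Agent.H20

variable {K : Type u} [Field K] {A : Scheme.{u}} {f : A ⟶ Spec (CommRingCat.of K)}

lemma rho_germ [IsIntegral A] (φ : A ⟶ A) (U : A.Opens) [Nonempty U] [Nonempty (φ ⁻¹ᵁ U : A.Opens)]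
    (a : Γ(A, U)) (h : A.germToFunctionField U a ∈ stk A (φ (genericPoint A))) :
    rho φ ⟨A.germToFunctionField U a, h⟩ =
      A.germToFunctionField (φ ⁻¹ᵁ U) ((φ.app U).hom a) := by
  have hη : φ (genericPoint A) ∈ U := generic_mem (U := φ ⁻¹ᵁ U) (by
    obtain ⟨x⟩ := ‹Nonempty (φ ⁻¹ᵁ U : A.Opens)›
    exact ⟨x.1, x.2⟩)
  have e1 : A.germToFunctionField U a = algebraMap (A.presheaf.stalk (φ (genericPoint A)))
      A.functionField (A.presheaf.germ U (φ (genericPoint A)) hη a) :=
    (A.algebraMap_germ_eq_germToFunctionField hη a).symm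
  have e2 : (⟨A.germToFunctionField U a, h⟩ : stk A (φ (genericPoint A))) =
      ⟨algebraMap (A.presheaf.stalk (φ (genericPoint A)))
      A.functionField (A.presheaf.germ U (φ (genericPoint A)) hη a), e1 ▸ h⟩ := Subtype.ext e1
  rw [e2, rho_apply]
  exact φ.germ_stalkMap_apply U (genericPoint A) hη a

/-- Torsion points as algebra homomorphisms. -/
theorem card_torsion_eq [IsAlgClosed K] [IsIntegral A] (L : RelativeGroupLaw K f) (n : ℕ)
    [IsFinite (L.schemeNsmul n)] [Etale (L.schemeNsmul n)] {U : A.Opens} (hU : IsAffineOpen U)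
    (h0 : Set.range (org L) ⊆ U) :
    Nat.card {x : SchemeHomOver (𝟙 (Spec (CommRingCat.of K))) f //
        L.IsTorsionPoint (𝟙 (Spec (CommRingCat.of K))) n x} =
      letI := ((L.schemeNsmul n).app U).hom.toAlgebra
      Module.finrank Γ(A, U) Γ(A, L.schemeNsmul n ⁻¹ᵁ U) := by
  let p : Spec (CommRingCat.of K) := IsLocalRing.closedPoint K
  have hne : Nonempty U := ⟨⟨org L p, h0 ⟨p, rfl⟩⟩⟩
  have hV : IsAffineOpen (L.schemeNsmul n ⁻¹ᵁ U) := hU.preimage _
  obtain ⟨ε, hε⟩ := exists_factor hU (𝟙 _) Function.surjective_id (org L) (by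
    rw [Category.id_comp]; exact h0)
  have hsp := IsAffineOpen.SpecMap_appLE_fromSpec (L.schemeNsmul n) hU hV le_rfl
  have het := Etale.etale_appLE (L.schemeNsmul n) hU hV le_rfl
  have happ : (L.schemeNsmul n).appLE U (L.schemeNsmul n ⁻¹ᵁ U) le_rfl =
    (L.schemeNsmul n).app U := Scheme.Hom.appLE_eq_app _
  have hfi := IsFinite.finite_app (f := L.schemeNsmul n) U hU
  rw [happ] at hsp het
  generalize (L.schemeNsmul n).app U = ν at *
  letI : Algebra Γ(A, U) Γ(A, L.schemeNsmul n ⁻¹ᵁ U) := ν.hom.toAlgebra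
  letI : Algebra Γ(A, U) K := ε.hom.toAlgebra
  haveI : Module.Finite Γ(A, U) Γ(A, L.schemeNsmul n ⁻¹ᵁ U) := hfi
  haveI : Algebra.Etale Γ(A, U) Γ(A, L.schemeNsmul n ⁻¹ᵁ U) := het
  rw [← card_algHom_eq (R := Γ(A, U)) (S := Γ(A, L.schemeNsmul n ⁻¹ᵁ U)) (K := K)]
  symm
  have hg (g : Γ(A, L.schemeNsmul n ⁻¹ᵁ U) →ₐ[Γ(A, U)] K) :
      (Spec.map (CommRingCat.ofHom g.toRingHom) ≫ hV.fromSpec) ≫ L.schemeNsmul n = org L := by
    rw [Category.assoc, ← hsp, ← Category.assoc, ← Spec.map_comp, hε]
    congr 2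
    exact CommRingCat.hom_ext g.comp_algebraMap
  let F : (Γ(A, L.schemeNsmul n ⁻¹ᵁ U) →ₐ[Γ(A, U)] K) →
      {x : SchemeHomOver (𝟙 (Spec (CommRingCat.of K))) f //
        L.IsTorsionPoint (𝟙 (Spec (CommRingCat.of K))) n x} := fun g =>
    ⟨⟨Spec.map (CommRingCat.ofHom g.toRingHom) ≫ hV.fromSpec, by
      have e1 := congrArg (fun z => z ≫ f) (hg g)
      rw [Category.assoc _ (L.schemeNsmul n) f, L.schemeNsmul_over n] at e1
      exact e1.trans (L.one (𝟙 _)).2⟩, by
      apply Subtype.ext
      rw [← comp_schemeNsmul]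
      exact hg g⟩
  refine Nat.card_congr (Equiv.ofBijective F ⟨?_, ?_⟩)
  · intro g g' hgg
    have h1 : Spec.map (CommRingCat.ofHom g.toRingHom) ≫ hV.fromSpec =
      Spec.map (CommRingCat.ofHom g'.toRingHom) ≫ hV.fromSpec :=
      congrArg (fun z => z.1.1) hgg
    rw [cancel_mono, Spec.map_inj] at h1
    exact AlgHom.ext fun a => congrArg (fun z => z.hom a) h1
  · rintro ⟨x, hx⟩
    have hx1 : x.1 ≫ L.schemeNsmul n = org L := by
      rw [comp_schemeNsmul]; exact congrArg Subtype.val hx
    obtain ⟨ψ, hψ⟩ := exists_factor hV (𝟙 _) Function.surjective_id x.1 (by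
      rw [Category.id_comp]
      rintro _ ⟨y, rfl⟩
      show L.schemeNsmul n (x.1 y) ∈ U
      rw [← Scheme.Hom.comp_apply, hx1]
      exact h0 ⟨y, rfl⟩)
    have e1 : ν ≫ ψ = ε := by
      rw [← Spec.map_inj, ← cancel_mono hU.fromSpec, Spec.map_comp, Category.assoc, hsp,
        ← Category.assoc, ← hψ, hx1, hε]
    refine ⟨{ ψ.hom with commutes' := fun a => congrArg (fun z => z.hom a) e1 }, ?_⟩
    apply Subtype.ext
    apply Subtype.ext
    exact hψ.symm

end main

/-- **M1d**: the degree of multiplication by `n` is the number of torsion points. -/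
theorem M1d {K : Type u} [Field K] [IsAlgClosed K] {A : Scheme.{u}} [IsIntegral A]
    (f : A ⟶ Spec (CommRingCat.of K)) (L : RelativeGroupLaw K f) (hc : L.IsCommutative)
    (hA : AbelianSchemePropertyBundle K f) (n : ℕ) (hn : (n : K) ≠ 0)
    (hgen : L.schemeNsmul n (genericPoint A) = genericPoint A) :
    0 < Nat.card {x : SchemeHomOver (𝟙 (Spec (CommRingCat.of K))) f //
        L.IsTorsionPoint (𝟙 (Spec (CommRingCat.of K))) n x} ∧
    ∀ N : A.functionField →+* A.functionField,
      (∀ h : A.functionField, N h = H20.rho (L.schemeNsmul n)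
        ⟨h, by rw [hgen]; exact H20.stk_genericPoint h⟩) →
      Module.finrank N.fieldRange A.functionField =
      Nat.card {x : SchemeHomOver (𝟙 (Spec (CommRingCat.of K))) f //
        L.IsTorsionPoint (𝟙 (Spec (CommRingCat.of K))) n x} := by
  have hE := M1a f L hc hA n hn
  obtain ⟨hfin, hsurj⟩ := M1c f L hc hA n hn
  obtain ⟨U, hU, h0⟩ := exists_affine (L := L)
  have hcard := card_torsion_eq L n hU h0
  let p : Spec (CommRingCat.of K) := IsLocalRing.closedPoint K
  have hne : Nonempty U := ⟨⟨org L p, h0 ⟨p, rfl⟩⟩⟩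
  have hV : IsAffineOpen (L.schemeNsmul n ⁻¹ᵁ U) := hU.preimage _
  have hneV : Nonempty (L.schemeNsmul n ⁻¹ᵁ U : A.Opens) := by
    obtain ⟨y, hy⟩ := hsurj.surj (org L p)
    exact ⟨⟨y, by show L.schemeNsmul n y ∈ U; rw [hy]; exact h0 ⟨p, rfl⟩⟩⟩
  letI : Algebra Γ(A, U) Γ(A, L.schemeNsmul n ⁻¹ᵁ U) := ((L.schemeNsmul n).app U).hom.toAlgebra
  haveI := functionField_isFractionRing_of_isAffineOpen A U hU
  haveI := functionField_isFractionRing_of_isAffineOpen A (L.schemeNsmul n ⁻¹ᵁ U) hV
  have key : ∀ N : A.functionField →+* A.functionField,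
      (∀ h : A.functionField, N h = H20.rho (L.schemeNsmul n)
        ⟨h, by rw [hgen]; exact H20.stk_genericPoint h⟩) →
      Module.finrank N.fieldRange A.functionField =
        Module.finrank Γ(A, U) Γ(A, L.schemeNsmul n ⁻¹ᵁ U) := by
    intro N hN
    refine finrank_fieldRange (R := Γ(A, U)) (S := Γ(A, L.schemeNsmul n ⁻¹ᵁ U)) N fun a => ?_
    rw [hN]
    exact rho_germ (L.schemeNsmul n) U a _
  refine ⟨?_, fun N hN => (key N hN).trans hcard.symm⟩
  have hfi : Module.Finite Γ(A, U) Γ(A, L.schemeNsmul n ⁻¹ᵁ U) :=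
    IsFinite.finite_app (f := L.schemeNsmul n) U hU
  have het : Algebra.Etale Γ(A, U) Γ(A, L.schemeNsmul n ⁻¹ᵁ U) := by
    have h1 := Etale.etale_appLE (L.schemeNsmul n) hU hV le_rfl
    rw [Scheme.Hom.appLE_eq_app] at h1
    exact h1
  rw [hcard]
  exact Module.finrank_pos (R := Γ(A, U)) (M := Γ(A, L.schemeNsmul n ⁻¹ᵁ U))

end

end Fermat.Agent.H07.NMul
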